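import Fermat.Agent.DeligneSerre.Curve.Injective
import Fermat.Agent.EichlerShimura.HeckeNorm
import Fermat.Agent.EichlerShimura.SeriesFrob

/-!
# Reduction of fractions of integral series
-/

set_option autoImplicit false
set_option linter.unusedSectionVars false
set_option maxHeartbeats 1000000
set_option synthInstance.maxHeartbeats 400000

noncomputable section

open IsLocalRing ModularCurve AlgebraicCurve
open Fermat.Agent.RedTorsion (serInt serRed serRed_coeffMap algebraMap_mem_serInt serRed_algebraMap)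
open Fermat.Agent.EichlerShimura (Kappa Model)
open scoped Classical

namespace Fermat.Agent.DeligneSerre.Curve

section Basic

variable {L : Type*} [Field L] [Algebra ℚ L] [CharZero L] [IsAlgClosed L]
  [Algebra.IsAlgebraic ℚ L] {A : ValuationSubring L}

/-- Reductions are unique. -/
theorem IntFrac.unique {y : LaurentSeries L} {z z' : LaurentSeries (ResidueField A)}
    (h : IntFrac y z) (h' : IntFrac y z') : z = z' := by
  obtain ⟨d, p, hd, h1, h2⟩ := h
  obtain ⟨d', p', hd', h1', h2'⟩ := h'
  have he : p * d' = p' * d := Subtype.ext (by push_cast; rw [← h1, ← h1']; ring)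
  have h3 := congrArg (serRed A) he
  rw [map_mul, map_mul, ← h2, ← h2'] at h3
  exact mul_right_cancel₀ (mul_ne_zero hd hd') (by linear_combination h3)

theorem IntFrac.const {c : L} (hc : c ∈ A) :
    IntFrac (algebraMap L (LaurentSeries L) c)
      (algebraMap (ResidueField A) (LaurentSeries (ResidueField A)) (residue A ⟨c, hc⟩)) := by
  rw [← serRed_algebraMap hc]
  exact IntFrac.of_serInt ⟨_, algebraMap_mem_serInt hc⟩

theorem IntFrac.pow {y : LaurentSeries L} {z : LaurentSeries (ResidueField A)} (h : IntFrac y z) :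
    ∀ n : ℕ, IntFrac (y ^ n) (z ^ n)
  | 0 => by simpa using IntFrac.of_serInt (A := A) 1
  | n + 1 => by rw [pow_succ, pow_succ]; exact (h.pow n).mul h

theorem IntFrac.prod {ι : Type*} (s : Finset ι) {y : ι → LaurentSeries L}
    {z : ι → LaurentSeries (ResidueField A)} (h : ∀ i ∈ s, IntFrac (y i) (z i)) :
    IntFrac (∏ i ∈ s, y i) (∏ i ∈ s, z i) := by
  induction s using Finset.cons_induction with
  | empty => simpa using IntFrac.of_serInt (A := A) 1
  | cons i s hi ih =>
    rw [Finset.prod_cons, Finset.prod_cons]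
    exact (h i (Finset.mem_cons_self i s)).mul (ih fun j hj => h j (Finset.mem_cons_of_mem hj))

/-- A multiple of an element with non-zero reduction with a reduction is by an integral constant. -/
theorem IntFrac.exists_mem {a : LaurentSeries L} {za zc : LaurentSeries (ResidueField A)} {c : L}
    (ha : IntFrac a za) (hza : za ≠ 0) (hca : IntFrac (algebraMap L (LaurentSeries L) c * a) zc) :
    ∃ hc : c ∈ A, zc
      = algebraMap (ResidueField A) (LaurentSeries (ResidueField A)) (residue A ⟨c, hc⟩) * za := by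
  have hc : c ∈ A := by
    by_contra hcA
    have hc0 : c ≠ 0 := fun h => hcA (h ▸ zero_mem A)
    have hinv : A.valuation c⁻¹ < 1 := by
      rw [map_inv₀, inv_lt_one₀ ((Valuation.pos_iff _).mpr hc0)]
      exact not_le.mp fun h => hcA ((A.valuation_le_one_iff c).mp h)
    have hinvA : c⁻¹ ∈ A := (A.valuation_le_one_iff _).mp hinv.le
    have h0 : residue A ⟨c⁻¹, hinvA⟩ = 0 :=
      (IsLocalRing.residue_eq_zero_iff _).mpr ((A.valuation_lt_one_iff _).mpr hinv)
    have h1 := (IntFrac.const hinvA).mul hca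
    rw [← mul_assoc, ← map_mul, inv_mul_cancel₀ hc0, map_one, one_mul, h0, map_zero, zero_mul] at h1
    exact hza (ha.unique h1)
  exact ⟨hc, hca.unique ((IntFrac.const hc).mul ha)⟩

/-- Reductions commute with automorphisms preserving `A`. -/
theorem IntFrac.map {σ : L →+* L} {σA : A →+* A} {σk : ResidueField A →+* ResidueField A}
    (hσA : ∀ a : A, (σA a : L) = σ a) (hσk : ∀ a : A, residue A (σA a) = σk (residue A a))
    {y : LaurentSeries L} {z : LaurentSeries (ResidueField A)} (h : IntFrac y z) :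
    IntFrac (coeffMap σ y) (coeffMap σk z) := by
  have key : ∀ f : serInt A, ∃ g : serInt A, (g : LaurentSeries L) = coeffMap σ (f : LaurentSeries L) ∧
      serRed A g = coeffMap σk (serRed A f) := by
    rintro ⟨_, w, rfl⟩
    refine ⟨⟨_, coeffMap σA w, rfl⟩, ?_, ?_⟩
    · show coeffMap A.subtype (coeffMap σA w) = coeffMap σ (coeffMap A.subtype w)
      rw [coeffMap_coeffMap, coeffMap_coeffMap]
      exact coeffMap_congr (RingHom.ext hσA) w
    · refine (serRed_coeffMap (coeffMap σA w) _).trans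
        (Eq.trans ?_ (congrArg (coeffMap σk) (serRed_coeffMap w _).symm))
      rw [coeffMap_coeffMap, coeffMap_coeffMap]
      exact coeffMap_congr (RingHom.ext hσk) w
  obtain ⟨d, p, hd, h1, h2⟩ := h
  obtain ⟨d', hd1, hd2⟩ := key d
  obtain ⟨p', hp1, hp2⟩ := key p
  refine ⟨d', p', ?_, ?_, ?_⟩
  · rw [hd2]; exact (map_ne_zero _).mpr hd
  · rw [hd1, hp1, ← h1, map_mul]
  · rw [hd2, hp2, ← h2, map_mul]

theorem IntFrac.qExpand (n : ℕ) [NeZero n] {y : LaurentSeries L}
    {z : LaurentSeries (ResidueField A)} (h : IntFrac y z) :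
    IntFrac (ModularCurve.qExpand L n y) (ModularCurve.qExpand (ResidueField A) n z) := by
  have key : ∀ f : serInt A, ∃ g : serInt A,
      (g : LaurentSeries L) = ModularCurve.qExpand L n (f : LaurentSeries L) ∧
      serRed A g = ModularCurve.qExpand (ResidueField A) n (serRed A f) := by
    rintro ⟨_, w, rfl⟩
    refine ⟨⟨_, ModularCurve.qExpand A n w, rfl⟩, ?_, ?_⟩
    · exact coeffMap_qExpand A.subtype n w
    · refine (serRed_coeffMap (ModularCurve.qExpand A n w) _).trans
        (Eq.trans ?_ (congrArg (ModularCurve.qExpand (ResidueField A) n) (serRed_coeffMap w _).symm))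
      rw [coeffMap_qExpand]
  obtain ⟨d, p, hd, h1, h2⟩ := h
  obtain ⟨d', hd1, hd2⟩ := key d
  obtain ⟨p', hp1, hp2⟩ := key p
  refine ⟨d', p', ?_, ?_, ?_⟩
  · rw [hd2]; exact (map_ne_zero _).mpr hd
  · rw [hd1, hp1, ← h1, map_mul]
  · rw [hd2, hp2, ← h2, map_mul]

end Basic

variable {A : ValuationSubring (AlgebraicClosure ℚ)}

local notation "Qa" => AlgebraicClosure ℚ

/-- Twisting by a `p`-th root of unity does not change reductions in characteristic `p`. -/
theorem IntFrac.twist {p : ℕ} [NeZero p] (hp : p.Prime) [CharP (ResidueField A) p] (u : Qaˣ)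
    (hu : u ^ p = 1) {y : LaurentSeries Qa} {z : LaurentSeries (ResidueField A)} (h : IntFrac y z) :
    IntFrac (ModFun.twist u y) z := by
  have key : ∀ f : serInt A, ∃ g : serInt A,
      (g : LaurentSeries Qa) = ModFun.twist u (f : LaurentSeries Qa) ∧ serRed A g = serRed A f := by
    rintro ⟨_, w, rfl⟩
    obtain ⟨w', hw1, hw2⟩ := EichlerShimura.exists_twist_lift (residue A) hp u hu w
    exact ⟨⟨_, w', rfl⟩, hw1,
      (serRed_coeffMap w' _).trans (hw2.trans (serRed_coeffMap w _).symm)⟩
  obtain ⟨d, p', hd, h1, h2⟩ := h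
  obtain ⟨d', hd1, hd2⟩ := key d
  obtain ⟨p'', hp1, hp2⟩ := key p'
  refine ⟨d', p'', ?_, ?_, ?_⟩
  · rw [hd2]; exact hd
  · rw [hd1, hp1, ← h1, map_mul]
  · rw [hd2, hp2, ← h2]

variable {M : ℕ} [NeZero M] [GoodLevel M] [IsAlgClosed (ResidueField A)]
  (hM : (M : ResidueField A) ≠ 0)

local notation "E₁" => JacTorsion.FQ (F1 M)

include hM

/-- Every non-zero function has a constant multiple with non-zero reduction. -/
theorem exists_intFrac (y : E₁) (hy : y ≠ 0) : ∃ c : Qa, c ≠ 0 ∧ ∃ z, z ≠ 0 ∧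
    IntFrac ((algebraMap Qa E₁ c * y : E₁) : LaurentSeries Qa) (z : LaurentSeries (ResidueField A)) := by
  obtain ⟨c, hc, w, hw, hw0⟩ := (model1 hM).exists_scale' hy
  refine ⟨c⁻¹, inv_ne_zero hc, toSer hM ((model1 hM).red w),
    (map_ne_zero_iff _ (toSer_injective hM)).mpr hw0, ?_⟩
  have he : algebraMap Qa E₁ c⁻¹ * y = (w : E₁) := by
    rw [hw, ← RatFunc.algebraMap_eq_C, ← IsScalarTower.algebraMap_apply Qa (RatFunc Qa) E₁,
      ← mul_assoc, ← map_mul, inv_mul_cancel₀ hc, map_one, one_mul]
  rw [he]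
  exact intFrac_model1 hM w

/-- An element with a non-zero reduction lies in the lattice, compatibly. -/
theorem exists_mem_model1_of_intFrac (y : E₁) {z : LaurentSeries (ResidueField A)} (hz : z ≠ 0)
    (h : IntFrac (y : LaurentSeries Qa) z) :
    ∃ hy : y ∈ (model1 hM).S, toSer hM ((model1 hM).red ⟨y, hy⟩) = z := by
  have hy0 : y ≠ 0 := by
    rintro rfl
    exact hz (h.unique (by simpa using IntFrac.of_serInt (A := A) 0))
  obtain ⟨c, hc, w, hw, hw0⟩ := (model1 hM).exists_scale' hy0
  have hy' : (y : LaurentSeries Qa)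
      = algebraMap Qa (LaurentSeries Qa) c * ((w : E₁) : LaurentSeries Qa) := by
    rw [hw, IntermediateField.coe_mul, ← RatFunc.algebraMap_eq_C,
      ← IsScalarTower.algebraMap_apply Qa (RatFunc Qa) E₁, IntermediateField.coe_algebraMap_apply]
  obtain ⟨hcA, -⟩ := (intFrac_model1 hM w).exists_mem
    ((map_ne_zero_iff _ (toSer_injective hM)).mpr hw0) (hy' ▸ h)
  have hmem : y ∈ (model1 hM).S := by
    rw [hw]
    exact mul_mem ((model1 hM).algebraMap_mem (EichlerShimura.C_mem_Og hcA)) w.2
  exact ⟨hmem, (intFrac_model1 hM ⟨y, hmem⟩).unique h⟩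

/-- Reductions descend along `q ↦ q ^ n`. -/
theorem intFrac_of_qExpand {n : ℕ} [NeZero n] (y : E₁) {z : LaurentSeries (ResidueField A)}
    (hz : z ≠ 0)
    (h : IntFrac (qExpand Qa n (y : LaurentSeries Qa)) (qExpand (ResidueField A) n z)) :
    IntFrac (y : LaurentSeries Qa) z := by
  have hy0 : y ≠ 0 := by
    rintro rfl
    exact hz (qExpand_injective n ((h.unique (by simpa using IntFrac.of_serInt (A := A) 0)).trans
      (map_zero _).symm))
  obtain ⟨c, hc, zc, hzc, hcy⟩ := exists_intFrac hM y hy0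
  rw [IntermediateField.coe_mul, IntermediateField.coe_algebraMap_apply] at hcy
  have hq : ∀ (K : Type) [Field K] (a : K), qExpand K n (algebraMap K (LaurentSeries K) a)
      = algebraMap K (LaurentSeries K) a := fun K _ a => by
    rw [algebraMap_laurentSeries_eq_single, qExpand_single, mul_zero]
  have h1 := hcy.qExpand n
  rw [map_mul, hq] at h1
  obtain ⟨hcA, he⟩ := h.exists_mem ((map_ne_zero _).mpr hz) h1
  rw [← hq (ResidueField A), ← map_mul] at he
  have he' := qExpand_injective n he
  have hres : residue A ⟨c, hcA⟩ ≠ 0 := fun h0 => hzc (by rw [he', h0, map_zero, zero_mul])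
  have hinv : c⁻¹ ∈ A := by
    have hu : IsUnit (⟨c, hcA⟩ : A) := (IsLocalRing.residue_ne_zero_iff_isUnit _).mp hres
    obtain ⟨v, hv⟩ := hu
    have h2 : c⁻¹ = ((↑v⁻¹ : A) : Qa) := by
      refine inv_eq_of_mul_eq_one_right ?_
      have := congrArg (fun x : A => (x : Qa)) v.mul_inv
      rw [hv] at this
      exact this
    rw [h2]; exact SetLike.coe_mem _
  have h3 := (IntFrac.const hinv).mul hcy
  rw [← mul_assoc, ← map_mul, inv_mul_cancel₀ hc, map_one, one_mul, he', ← mul_assoc, ← map_mul,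
    ← map_mul, show (⟨c⁻¹, hinv⟩ : A) * ⟨c, hcA⟩ = 1 from Subtype.ext (inv_mul_cancel₀ hc),
    map_one, map_one, one_mul] at h3
  exact h3

/-- A function with `l`-divisible divisor whose reduction is an `l`-th power of the reduction of a
function is an `l`-th power. -/
theorem exists_root_of_intFrac {l : ℕ} (hl : l.Prime) (hlA : (l : ResidueField A) ≠ 0) (h u : E₁)
    {zu : LaurentSeries (ResidueField A)} (hu : IntFrac (u : LaurentSeries Qa) zu) (hzu : zu ≠ 0)
    (hh : IntFrac (h : LaurentSeries Qa) (zu ^ l))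
    (hd : ∀ P : Place Qa E₁, (l : ℤ) ∣ P.ord h) : ∃ g : E₁, g ^ l = h := by
  obtain ⟨hhS, hhred⟩ := exists_mem_model1_of_intFrac hM h (pow_ne_zero _ hzu) hh
  obtain ⟨huS, hured⟩ := exists_mem_model1_of_intFrac hM u hzu hu
  exact exists_root_of_red_model1 hM hl hlA ⟨h, hhS⟩ ⟨u, huS⟩
    (toSer_injective hM (by rw [map_pow, hhred, hured]))
    (fun h0 => hzu (by rw [← hured, h0, map_zero])) hd

end Fermat.Agent.DeligneSerre.Curve
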