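import Fermat.Agent.DeligneSerre.Curve.GalKummer
import Fermat.Agent.DeligneSerre.Curve.RedFrac
import Fermat.Agent.Arith.Frobenius
import Fermat.Agent.Arith.RootsOfUnity

/-!
# The congruence relation on Kummer classes
-/

set_option autoImplicit false
set_option linter.unusedSectionVars false
set_option maxHeartbeats 1000000
set_option synthInstance.maxHeartbeats 400000

noncomputable section

open ModularCurve AlgebraicCurve IsLocalRing
open scoped Pointwise
open Fermat.Agent.Arith (GQ QBar)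
open Fermat.Agent.JacTorsion (divGrp powGrp KummerGrp FQ extQ gal)

namespace Fermat.Agent.DeligneSerre.Curve

variable {M : ℕ} [NeZero M] [GoodLevel M] {m : ℕ} [NeZero m]

local notation "E₁" => FQ (F1 M)
local notation "Qa" => AlgebraicClosure ℚ

/-! ### Classes -/

theorem coordF_pow (f : divGrp Qa E₁ m) (n : ℕ) : coordF (f ^ n) = n • coordF f := by
  induction n with
  | zero =>
    show (coordsK M m (QuotientGroup.mk 1)).toAdd = _
    rw [QuotientGroup.mk_one, map_one, toAdd_one, zero_smul]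
  | succ n ih => rw [pow_succ, coordF_mul, ih, succ_nsmul]

theorem coordF_eq_zero_of_root (f : divGrp Qa E₁ m) {y : E₁}
    (hy : y ^ m = ((f : (E₁)ˣ) : E₁)) : coordF f = 0 := by
  have hy0 : y ≠ 0 := fun h => Units.ne_zero (f : (E₁)ˣ) (by
    rw [← hy, h, zero_pow (NeZero.ne m)])
  have h1 : (1 : divGrp Qa E₁ m)⁻¹ * f ∈ powGrp Qa E₁ m := by
    rw [inv_one, one_mul]
    exact ⟨Units.mk0 y hy0, Units.ext (by
      rw [powMonoidHom_apply, Units.val_pow_eq_pow_val, Units.val_mk0, hy]; rfl)⟩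
  rw [← coordF_eq_of_mem _ _ h1]
  have := coordF_pow f 0
  rwa [pow_zero, zero_smul] at this

/-- A multiple by a constant lies in the same class. -/
theorem exists_const_mul_mem (f : divGrp Qa E₁ m) {c : Qa} (hc : c ≠ 0) :
    ∃ g : divGrp Qa E₁ m, ((g : (E₁)ˣ) : E₁) = algebraMap Qa E₁ c * ((f : (E₁)ˣ) : E₁) ∧
      coordF g = coordF f := by
  have hc' : algebraMap Qa E₁ c ≠ 0 := (map_ne_zero _).mpr hc
  have hmem : Units.mk0 _ hc' ∈ divGrp Qa E₁ m := fun P => by
    rw [Units.val_mk0, FF.ord_algebraMap]; exact dvd_zero _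
  set g : divGrp Qa E₁ m := ⟨Units.mk0 _ hc', hmem⟩ with hg
  have hgc : ((g : (E₁)ˣ) : E₁) = algebraMap Qa E₁ c := by rw [hg, Units.val_mk0]
  refine ⟨g * f, by rw [Subgroup.coe_mul, Units.val_mul, hgc], ?_⟩
  obtain ⟨r, hr⟩ := IsAlgClosed.exists_pow_nat_eq c (Nat.pos_of_ne_zero (NeZero.ne m))
  rw [coordF_mul, coordF_eq_zero_of_root g (y := algebraMap Qa E₁ r)
    (by rw [← map_pow, hr, hgc]), zero_add]

/-! ### Automorphisms preserving `A` -/

section Residue

variable {A : ValuationSubring Qa} {σ : GQ} (h : σ • A = A)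

include h in
theorem inv_smul_eq_self : σ⁻¹ • A = A := by
  conv_lhs => rw [← h]
  rw [inv_smul_smul]

/-- The automorphism of `A`. -/
def galA : A ≃+* A where
  toFun a := ⟨σ a, Arith.map_mem_of_mem_decomposition h a.2⟩
  invFun a := ⟨σ⁻¹ a, Arith.map_mem_of_mem_decomposition (inv_smul_eq_self h) a.2⟩
  left_inv a := Subtype.ext (σ.symm_apply_apply (a : Qa))
  right_inv a := Subtype.ext (σ.apply_symm_apply (a : Qa))
  map_mul' a b := Subtype.ext (map_mul σ (a : Qa) b)
  map_add' a b := Subtype.ext (map_add σ (a : Qa) b)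

/-- The automorphism of the residue field. -/
def galRes : ResidueField A →+* ResidueField A :=
  (IsLocalRing.ResidueField.mapEquiv (galA h)).toRingHom

theorem galRes_residue (a : A) : galRes h (residue A a) = residue A (galA h a) := rfl

variable [IsAlgClosed (ResidueField A)]

/-- Reductions of conjugates. -/
theorem intFrac_gal (f : E₁) {z : LaurentSeries (ResidueField A)}
    (hz : IntFrac ((f : E₁) : LaurentSeries Qa) z) :
    IntFrac ((arithmeticGalois (F1 M) σ • f : E₁) : LaurentSeries Qa) (coeffMap (galRes h) z) :=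
  hz.map (σA := (galA h).toRingHom) (fun _ => rfl) fun _ => (galRes_residue h _).symm

end Residue

/-! ### The relations -/

variable {ℓ : ℕ} [Fact ℓ.Prime] (hℓM : ℓ ∣ M)
  (p : {p : ℕ // p.Prime ∧ ¬ p ∣ M}) {A : ValuationSubring Qa} (hA : A.LiesOverPrime p.1)

include hA in
theorem natCast_level_ne_zero : (M : ResidueField A) ≠ 0 := by
  have := Arith.residueField_charP hA p.2.1
  exact fun h => p.2.2 ((CharP.cast_eq_zero_iff (ResidueField A) p.1 M).1 h)

include hA hℓM in
theorem natCast_ell_ne_zero : (ℓ : ResidueField A) ≠ 0 := by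
  have := Arith.residueField_charP hA p.2.1
  exact fun h => p.2.2 (dvd_trans ((CharP.cast_eq_zero_iff (ResidueField A) p.1 ℓ).1 h) hℓM)

include hA in
/-- Each class has a representative with non-zero reduction. -/
theorem exists_normalised (f : divGrp Qa E₁ m) [IsAlgClosed (ResidueField A)] :
    ∃ (c : Qa) (g : divGrp Qa E₁ m) (z : LaurentSeries (ResidueField A)), c ≠ 0 ∧
      ((g : (E₁)ˣ) : E₁) = algebraMap Qa E₁ c * ((f : (E₁)ˣ) : E₁) ∧ coordF g = coordF f ∧ z ≠ 0 ∧
      IntFrac (((g : (E₁)ˣ) : E₁) : LaurentSeries Qa) z := by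
  obtain ⟨c, hc, z, hz0, hz⟩ := exists_intFrac (natCast_level_ne_zero p hA)
    ((f : (E₁)ˣ) : E₁) (Units.ne_zero _)
  obtain ⟨g, hg, hgc⟩ := exists_const_mul_mem f hc
  exact ⟨c, g, z, hc, hg, hgc, hz0, by rw [hg]; exact hz⟩

include hA hℓM in
/-- `[h] = [U]` if `h` and `U` have the same non-zero reduction. -/
theorem coordF_eq_of_intFrac [IsAlgClosed (ResidueField A)] (h U : divGrp Qa E₁ ℓ)
    {z : LaurentSeries (ResidueField A)} (hz : z ≠ 0)
    (hh : IntFrac (((h : (E₁)ˣ) : E₁) : LaurentSeries Qa) z)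
    (hU : IntFrac (((U : (E₁)ˣ) : E₁) : LaurentSeries Qa) z) : coordF h = coordF U := by
  have hl : ℓ.Prime := Fact.out
  set h' : divGrp Qa E₁ ℓ := h * U ^ (ℓ - 1) with hh'
  have hcoe : ((h' : (E₁)ˣ) : E₁) = ((h : (E₁)ˣ) : E₁) * ((U : (E₁)ˣ) : E₁) ^ (ℓ - 1) := rfl
  have hred : IntFrac (((h' : (E₁)ˣ) : E₁) : LaurentSeries Qa) (z ^ ℓ) := by
    rw [hcoe, IntermediateField.coe_mul, IntermediateField.coe_pow,
      show z ^ ℓ = z * z ^ (ℓ - 1) by rw [← pow_succ', Nat.sub_add_cancel hl.one_le]]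
    exact hh.mul (hU.pow _)
  obtain ⟨g, hg⟩ := exists_root_of_intFrac (natCast_level_ne_zero p hA) hl
    (natCast_ell_ne_zero hℓM p hA) _ ((U : (E₁)ˣ) : E₁) hU hz hred h'.2
  have h0 := coordF_eq_zero_of_root h' hg
  rw [hh', coordF_mul, coordF_pow] at h0
  have h1 : ((ℓ - 1 : ℕ) • coordF U : Fin (homRank M) → ZMod ℓ) = -coordF U := by
    funext b
    rw [Pi.smul_apply, Pi.neg_apply, nsmul_eq_mul, Nat.cast_sub hl.one_le, ZMod.natCast_self]
    simp
  rw [h1] at h0
  exact add_neg_eq_zero.mp h0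

include hA hℓM in
/-- The classes are unramified outside the level. -/
theorem galRep_inertia {τ : GQ} (hτ : τ ∈ A.inertiaSubgroupIn ℚ) : galRep M ℓ τ = 1 := by
  have := Arith.residueField_isAlgClosed A
  obtain ⟨hd, hd'⟩ := Arith.mem_inertia_iff_forall_mem.mp hτ
  refine matrix_ext fun f₀ => ?_
  obtain ⟨c, f, z, -, -, hfc, hz0, hz⟩ := exists_normalised p hA f₀
  rw [← hfc, galRep_mulVec, Matrix.one_mulVec]
  have hk : galRes hd = RingHom.id _ := RingHom.ext fun x => by
    obtain ⟨a, rfl⟩ := residue_surjective x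
    exact (galRes_residue hd a).trans (Arith.residue_eq_iff.mpr (hd' a a.2))
  refine coordF_eq_of_intFrac hℓM p hA _ _ hz0 ?_ hz
  have h1 := intFrac_gal hd _ hz
  rw [hk, coeffMap_id] at h1
  exact h1

include hA hℓM in
/-- The congruence relation. -/
theorem galRep_frobenius {σ : GQ} (hσ : A.IsFrobeniusAt σ p.1) :
    galRep M ℓ σ + (p.1 : ZMod ℓ) • (opMatMod M ℓ (.inr (primeUnit M p)) * galRep M ℓ σ⁻¹)
      = opMatMod M ℓ (.inl p) := by
  have := Arith.residueField_isAlgClosed A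
  have := Arith.residueField_charP hA p.2.1
  have : ExpChar (ResidueField A) p.1 := ExpChar.prime p.2.1
  obtain ⟨hs, hs'⟩ := Arith.isFrobeniusAt_iff_forall_mem.mp hσ
  have hk : galRes hs = frobenius (ResidueField A) p.1 := RingHom.ext fun x => by
    obtain ⟨a, rfl⟩ := residue_surjective x
    rw [galRes_residue, frobenius_def, ← map_pow]
    exact Arith.residue_eq_iff.mpr (hs' a a.2)
  rw [(galRep_commute (M := M) (m := ℓ) (.inr (primeUnit M p)) σ⁻¹).eq]
  refine matrix_ext fun f₀ => ?_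
  obtain ⟨-, f, z, -, -, hfc, hz0, hz⟩ := exists_normalised p hA f₀
  rw [← hfc, Matrix.add_mulVec, Matrix.smul_mulVec, galRep_mulVec, ← Matrix.mulVec_mulVec]
  obtain ⟨gd₀, hgd₀, hgdv⟩ := exists_opMat_mulVec (.inr (primeUnit M p)) f
  obtain ⟨c, gd, zd, hc, hgd, hgdc, hzd0, hzd⟩ := exists_normalised p hA gd₀
  obtain ⟨hn, hhn, hhnv⟩ := exists_opMat_mulVec (.inl p) f
  rw [hgdv, hhnv, ← hgdc, galRep_mulVec]
  obtain ⟨h₀, hh₀, hh₀c⟩ := exists_const_mul_mem hn hc
  set fs := galDiv σ f with hfs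
  set w := galDiv σ⁻¹ gd with hw
  set zw := coeffMap (galRes (inv_smul_eq_self hs)) zd with hzw
  have hwred : IntFrac (((w : (E₁)ˣ) : E₁) : LaurentSeries Qa) zw :=
    intFrac_gal (inv_smul_eq_self hs) _ hzd
  have hzwd : coeffMap (frobenius (ResidueField A) p.1) zw = zd := by
    rw [← hk]
    refine (intFrac_gal hs _ hwred).unique ?_
    rw [hw, coe_galDiv, ← mul_smul, ← map_mul, mul_inv_cancel, map_one, one_smul]
    exact hzd
  have hfsred : IntFrac (((fs : (E₁)ˣ) : E₁) : LaurentSeries Qa)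
      (coeffMap (frobenius (ResidueField A) p.1) z) := by
    have h1 := intFrac_gal hs _ hz
    rwa [hk] at h1
  set zU := coeffMap (frobenius (ResidueField A) p.1) z * zw ^ p.1 with hzU
  have hU : IntFrac ((((fs * w ^ p.1 : divGrp Qa E₁ ℓ) : (E₁)ˣ) : E₁) : LaurentSeries Qa) zU :=
    hfsred.mul (hwred.pow _)
  have hzU0 : zU ≠ 0 := mul_ne_zero ((map_ne_zero _).mpr hz0)
    (pow_ne_zero _ ((map_ne_zero _).mpr hzd0))
  have hh₀red : IntFrac (((h₀ : (E₁)ˣ) : E₁) : LaurentSeries Qa) zU := by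
    refine intFrac_of_qExpand (n := p.1) (natCast_level_ne_zero p hA) _ hzU0 ?_
    obtain ⟨ζ₀, hζ₀⟩ := HasEnoughRootsOfUnity.exists_primitiveRoot Qa p.1
    set ζ : Qaˣ := (hζ₀.isUnit p.2.1.ne_zero).unit with hζdef
    have hζ : IsPrimitiveRoot ζ p.1 := IsPrimitiveRoot.coe_units_iff.mp (by simpa [hζdef] using hζ₀)
    have hq : qExpand Qa p.1 (((h₀ : (E₁)ˣ) : E₁) : LaurentSeries Qa) =
        qExpand Qa p.1 (qExpand Qa p.1 (((gd : (E₁)ˣ) : E₁) : LaurentSeries Qa)) *
          ∏ i : Fin p.1, ModFun.twist (ζ ^ (i : ℕ)) (((f : (E₁)ˣ) : E₁) : LaurentSeries Qa) := by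
      have hcq : qExpand Qa p.1 (algebraMap Qa (LaurentSeries Qa) c)
          = algebraMap Qa (LaurentSeries Qa) c := by
        rw [algebraMap_laurentSeries_eq_single, qExpand_single, mul_zero]
      rw [hh₀, hgd, hgd₀, hhn]
      simp only [IntermediateField.coe_mul, IntermediateField.coe_algebraMap_apply, map_mul, hcq]
      show _ * qExpand Qa p.1 ((heckeQ p _ : E₁) : LaurentSeries Qa) = _
      rw [qExpand_heckeQ p hζ, heckeSer, mul_assoc]
      rfl
    have hzUq : qExpand (ResidueField A) p.1 zU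
        = qExpand (ResidueField A) p.1 (qExpand (ResidueField A) p.1 zd) * z ^ p.1 := by
      rw [hzU, mul_comm, map_mul, ← EichlerShimura.pow_eq_qExpand_frobenius,
        EichlerShimura.pow_eq_qExpand_frobenius p.1 zw, hzwd]
    rw [hq, hzUq]
    refine ((hzd.qExpand p.1).qExpand p.1).mul ?_
    have hprod := IntFrac.prod (Finset.univ : Finset (Fin p.1))
      (y := fun i => ModFun.twist (ζ ^ (i : ℕ)) (((f : (E₁)ˣ) : E₁) : LaurentSeries Qa))
      (z := fun _ => z) fun i _ => hz.twist p.2.1 _ (by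
        rw [← pow_mul, mul_comm, pow_mul, hζ.pow_eq_one, one_pow])
    rwa [Finset.prod_const, Finset.card_univ, Fintype.card_fin] at hprod
  have key := coordF_eq_of_intFrac hℓM p hA h₀ (fs * w ^ p.1) hzU0 hh₀red hU
  rw [hh₀c, coordF_mul, coordF_pow] at key
  rw [key, ← Nat.cast_smul_eq_nsmul (ZMod ℓ)]

end Fermat.Agent.DeligneSerre.Curve
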