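import Fermat.Agent.DeligneSerre.Curve.Field
import Fermat.Agent.JacTorsion.DescentEquiv

/-!
# Diamond automorphisms of the field of `±Γ₁(M)` and their rationality
-/

set_option autoImplicit false
set_option linter.unusedSectionVars false
set_option maxHeartbeats 1000000
set_option synthInstance.maxHeartbeats 400000

noncomputable section

open ModularCurve AlgebraicCurve
open Fermat.Agent.ModFun (Hol qExp qExp_mem_FC laurentBaseChange_eq_fullC)
open Fermat.Agent.JacTorsion (FQ FCx extQ gal coe_extQ coe_gal_smul ιQ)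
open scoped IntermediateField MatrixGroups

namespace Fermat.Agent.DeligneSerre.Curve

variable {M : ℕ} [NeZero M] [GoodLevel M]

omit [NeZero M] [GoodLevel M] in
theorem dia_injective (u : (ZMod M)ˣ) : Function.Injective (dia M u) := fun f g h => by
  have h1 := congrArg (dia M u⁻¹) h
  rwa [dia_dia, dia_dia, mul_inv_cancel, dia_one, dia_one] at h1

theorem injective_toF1C_dia (u : (ZMod M)ˣ) :
    Function.Injective ((toF1C M).comp (dia M u)) :=
  fun a b h => by
    rw [AlgHom.comp_apply, AlgHom.comp_apply] at h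
    exact dia_injective u (toF1C_injective h)

/-- The diamond automorphism of the complex field. -/
def diaC (u : (ZMod M)ˣ) : F1C M →ₐ[ℂ] F1C M :=
  IsFractionRing.liftAlgHom (A := Hol1 M) (g := (toF1C M).comp (dia M u)) (injective_toF1C_dia u)

theorem diaC_toF1C (u : (ZMod M)ˣ) (a : Hol1 M) : diaC u (toF1C M a) = toF1C M (dia M u a) := by
  rw [diaC, ← algebraMap_hol1_apply, IsFractionRing.liftAlgHom_apply]
  exact IsFractionRing.lift_algebraMap _ a

theorem diaC_inclusion (u : (ZMod M)ˣ) (a : Hol M) :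
    diaC u (toF1C M (Subalgebra.inclusion Hol_le_Hol1 a))
      = toF1C M (Subalgebra.inclusion Hol_le_Hol1 a) := by
  rw [diaC_toF1C, dia_inclusion]

/-- Diamonds fix the field of `Γ₀(M)`. -/
theorem diaC_of_mem_FC (u : (ZMod M)ˣ) (x : F1C M) (hx : (x : LaurentSeries ℂ) ∈ ModFun.FC M) :
    diaC u x = x := by
  obtain ⟨a, b, -, h⟩ := ModFun.exists_div_eq ⟨_, hx⟩
  have hx' : x = toF1C M (Subalgebra.inclusion Hol_le_Hol1 a)
      / toF1C M (Subalgebra.inclusion Hol_le_Hol1 b) :=
    Subtype.ext (by simpa [qExp1_inclusion] using congrArg Subtype.val h)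
  rw [hx', map_div₀, diaC_inclusion, diaC_inclusion]

theorem gal_eq_self_of_rational (σ : ℂ ≃ₐ[ℚ] ℂ) (x : F1C M) {z : LaurentSeries ℚ}
    (hx : (x : LaurentSeries ℂ) = coeffEmb ℂ z) : gal (F1 M) σ • x = x := by
  refine Subtype.ext ?_
  rw [coe_gal_smul, hx, coeffEmb, coeffMap_coeffMap]
  exact coeffMap_congr (RingHom.ext fun q => by simp) z

/-- Diamonds are rational. -/
theorem diaC_gal (u : (ZMod M)ˣ) (σ : ℂ ≃ₐ[ℚ] ℂ) (x : F1C M) :
    diaC u (gal (F1 M) σ • x) = gal (F1 M) σ • diaC u x := by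
  have key : ∀ (y : LaurentSeries ℂ) (hy : y ∈ F1C M),
      diaC u (gal (F1 M) σ • (⟨y, hy⟩ : F1C M)) = gal (F1 M) σ • diaC u ⟨y, hy⟩ := by
    intro y hy
    induction hy using IntermediateField.adjoin_induction with
    | mem z hz =>
      obtain ⟨w, hw, rfl⟩ := hz
      rw [gal_eq_self_of_rational σ _ (z := w) rfl]
      have hgen : ∀ (v : LaurentSeries ℚ) (hv : v ∈ F1 M),
          gal (F1 M) σ • diaC u (⟨coeffEmb ℂ v, coeffEmb_mem_laurentBaseChange ℂ hv⟩ : F1C M)
            = diaC u ⟨coeffEmb ℂ v, coeffEmb_mem_laurentBaseChange ℂ hv⟩ := by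
        intro v hv
        induction hv using IntermediateField.adjoin_induction with
        | mem z hz =>
          rcases hz with hz | ⟨a, rfl⟩
          · rw [diaC_of_mem_FC u _ (by
              show coeffEmb ℂ z ∈ ModFun.FC M
              rw [ModFun.FC, ← laurentBaseChange_eq_fullC]
              exact coeffEmb_mem_laurentBaseChange ℂ hz)]
            exact gal_eq_self_of_rational σ _ (z := z) rfl
          · rw [show (⟨coeffEmb ℂ (uK ℚ a), _⟩ : F1C M) = toF1C M (uC a) from Subtype.ext (by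
              rw [coe_toF1C, qExp1_uC]; exact coeffEmb_uK ℂ a), diaC_toF1C, dia_uC]
            exact gal_eq_self_of_rational σ _ (z := uK ℚ (a * u))
              (by rw [coe_toF1C, qExp1_uC, coeffEmb_uK])
        | algebraMap c =>
          have e : (⟨coeffEmb ℂ (algebraMap ℚ (LaurentSeries ℚ) c),
              coeffEmb_mem_laurentBaseChange ℂ (IntermediateField.algebraMap_mem _ c)⟩ : F1C M)
              = algebraMap ℂ (F1C M) (c : ℂ) := Subtype.ext (by
            show coeffMap (algebraMap ℚ ℂ) _ = algebraMap ℂ (LaurentSeries ℂ) (c : ℂ)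
            rw [algebraMap_laurentSeries_eq_single, coeffMap_single,
              algebraMap_laurentSeries_eq_single]
            simp)
          rw [e, AlgHom.commutes, SemilinearAut.smul_algebraMap]
          simp
        | add a b ha hb iha ihb =>
          rw [show (⟨coeffEmb ℂ (a + b), _⟩ : F1C M)
            = ⟨coeffEmb ℂ a, coeffEmb_mem_laurentBaseChange ℂ ha⟩
              + ⟨coeffEmb ℂ b, coeffEmb_mem_laurentBaseChange ℂ hb⟩ from
            Subtype.ext (map_add (coeffEmb ℂ) a b), map_add, smul_add, iha, ihb]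
        | inv a ha iha =>
          rw [show (⟨coeffEmb ℂ a⁻¹, _⟩ : F1C M)
            = (⟨coeffEmb ℂ a, coeffEmb_mem_laurentBaseChange ℂ ha⟩ : F1C M)⁻¹ from
            Subtype.ext (map_inv₀ (coeffEmb ℂ) a), map_inv₀]
          exact ((map_inv₀ (SemilinearAut.toRingAut (gal (F1 M) σ)) _).trans (congrArg _ iha))
        | mul a b ha hb iha ihb =>
          rw [show (⟨coeffEmb ℂ (a * b), _⟩ : F1C M)
            = ⟨coeffEmb ℂ a, coeffEmb_mem_laurentBaseChange ℂ ha⟩
              * ⟨coeffEmb ℂ b, coeffEmb_mem_laurentBaseChange ℂ hb⟩ from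
            Subtype.ext (map_mul (coeffEmb ℂ) a b), map_mul, smul_mul', iha, ihb]
      exact (hgen w hw).symm
    | algebraMap c =>
      rw [show (⟨algebraMap ℂ (LaurentSeries ℂ) c, _⟩ : F1C M) = algebraMap ℂ (F1C M) c from rfl,
        SemilinearAut.smul_algebraMap, AlgHom.commutes, AlgHom.commutes,
        SemilinearAut.smul_algebraMap]
    | add a b ha hb iha ihb =>
      rw [show (⟨a + b, _⟩ : F1C M) = ⟨a, ha⟩ + ⟨b, hb⟩ from rfl, smul_add, map_add, iha, ihb,
        map_add, smul_add]
    | inv a ha iha =>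
      have hinv : ∀ z : F1C M, gal (F1 M) σ • z⁻¹ = (gal (F1 M) σ • z)⁻¹ :=
        fun z => map_inv₀ (SemilinearAut.toRingAut (gal (F1 M) σ)) z
      rw [show (⟨a⁻¹, _⟩ : F1C M) = (⟨a, ha⟩ : F1C M)⁻¹ from rfl, hinv, map_inv₀, iha, map_inv₀,
        hinv]
    | mul a b ha hb iha ihb =>
      rw [show (⟨a * b, _⟩ : F1C M) = ⟨a, ha⟩ * ⟨b, hb⟩ from rfl, smul_mul', map_mul, iha, ihb,
        map_mul, smul_mul']
  exact key x.1 x.2

theorem exists_diaQ (u : (ZMod M)ˣ) (x : FQ (F1 M)) :
    ∃ y : FQ (F1 M), (extQ (F1 M)).emb y = diaC u ((extQ (F1 M)).emb x) := by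
  refine JacTorsion.mem_range_of_finiteOrbit
    (((JacTorsion.finiteOrbit_emb x).image (diaC u)).subset ?_)
  rintro _ ⟨σ, rfl⟩
  exact ⟨_, ⟨σ, rfl⟩, diaC_gal u σ _⟩

/-- The diamond automorphism of the field over `ℚ̄`. -/
def diaQ (u : (ZMod M)ˣ) : FQ (F1 M) →+* FQ (F1 M) where
  toFun x := (exists_diaQ u x).choose
  map_one' := (extQ (F1 M)).emb.injective (by
    rw [(exists_diaQ u 1).choose_spec, map_one, map_one])
  map_mul' x y := (extQ (F1 M)).emb.injective (by
    rw [(exists_diaQ u (x * y)).choose_spec, map_mul, map_mul, map_mul,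
      (exists_diaQ u x).choose_spec, (exists_diaQ u y).choose_spec])
  map_zero' := (extQ (F1 M)).emb.injective (by
    rw [(exists_diaQ u 0).choose_spec, map_zero, map_zero])
  map_add' x y := (extQ (F1 M)).emb.injective (by
    rw [(exists_diaQ u (x + y)).choose_spec, map_add, map_add, map_add,
      (exists_diaQ u x).choose_spec, (exists_diaQ u y).choose_spec])

theorem emb_diaQ (u : (ZMod M)ˣ) (x : FQ (F1 M)) :
    (extQ (F1 M)).emb (diaQ u x) = diaC u ((extQ (F1 M)).emb x) :=
  (exists_diaQ u x).choose_spec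

end Fermat.Agent.DeligneSerre.Curve
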