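import Fermat.Agent.DeligneSerre.Curve.Units
import Fermat.Agent.ModFun.Field
import Fermat.Agent.JacTorsion.CoeffExt
import Fermat.Agent.JacTorsion.Orbit

/-!
# The rational function field of `±Γ₁(M)`
-/

set_option autoImplicit false

noncomputable section

open Polynomial ModularCurve
open Fermat.Agent.ModFun (Hol qExp qExp_mem_FC laurentBaseChange_eq_fullC)
open scoped IntermediateField MatrixGroups Classical

namespace Fermat.Agent.DeligneSerre.Curve

variable (M : ℕ) [NeZero M]

/-- Diamond classes. -/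
abbrev Idx : Type := (ZMod M)ˣ ⧸ Subgroup.zpowers (-1 : (ZMod M)ˣ)

variable {M}

omit [NeZero M] in
theorem out_mk_eq (a : (ZMod M)ˣ) :
    (QuotientGroup.mk a : Idx M).out = a ∨ (QuotientGroup.mk a : Idx M).out = -a := by
  obtain ⟨⟨h, hh⟩, he⟩ := QuotientGroup.mk_out_eq_mul (Subgroup.zpowers (-1 : (ZMod M)ˣ)) a
  obtain ⟨k, rfl⟩ := Subgroup.mem_zpowers_iff.1 hh
  rcases Int.even_or_odd k with hk | hk
  · left; rw [he]; simp [hk.neg_one_zpow]
  · right; rw [he]; simp [hk.neg_one_zpow]

omit [NeZero M] in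
theorem dia_out_mk (a : (ZMod M)ˣ) (f : Hol1 M) :
    dia M (QuotientGroup.mk a : Idx M).out f = dia M a f := by
  rcases out_mk_eq a with h | h <;> rw [h]
  rw [dia_neg]

omit [NeZero M] in
theorem idx_eq_of_eq_or_neg {q q' : Idx M} (h : q'.out = q.out ∨ q'.out = -q.out) : q' = q := by
  rw [← QuotientGroup.out_eq' q, ← QuotientGroup.out_eq' q', QuotientGroup.eq]
  rcases h with h | h <;> rw [h]
  · simp
  · rw [inv_neg, neg_mul, inv_mul_cancel]
    exact Subgroup.mem_zpowers _

omit [NeZero M] in
theorem dia_out_mul (r : (ZMod M)ˣ) (q : Idx M) (f : Hol1 M) :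
    dia M r (dia M q.out f) = dia M (q * QuotientGroup.mk r).out f := by
  conv_rhs => rw [← QuotientGroup.out_eq' q, ← QuotientGroup.mk_mul, dia_out_mk]
  exact dia_dia r q.out f

variable [GoodLevel M]

/-- `∏ (X - u_a)` over the diamond classes. -/
def diaPoly : Polynomial (Hol1 M) :=
  ∏ q : Idx M, (X - C (dia M q.out (uC 1)))

/-- The interpolation polynomial of `f`. -/
def interp1 (f : Hol1 M) : Polynomial (Hol1 M) :=
  ∑ q : Idx M, C (dia M q.out f) * ∏ q' ∈ Finset.univ.erase q, (X - C (dia M q'.out (uC 1)))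

theorem dia_uC_one (a : (ZMod M)ˣ) : dia M a (uC 1) = uC a := by
  rw [dia_uC, one_mul]

theorem map_dia_diaPoly (r : (ZMod M)ˣ) :
    (diaPoly (M := M)).map (dia M r).toRingHom = diaPoly := by
  rw [diaPoly, Polynomial.map_prod]
  refine Fintype.prod_equiv (Equiv.mulRight (QuotientGroup.mk r : Idx M)) _ _ fun q => ?_
  rw [Polynomial.map_sub, map_X, map_C]
  exact congrArg (fun x => X - C x) (dia_out_mul r q _)

theorem map_dia_interp1 (r : (ZMod M)ˣ) (f : Hol1 M) :
    (interp1 f).map (dia M r).toRingHom = interp1 f := by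
  rw [interp1, Polynomial.map_sum]
  simp only [Polynomial.map_mul, Polynomial.map_prod, Polynomial.map_sub, map_X, map_C]
  have hd : ∀ (q : Idx M) (g : Hol1 M), (dia M r).toRingHom (dia M q.out g)
      = dia M (Equiv.mulRight (QuotientGroup.mk r : Idx M) q).out g := fun q g => dia_out_mul r q g
  simp only [hd]
  exact ModFun.interp_perm (Equiv.mulRight (QuotientGroup.mk r : Idx M))
    (fun q => dia M q.out f) (fun q => dia M q.out (uC 1))

omit [GoodLevel M] in
omit [NeZero M] in
theorem exists_hol_coeff {P : Polynomial (Hol1 M)}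
    (hP : ∀ r, P.map (dia M r).toRingHom = P) (n : ℕ) :
    ∃ g : Hol M, Subalgebra.inclusion Hol_le_Hol1 g = P.coeff n := by
  refine ⟨⟨_, mem_Hol_of_dia_fixed (P.coeff n) fun r => ?_⟩, rfl⟩
  have := congrArg (fun Q => Polynomial.coeff Q n) (hP r)
  simpa [Polynomial.coeff_map] using this

omit [GoodLevel M] in
theorem qExp1_eval_mem {P : Polynomial (Hol1 M)} (hP : ∀ r, P.map (dia M r).toRingHom = P)
    (x : Hol1 M) :
    qExp1 M (P.eval x) ∈ IntermediateField.adjoin ℂ
      ((ModFun.FC M : Set (LaurentSeries ℂ)) ∪ {qExp1 M x}) := by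
  set S : Set (LaurentSeries ℂ) := (ModFun.FC M : Set (LaurentSeries ℂ)) ∪ {qExp1 M x}
  have hx : qExp1 M x ∈ IntermediateField.adjoin ℂ S :=
    IntermediateField.subset_adjoin ℂ S (Set.mem_union_right _ (Set.mem_singleton _))
  have hc : ∀ g : Hol M, qExp M g ∈ IntermediateField.adjoin ℂ S := fun g =>
    IntermediateField.subset_adjoin ℂ S (Set.mem_union_left _ (qExp_mem_FC g))
  rw [Polynomial.eval_eq_sum_range, map_sum]
  refine sum_mem fun i _ => ?_
  obtain ⟨g, hg⟩ := exists_hol_coeff hP i
  rw [map_mul, map_pow, ← hg, qExp1_inclusion]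
  exact mul_mem (hc g) (pow_mem hx i)

/-- Lagrange interpolation: every function lies in `FC(u)`. -/
theorem qExp1_mem_adjoin (f : Hol1 M) :
    qExp1 M f ∈ IntermediateField.adjoin ℂ
      ((ModFun.FC M : Set (LaurentSeries ℂ)) ∪ {qExp1 M (uC 1)}) := by
  set q₁ : Idx M := QuotientGroup.mk 1
  have hout : ∀ g : Hol1 M, dia M q₁.out g = g := fun g => by rw [dia_out_mk, dia_one]
  have hne : ∀ q : Idx M, ∀ q' ∈ Finset.univ.erase q,
      dia M q.out (uC 1) - dia M q'.out (uC 1) ≠ 0 := by
    intro q q' hq' h0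
    rw [dia_uC_one, dia_uC_one, sub_eq_zero] at h0
    have h1 := congrArg (qExp1 M) h0
    rw [qExp1_uC, qExp1_uC] at h1
    exact Finset.ne_of_mem_erase hq'
      (idx_eq_of_eq_or_neg (uK_eq_iff (Nat.cast_ne_zero.2 (NeZero.ne M)) h1))
  have hder : (derivative (diaPoly (M := M))).eval (uC 1)
      = ∏ q' ∈ Finset.univ.erase q₁, (dia M q₁.out (uC 1) - dia M q'.out (uC 1)) := by
    rw [diaPoly, derivative_prod_finset, eval_finsetSum, Finset.sum_eq_single q₁]
    · simp [eval_prod, hout]
    · intro b _ hb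
      rw [eval_mul, eval_prod,
        Finset.prod_eq_zero (Finset.mem_erase.mpr ⟨Ne.symm hb, Finset.mem_univ _⟩)
          (by simp [hout]), zero_mul]
    · simp
  have hint : (interp1 f).eval (uC 1)
      = f * ∏ q' ∈ Finset.univ.erase q₁, (dia M q₁.out (uC 1) - dia M q'.out (uC 1)) := by
    rw [interp1, eval_finsetSum, Finset.sum_eq_single q₁]
    · simp [eval_prod, hout]
    · intro b _ hb
      rw [eval_mul, eval_prod,
        Finset.prod_eq_zero (Finset.mem_erase.mpr ⟨Ne.symm hb, Finset.mem_univ _⟩)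
          (by simp [hout]), mul_zero]
    · simp
  have h2 : qExp1 M f = qExp1 M ((interp1 f).eval (uC 1))
      / qExp1 M ((derivative diaPoly).eval (uC 1)) := by
    rw [hint, hder, map_mul, mul_div_cancel_right₀]
    exact (map_ne_zero_iff _ qExp1_injective).mpr (Finset.prod_ne_zero_iff.mpr (hne q₁))
  have hd : ∀ r, (derivative (diaPoly (M := M))).map (dia M r).toRingHom = derivative diaPoly :=
    fun r => by rw [← derivative_map, map_dia_diaPoly]
  rw [h2]
  exact div_mem (qExp1_eval_mem (fun r => map_dia_interp1 r f) _) (qExp1_eval_mem hd _)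

variable (M)

/-- The rational function field of `±Γ₁(M)`. -/
def F1 : IntermediateField ℚ (LaurentSeries ℚ) :=
  IntermediateField.adjoin ℚ
    ((modularFunctionFieldFull M : Set (LaurentSeries ℚ)) ∪ Set.range (uK (M := M) ℚ))

variable {M}

omit [NeZero M] in
theorem uK_mem_F1 (a : (ZMod M)ˣ) : uK ℚ a ∈ F1 M :=
  IntermediateField.subset_adjoin ℚ _ (Or.inr ⟨a, rfl⟩)

omit [NeZero M] in
theorem full_le_F1 : modularFunctionFieldFull M ≤ F1 M :=
  fun _ hx => IntermediateField.subset_adjoin ℚ _ (Or.inl hx)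

section BaseChange

variable (L : Type*) [Field L] [Algebra ℚ L]

omit [NeZero M] in
theorem coeffEmb_uK (a : (ZMod M)ˣ) : coeffEmb L (uK ℚ a) = uK L a :=
  coeffMap_uK ℚ (algebraMap ℚ L) a

omit [NeZero M] in
theorem uK_mem_baseChange (a : (ZMod M)ˣ) : uK L a ∈ laurentBaseChange L (F1 M) :=
  coeffEmb_uK (M := M) L a ▸ coeffEmb_mem_laurentBaseChange L (uK_mem_F1 a)

omit [NeZero M] in
theorem baseChange_full_le :
    laurentBaseChange L (modularFunctionFieldFull M) ≤ laurentBaseChange L (F1 M) :=
  IntermediateField.adjoin.mono L _ _ (Set.image_mono full_le_F1)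

omit [NeZero M] in
theorem baseChange_F1_eq :
    laurentBaseChange L (F1 M) = IntermediateField.adjoin L
      ((laurentBaseChange L (modularFunctionFieldFull M) : Set (LaurentSeries L))
        ∪ Set.range (uK (M := M) L)) := by
  refine le_antisymm ?_ ?_
  · rw [laurentBaseChange, IntermediateField.adjoin_le_iff]
    rintro _ ⟨y, hy, rfl⟩
    induction hy using IntermediateField.adjoin_induction with
    | mem z hz =>
      rcases hz with hz | ⟨a, rfl⟩
      · exact IntermediateField.subset_adjoin L _ (Or.inl (coeffEmb_mem_laurentBaseChange L hz))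
      · rw [coeffEmb_uK]
        exact IntermediateField.subset_adjoin L _ (Or.inr ⟨a, rfl⟩)
    | algebraMap c =>
      rw [coeffEmb, algebraMap_laurentSeries_eq_single, coeffMap_single,
        ← algebraMap_laurentSeries_eq_single]
      exact IntermediateField.algebraMap_mem _ _
    | add a c _ _ ha hc => rw [SetLike.mem_coe, map_add]; exact add_mem ha hc
    | inv a _ ha => rw [SetLike.mem_coe, map_inv₀]; exact inv_mem ha
    | mul a c _ _ ha hc => rw [SetLike.mem_coe, map_mul]; exact mul_mem ha hc
  · rw [IntermediateField.adjoin_le_iff]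
    rintro x (hx | ⟨a, rfl⟩)
    · exact baseChange_full_le L hx
    · exact uK_mem_baseChange L a

end BaseChange

/-- The complex function field. -/
abbrev F1C (M : ℕ) [NeZero M] [GoodLevel M] : IntermediateField ℂ (LaurentSeries ℂ) :=
  JacTorsion.FCx (F1 M)

theorem qExp1_mem_F1C (f : Hol1 M) : qExp1 M f ∈ F1C M := by
  refine (IntermediateField.adjoin_le_iff.mpr ?_) (qExp1_mem_adjoin f)
  rintro x (hx | hx)
  · rw [SetLike.mem_coe, ModFun.FC, ← laurentBaseChange_eq_fullC] at hx
    exact baseChange_full_le ℂ hx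
  · rw [Set.mem_singleton_iff.mp hx, qExp1_uC]
    exact uK_mem_baseChange ℂ 1

/-- `qExp1` into the complex function field. -/
def toF1C (M : ℕ) [NeZero M] [GoodLevel M] : Hol1 M →ₐ[ℂ] F1C M :=
  (qExp1 M).codRestrict (F1C M).toSubalgebra qExp1_mem_F1C

@[simp]
theorem coe_toF1C (f : Hol1 M) : (toF1C M f : LaurentSeries ℂ) = qExp1 M f := rfl

theorem toF1C_injective : Function.Injective (toF1C M) := fun _ _ h =>
  qExp1_injective (congrArg Subtype.val h)

theorem exists_div_eq1 (x : F1C M) :
    ∃ a b : Hol1 M, b ≠ 0 ∧ x = toF1C M a / toF1C M b := by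
  obtain ⟨x, hx⟩ := x
  suffices h : ∃ a b : Hol1 M, b ≠ 0 ∧ x = qExp1 M a / qExp1 M b by
    obtain ⟨a, b, hb, h⟩ := h
    exact ⟨a, b, hb, Subtype.ext (by simpa using h)⟩
  change x ∈ laurentBaseChange ℂ (F1 M) at hx
  rw [baseChange_F1_eq] at hx
  induction hx using IntermediateField.adjoin_induction with
  | mem y hy =>
    rcases hy with hy | ⟨a, rfl⟩
    · rw [SetLike.mem_coe, laurentBaseChange_eq_fullC] at hy
      obtain ⟨a, b, hb, h⟩ := ModFun.exists_div_eq ⟨y, hy⟩
      refine ⟨Subalgebra.inclusion Hol_le_Hol1 a, Subalgebra.inclusion Hol_le_Hol1 b,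
        fun h0 => hb ?_, ?_⟩
      · exact Subalgebra.inclusion_injective Hol_le_Hol1 (by rw [h0, map_zero])
      · simpa [qExp1_inclusion] using congrArg Subtype.val h
    · exact ⟨uC a, 1, one_ne_zero, by rw [qExp1_uC, map_one, div_one]⟩
  | algebraMap c => exact ⟨algebraMap ℂ _ c, 1, one_ne_zero, by simp⟩
  | add y z _ _ ihy ihz =>
    obtain ⟨a, b, hb, rfl⟩ := ihy
    obtain ⟨a', b', hb', rfl⟩ := ihz
    refine ⟨a * b' + b * a', b * b', mul_ne_zero hb hb', ?_⟩
    simp only [map_add, map_mul]
    rw [div_add_div _ _ ((map_ne_zero_iff _ qExp1_injective).mpr hb)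
      ((map_ne_zero_iff _ qExp1_injective).mpr hb')]
  | inv y _ ihy =>
    obtain ⟨a, b, hb, rfl⟩ := ihy
    rcases eq_or_ne a 0 with rfl | ha
    · exact ⟨0, 1, one_ne_zero, by simp⟩
    · exact ⟨b, a, ha, by rw [inv_div]⟩
  | mul y z _ _ ihy ihz =>
    obtain ⟨a, b, hb, rfl⟩ := ihy
    obtain ⟨a', b', hb', rfl⟩ := ihz
    exact ⟨a * a', b * b', mul_ne_zero hb hb', by simp [div_mul_div_comm]⟩

instance : Algebra (Hol1 M) (F1C M) := (toF1C M).toRingHom.toAlgebra

theorem algebraMap_hol1_apply (g : Hol1 M) : algebraMap (Hol1 M) (F1C M) g = toF1C M g := rfl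

instance : IsScalarTower ℂ (Hol1 M) (F1C M) :=
  IsScalarTower.of_algebraMap_eq fun c => ((toF1C M).commutes c).symm

instance : FaithfulSMul (Hol1 M) (F1C M) :=
  (faithfulSMul_iff_algebraMap_injective _ _).mpr toF1C_injective

instance : IsFractionRing (Hol1 M) (F1C M) :=
  IsFractionRing.of_field (Hol1 M) (F1C M) fun x => by
    obtain ⟨a, b, -, h⟩ := exists_div_eq1 x
    exact ⟨a, b, h⟩

/-! ### The minimal relation of the generators over the field of `Γ₀(M)` -/

variable (M)

/-- `∏ (X - u_a)` as rational series. -/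
def diaPolyQ : Polynomial (LaurentSeries ℚ) := ∏ q : Idx M, (X - C (uK ℚ q.out))

variable {M}

theorem coeff_diaPolyQ_mem (n : ℕ) :
    (diaPolyQ M).coeff n ∈ modularFunctionFieldFull M := by
  refine JacTorsion.mem_of_coeffMap_mem_cExt (ι := algebraMap ℚ ℂ) ?_
  show coeffEmb ℂ ((diaPolyQ M).coeff n) ∈ laurentBaseChange ℂ (modularFunctionFieldFull M)
  have h : (diaPolyQ M).map (coeffEmb ℂ) = (diaPoly (M := M)).map (qExp1 M).toRingHom := by
    simp only [diaPolyQ, diaPoly, Polynomial.map_prod, Polynomial.map_sub, map_X, map_C,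
      coeffEmb_uK, dia_uC_one]
    exact Finset.prod_congr rfl fun q _ => congrArg (fun x => X - C x) (qExp1_uC _).symm
  have h2 := congrArg (fun P => Polynomial.coeff P n) h
  simp only [coeff_map] at h2
  obtain ⟨g, hg⟩ := exists_hol_coeff (P := diaPoly (M := M)) (fun r => map_dia_diaPoly r) n
  rw [h2, ← hg, laurentBaseChange_eq_fullC]
  exact qExp_mem_FC g

theorem eval_diaPolyQ {L : Type*} [Field L] [Algebra ℚ L] [CharZero L] (a : (ZMod M)ˣ) :
    ((diaPolyQ M).map (coeffEmb L)).eval (uK L a) = 0 := by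
  simp only [diaPolyQ, Polynomial.map_prod, Polynomial.map_sub, map_X, map_C, coeffEmb_uK,
    eval_prod, eval_sub, eval_X, eval_C]
  refine Finset.prod_eq_zero (Finset.mem_univ (QuotientGroup.mk a : Idx M)) ?_
  rcases out_mk_eq a with h | h <;> rw [h]
  · exact sub_self _
  · rw [uK_neg, sub_self]

theorem isIntegral_uK (L : Type*) [Field L] [Algebra ℚ L] [CharZero L] (a : (ZMod M)ˣ) :
    IsIntegral (IntermediateField.adjoin L ({jqModC L} : Set (LaurentSeries L))) (uK L a) := by
  set B := IntermediateField.adjoin L ({jqModC L} : Set (LaurentSeries L))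
  set E := IntermediateField.adjoin B (divisorExpansionsC L M)
  have hfin : FiniteDimensional B E :=
    (ModFun.transfer_finrank M L).1.mpr (ModFun.finrank_fullC M L).1
  have hE : ∀ y ∈ laurentBaseChange L (modularFunctionFieldFull M), y ∈ E := fun y hy => by
    rw [laurentBaseChange_eq_fullC, ← ModFun.adjoin_adjoin_eq] at hy
    exact hy
  set P := (diaPolyQ M).map (coeffEmb L) with hP
  have hm : P.Monic := (monic_prod_of_monic _ _ fun q _ => monic_X_sub_C _).map _
  have hl : P ∈ Polynomial.lifts (algebraMap E (LaurentSeries L)) := by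
    rw [Polynomial.lifts_iff_coeff_lifts]
    intro n
    refine ⟨⟨_, hE _ (coeffEmb_mem_laurentBaseChange L (coeff_diaPolyQ_mem (M := M) n))⟩, ?_⟩
    rw [hP, coeff_map]
    rfl
  obtain ⟨Q, hQ, -, hQm⟩ := Polynomial.lifts_and_natDegree_eq_and_monic hl hm
  have h : IsIntegral E (uK L a) := ⟨Q, hQm, by rw [← eval_map, hQ]; exact eval_diaPolyQ a⟩
  have : Algebra.IsIntegral B E := Algebra.IsIntegral.of_finite B E
  exact isIntegral_trans _ h

/-- Finiteness over the line from finiteness of an adjunction. -/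
theorem finiteDimensional_transfer {L : Type*} [Field L]
    {E : IntermediateField L (LaurentSeries L)} (x : E) (S : Set (LaurentSeries L))
    (hS : IntermediateField.adjoin L ({(x : LaurentSeries L)} ∪ S) = E)
    [FiniteDimensional (IntermediateField.adjoin L ({(x : LaurentSeries L)} : Set (LaurentSeries L)))
      (IntermediateField.adjoin
        (IntermediateField.adjoin L ({(x : LaurentSeries L)} : Set (LaurentSeries L))) S)] :
    FiniteDimensional L⟮x⟯ E := by
  set B := IntermediateField.adjoin L ({(x : LaurentSeries L)} : Set (LaurentSeries L))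
  set E' := IntermediateField.adjoin B S
  have hlift : IntermediateField.lift (L⟮x⟯) = B := by
    rw [IntermediateField.lift_adjoin, Set.image_singleton]
  have hBle : ∀ b : LaurentSeries L, b ∈ B → b ∈ E := fun b hb =>
    (IntermediateField.adjoin_le_iff.mpr (Set.singleton_subset_iff.mpr x.2)) hb
  have hBmem : ∀ b : B, (⟨(b : LaurentSeries L), hBle _ b.2⟩ : E) ∈ L⟮x⟯ := by
    intro b
    apply (IntermediateField.mem_lift _).mp
    rw [hlift]
    exact b.2
  have hCmem : ∀ y : L⟮x⟯, ((y : E) : LaurentSeries L) ∈ B := by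
    intro y
    have h := (IntermediateField.mem_lift (y : E)).mpr y.2
    rwa [hlift] at h
  let i : B ≃+* L⟮x⟯ :=
    { toFun := fun b => ⟨⟨b, hBle _ b.2⟩, hBmem b⟩
      invFun := fun y => ⟨_, hCmem y⟩
      left_inv := fun _ => rfl
      right_inv := fun _ => rfl
      map_mul' := fun _ _ => rfl
      map_add' := fun _ _ => rfl }
  have heq : E'.restrictScalars L = E := by
    rw [IntermediateField.adjoin_adjoin_left, hS]
  let j : E' ≃+* E := (IntermediateField.equivOfEq heq).toRingEquiv
  exact Module.Finite.of_equiv_equiv i j (RingHom.ext fun b => Subtype.ext rfl)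

variable (M)

/-- `j` in the base change. -/
def jBase1 (L : Type*) [Field L] [Algebra ℚ L] : laurentBaseChange L (F1 M) :=
  ⟨_, baseChange_full_le L (ModFun.jBase M L).2⟩

omit [NeZero M] in
theorem coe_jBase1 (L : Type*) [Field L] [Algebra ℚ L] :
    (jBase1 M L : LaurentSeries L) = jqModC L := rfl

theorem adjoin_generators_eq (L : Type*) [Field L] [Algebra ℚ L] :
    IntermediateField.adjoin L
        ({jqModC L} ∪ (divisorExpansionsC L M ∪ Set.range (uK (M := M) L)))
      = laurentBaseChange L (F1 M) := by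
  rw [baseChange_F1_eq, laurentBaseChange_eq_fullC, ← ModFun.adjoin_adjoin_eq,
    IntermediateField.adjoin_adjoin_left, IntermediateField.adjoin_union,
    IntermediateField.adjoin_union, IntermediateField.adjoin_union,
    IntermediateField.adjoin_self, IntermediateField.adjoin_union, sup_assoc]

theorem finite_jBase1 (L : Type*) [Field L] [Algebra ℚ L] [CharZero L] :
    FiniteDimensional L⟮jBase1 M L⟯ (laurentBaseChange L (F1 M)) := by
  set B := IntermediateField.adjoin L ({jqModC L} : Set (LaurentSeries L))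
  have hfull : ∀ y ∈ divisorExpansionsC L M, IsIntegral B y := by
    intro y hy
    have : FiniteDimensional B (IntermediateField.adjoin B (divisorExpansionsC L M)) :=
      (ModFun.transfer_finrank M L).1.mpr (ModFun.finrank_fullC M L).1
    exact IsIntegral.map (IntermediateField.adjoin B (divisorExpansionsC L M)).val
      (IsIntegral.of_finite B
        (⟨y, IntermediateField.subset_adjoin B _ hy⟩ :
          IntermediateField.adjoin B (divisorExpansionsC L M)))
  have := (ModFun.finite_divisorExpansionsC M L).to_subtype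
  have : Finite (divisorExpansionsC L M ∪ Set.range (uK (M := M) L) : Set (LaurentSeries L)) :=
    ((ModFun.finite_divisorExpansionsC M L).union (Set.finite_range _)).to_subtype
  have hfin : FiniteDimensional B
      (IntermediateField.adjoin B (divisorExpansionsC L M ∪ Set.range (uK (M := M) L))) :=
    IntermediateField.finiteDimensional_adjoin (by
      rintro y (hy | ⟨a, rfl⟩)
      · exact hfull y hy
      · exact isIntegral_uK L a)
  exact @finiteDimensional_transfer L _ _ (jBase1 M L) _ (adjoin_generators_eq M L) hfin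

omit [NeZero M] in
theorem transcendental_jBase1 (L : Type*) [Field L] [Algebra ℚ L] [CharZero L] :
    Transcendental L (jBase1 M L) := by
  rintro ⟨P, hP, h⟩
  refine hP (Igusa.aeval_jqModC_injective (k := L) ?_)
  have h1 := congrArg (laurentBaseChange L (F1 M)).val h
  rw [← Polynomial.aeval_algHom_apply, map_zero] at h1
  rw [map_zero]
  exact h1

instance isFunctionField_F1 (L : Type*) [Field L] [Algebra ℚ L] [CharZero L] :
    FF.IsFunctionField L (laurentBaseChange L (F1 M)) :=
  haveI := finite_jBase1 M L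
  FF.isFunctionField_of_finite (transcendental_jBase1 M L)

instance isFunctionField_F1Bar :
    FF.IsFunctionField (AlgebraicClosure ℚ) (JacTorsion.FQ (F1 M)) :=
  isFunctionField_F1 M (AlgebraicClosure ℚ)

instance isFunctionField_F1C : FF.IsFunctionField ℂ (F1C M) := isFunctionField_F1 M ℂ

end Fermat.Agent.DeligneSerre.Curve
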