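import Fermat.Agent.JacTorsion.Orbit
import Mathlib.FieldTheory.IsAlgClosed.Classification

/-!
# Extending automorphisms of the algebraic numbers to `ℂ`
-/

set_option autoImplicit false

noncomputable section

open ModularCurve
open Fermat.Agent.JacTorsion (ιQ FQ FCx extQ gal coe_extQ coe_gal_smul)

namespace Fermat.Agent.DeligneSerre.Curve

/-- Every automorphism of `ℚ̄` extends to `ℂ`. -/
theorem exists_extend_complex (σ : AlgebraicClosure ℚ ≃ₐ[ℚ] AlgebraicClosure ℚ) :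
    ∃ τ : ℂ ≃ₐ[ℚ] ℂ, ∀ a, τ (ιQ a) = ιQ (σ a) := by
  let _ : Algebra (AlgebraicClosure ℚ) ℂ := ιQ.toAlgebra
  obtain ⟨ι, v, hv⟩ := exists_isTranscendenceBasis' (R := AlgebraicClosure ℚ) (A := ℂ)
  let A := Algebra.adjoin (AlgebraicClosure ℚ) (Set.range v)
  have hA : IsAlgClosure A ℂ := IsAlgClosed.isAlgClosure_of_transcendence_basis v hv
  let φ : A ≃+* A := (hv.1.aevalEquiv.symm.toRingEquiv.trans
    ((MvPolynomial.mapEquiv ι σ.toRingEquiv).trans hv.1.aevalEquiv.toRingEquiv))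
  refine ⟨AlgEquiv.ofRingEquiv (f := IsAlgClosure.equivOfEquiv ℂ ℂ φ) fun q => by simp,
    fun a => ?_⟩
  show IsAlgClosure.equivOfEquiv ℂ ℂ φ (algebraMap (AlgebraicClosure ℚ) ℂ a) = _
  rw [IsScalarTower.algebraMap_apply (AlgebraicClosure ℚ) A ℂ, IsAlgClosure.equivOfEquiv_algebraMap]
  have : φ (algebraMap (AlgebraicClosure ℚ) A a) = algebraMap (AlgebraicClosure ℚ) A (σ a) := by
    show hv.1.aevalEquiv (MvPolynomial.mapEquiv ι σ.toRingEquiv
      (hv.1.aevalEquiv.symm (algebraMap (AlgebraicClosure ℚ) A a))) = _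
    rw [AlgEquiv.commutes, MvPolynomial.algebraMap_eq, MvPolynomial.mapEquiv_apply, MvPolynomial.map_C,
      ← MvPolynomial.algebraMap_eq, AlgEquiv.commutes]
    rfl
  rw [this, ← IsScalarTower.algebraMap_apply]
  rfl

/-- The inclusion into the complex field is equivariant. -/
theorem emb_gal_smul (F₀ : IntermediateField ℚ (LaurentSeries ℚ))
    {σ : AlgebraicClosure ℚ ≃ₐ[ℚ] AlgebraicClosure ℚ} {τ : ℂ ≃ₐ[ℚ] ℂ}
    (h : ∀ a, τ (ιQ a) = ιQ (σ a)) (x : FQ F₀) :
    (extQ F₀).emb (arithmeticGalois F₀ σ • x) = gal F₀ τ • (extQ F₀).emb x := by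
  refine Subtype.ext ?_
  rw [coe_gal_smul, coe_extQ, coe_extQ, coe_arithmeticGalois_smul, coeffMap_coeffMap,
    coeffMap_coeffMap]
  exact coeffMap_congr (RingHom.ext fun a => (h a).symm) _

end Fermat.Agent.DeligneSerre.Curve
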