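import Fermat.Agent.DeligneSerre.Curve.KummerOps
import Fermat.Agent.DeligneSerre.Curve.GalExtend
import Fermat.Agent.DeligneSerre.GalInterface
import Fermat.Agent.RedTorsion.Series

/-!
# The Galois action on Kummer classes, in coordinates
-/

set_option autoImplicit false
set_option linter.unusedSectionVars false

noncomputable section

open ModularCurve AlgebraicCurve
open Fermat.Agent.Arith (GQ QBar)
open Fermat.Agent.JacTorsion (divGrp powGrp KummerGrp FQ extQ gal)
open Fermat.Agent.RT.GammaH (hecke diamond)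

-- The algebra structures on subfields of series fields are found at once.
attribute [local instance 1100] SubalgebraClass.toAlgebra

namespace Fermat.Agent.DeligneSerre.Curve

variable {M : ℕ} [NeZero M] [GoodLevel M] {m : ℕ} [NeZero m]

local notation "E₁" => FQ (F1 M)
local notation "Qa" => AlgebraicClosure ℚ

/-- The coefficient action on units. -/
def galUnits (σ : GQ) : (E₁)ˣ →* (E₁)ˣ :=
  Units.map (SemilinearAut.toRingAut (arithmeticGalois (L := Qa) (F1 M) σ) : E₁ →* E₁)

theorem coe_galUnits (σ : GQ) (f : (E₁)ˣ) :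
    (galUnits σ f : E₁) = arithmeticGalois (L := Qa) (F1 M) σ • (f : E₁) := rfl

theorem galUnits_mem (σ : GQ) {f : (E₁)ˣ} (hf : f ∈ divGrp Qa E₁ m) :
    galUnits σ f ∈ divGrp Qa E₁ m := fun P => by
  rw [coe_galUnits, ← SemilinearAut.ord_smul (arithmeticGalois (L := Qa) (F1 M) σ)⁻¹ P, inv_smul_smul]
  exact hf _

/-- The coefficient action on functions with divisible divisor. -/
def galDiv (σ : GQ) : divGrp Qa E₁ m →* divGrp Qa E₁ m :=
  ((galUnits σ).comp (Subgroup.subtype _)).codRestrict _ fun f => galUnits_mem σ f.2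

theorem coe_galDiv (σ : GQ) (f : divGrp Qa E₁ m) :
    (((galDiv σ f : (E₁)ˣ)) : E₁) = arithmeticGalois (L := Qa) (F1 M) σ • ((f : (E₁)ˣ) : E₁) := rfl

/-- The coefficient action on Kummer classes. -/
def galK (σ : GQ) : KummerGrp Qa E₁ m →* KummerGrp Qa E₁ m :=
  QuotientGroup.map _ _ (galDiv σ) fun f hf => by
    obtain ⟨g, hg⟩ := hf
    refine ⟨galUnits σ g, ?_⟩
    rw [powMonoidHom_apply] at hg ⊢
    rw [← map_pow, hg]
    rfl

theorem galK_mk (σ : GQ) (f : divGrp Qa E₁ m) :
    galK σ (QuotientGroup.mk f) = QuotientGroup.mk (galDiv σ f) := rfl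

theorem galK_one (x : KummerGrp Qa E₁ m) : galK 1 x = x := by
  obtain ⟨f, rfl⟩ := QuotientGroup.mk_surjective x
  rw [galK_mk]
  refine congrArg _ (Subtype.ext (Units.ext ?_))
  rw [coe_galDiv, map_one, one_smul]

theorem galK_mul (σ τ : GQ) (x : KummerGrp Qa E₁ m) : galK (σ * τ) x = galK σ (galK τ x) := by
  obtain ⟨f, rfl⟩ := QuotientGroup.mk_surjective x
  rw [galK_mk, galK_mk, galK_mk]
  refine congrArg _ (Subtype.ext (Units.ext ?_))
  rw [coe_galDiv, coe_galDiv, coe_galDiv, map_mul, mul_smul]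

/-- The effect of a good operator on functions. -/
def opQ : GoodOp M → E₁ → E₁
  | .inl p => heckeQ p
  | .inr u => diaQ u

/-- The operator on functions attached to a good operator. -/
def rootOpOf (m : ℕ) [NeZero m] : GoodOp M → RootOp M m
  | .inl p => heckeOp p
  | .inr u => diamondOp u

theorem emb_opQ (i : GoodOp M) (x : E₁) :
    (extQ (F1 M)).emb (opQ i x) = (rootOpOf m i).opF ((extQ (F1 M)).emb x) := by
  rcases i with p | u
  · exact emb_heckeQ p x
  · exact emb_diaQ u x

theorem opF_gal (i : GoodOp M) (τ : ℂ ≃ₐ[ℚ] ℂ) (x : F1C M) :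
    gal (F1 M) τ • (rootOpOf m i).opF x = (rootOpOf m i).opF (gal (F1 M) τ • x) := by
  rcases i with p | u
  · exact heckeC_gal p τ x
  · exact (diaC_gal u τ x).symm

theorem opQ_gal (i : GoodOp M) (σ : GQ) (x : E₁) :
    arithmeticGalois (L := Qa) (F1 M) σ • opQ i x = opQ i (arithmeticGalois (L := Qa) (F1 M) σ • x) := by
  obtain ⟨τ, hτ⟩ := exists_extend_complex σ
  refine (extQ (F1 M)).emb.injective ?_
  rw [emb_opQ (m := 1), emb_gal_smul _ hτ, emb_gal_smul _ hτ, emb_opQ (m := 1), opF_gal]

variable (M m)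

/-- Coordinates of a Kummer class. -/
def coordsK : KummerGrp Qa E₁ m →* Multiplicative (Fin (homRank M) → ZMod m) :=
  MonoidHom.mk' (fun x => Multiplicative.ofAdd fun b =>
      (kummerChar1 M m x).toAdd.1 (Additive.ofMul (homPts M b)))
    fun x y => by
      rw [map_mul, ← ofAdd_add]
      rfl

theorem coordsK_bijective : Function.Bijective (coordsK M m) :=
  Multiplicative.ofAdd.bijective.comp ((homPts_bijective M (ZMod m)).comp
    (Multiplicative.toAdd.bijective.comp (kummerChar1_bijective M m)))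

/-- The classes, as an additive group in coordinates. -/
def kEquiv : KummerGrp Qa E₁ m ≃* Multiplicative (Fin (homRank M) → ZMod m) :=
  MulEquiv.ofBijective (coordsK M m) (coordsK_bijective M m)

/-- The Galois action in coordinates. -/
def galV (σ : GQ) : (Fin (homRank M) → ZMod m) →+ (Fin (homRank M) → ZMod m) :=
  MonoidHom.toAdditive
    (((kEquiv M m).toMonoidHom.comp (galK σ)).comp (kEquiv M m).symm.toMonoidHom)

/-- The matrix of the Galois action. -/
def galMat (σ : GQ) : Matrix (Fin (homRank M)) (Fin (homRank M)) (ZMod m) :=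
  LinearMap.toMatrix' ((galV M m σ).toZModLinearMap m)

variable {M m}

/-- The coordinates of the class of `f`. -/
def coordF (f : divGrp Qa E₁ m) : Fin (homRank M) → ZMod m :=
  (coordsK M m (QuotientGroup.mk f)).toAdd

theorem exists_coordF (v : Fin (homRank M) → ZMod m) : ∃ f : divGrp Qa E₁ m, coordF f = v := by
  obtain ⟨x, hx⟩ := (coordsK_bijective M m).2 (Multiplicative.ofAdd v)
  obtain ⟨f, rfl⟩ := QuotientGroup.mk_surjective x
  exact ⟨f, congrArg Multiplicative.toAdd hx⟩

theorem coordF_mul (f g : divGrp Qa E₁ m) : coordF (f * g) = coordF f + coordF g := by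
  unfold coordF
  rw [QuotientGroup.mk_mul, map_mul]
  rfl

theorem coordF_eq_of_mem (f g : divGrp Qa E₁ m) (h : f⁻¹ * g ∈ powGrp Qa E₁ m) :
    coordF f = coordF g := by
  show (coordsK M m (QuotientGroup.mk f)).toAdd = _
  rw [QuotientGroup.eq.mpr h]; rfl

theorem galMat_mulVec (σ : GQ) (f : divGrp Qa E₁ m) :
    Matrix.mulVec (galMat M m σ) (coordF f) = coordF (galDiv σ f) := by
  rw [galMat, ← Matrix.toLin'_apply, Matrix.toLin'_toMatrix']
  show ((kEquiv M m) (galK σ ((kEquiv M m).symm (kEquiv M m (QuotientGroup.mk f))))).toAdd = _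
  rw [MulEquiv.symm_apply_apply, galK_mk]
  rfl

theorem matrix_ext {A B : Matrix (Fin (homRank M)) (Fin (homRank M)) (ZMod m)}
    (h : ∀ f : divGrp Qa E₁ m, Matrix.mulVec A (coordF f) = Matrix.mulVec B (coordF f)) :
    A = B := by
  refine Matrix.toLin'.injective (LinearMap.ext fun v => ?_)
  obtain ⟨f, rfl⟩ := exists_coordF v
  simpa using h f

variable (M m) in
/-- The Galois representation on the classes. -/
def galRep : GQ →* Matrix (Fin (homRank M)) (Fin (homRank M)) (ZMod m) where
  toFun := galMat M m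
  map_one' := matrix_ext fun f => by
    rw [galMat_mulVec, Matrix.one_mulVec]
    exact congrArg Multiplicative.toAdd (congrArg (coordsK M m) (galK_one (QuotientGroup.mk f)))
  map_mul' σ τ := matrix_ext fun f => by
    rw [← Matrix.mulVec_mulVec, galMat_mulVec, galMat_mulVec, galMat_mulVec]
    exact congrArg Multiplicative.toAdd (congrArg (coordsK M m) (galK_mul σ τ (QuotientGroup.mk f)))

theorem galRep_mulVec (σ : GQ) (f : divGrp Qa E₁ m) :
    Matrix.mulVec (galRep M m σ) (coordF f) = coordF (galDiv σ f) := galMat_mulVec σ f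

/-- Good operators in coordinates. -/
theorem exists_opMat_mulVec (i : GoodOp M) (f : divGrp Qa E₁ m) :
    ∃ g : divGrp Qa E₁ m, ((g : (E₁)ˣ) : E₁) = opQ i ((f : (E₁)ˣ) : E₁) ∧
      Matrix.mulVec (opMatMod M m i) (coordF f) = coordF g := by
  obtain ⟨g, hg, hchar⟩ := (rootOpOf m i).apply_divGrpQ f _ (emb_opQ i _)
  refine ⟨g, hg, funext fun b => ?_⟩
  set φ := (kummerChar1 M m (QuotientGroup.mk f)).toAdd
  have hΨ : (rootOpOf m i).Ψ φ.1 = goodOp (ZMod m) i φ.1 := by
    rcases i with p | u <;> rfl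
  show _ = (kummerChar1 M m (QuotientGroup.mk g)).toAdd.1 (Additive.ofMul (homPts M b))
  rw [hchar, hΨ, goodOp_apply_homPts i φ.2]
  simp only [opMatMod, Matrix.mulVec, dotProduct, Matrix.map_apply, zsmul_eq_mul]
  rfl

theorem galRep_commute (i : GoodOp M) (σ : GQ) :
    Commute (opMatMod M m i) (galRep M m σ) := by
  refine matrix_ext fun f => ?_
  rw [← Matrix.mulVec_mulVec, ← Matrix.mulVec_mulVec, galRep_mulVec]
  obtain ⟨g, hg, hgv⟩ := exists_opMat_mulVec i f
  obtain ⟨g', hg', hgv'⟩ := exists_opMat_mulVec i (galDiv σ f)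
  rw [hgv, hgv', galRep_mulVec]
  refine congrArg coordF (Subtype.ext (Units.ext ?_))
  rw [hg', coe_galDiv, coe_galDiv, hg, opQ_gal]

theorem mem_finCoeff_F1 {y : LaurentSeries Qa} (hy : y ∈ FQ (F1 M)) :
    y ∈ RedTorsion.finCoeff Qa := by
  let S : IntermediateField Qa (LaurentSeries Qa) :=
    (RedTorsion.finCoeff Qa).toIntermediateField RedTorsion.algebraMap_mem_finCoeff
  suffices h : laurentBaseChange Qa (F1 M) ≤ S from h hy
  rw [laurentBaseChange, IntermediateField.adjoin_le_iff]
  rintro _ ⟨z, -, rfl⟩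
  exact RedTorsion.mem_finCoeff.mpr ⟨⊥, inferInstance, fun k => by
    rw [coeffEmb_coeff]; exact IntermediateField.algebraMap_mem ⊥ (z.coeff k)⟩

theorem galRep_finite_level : GaloisFactorsThroughFiniteLevel (galRep M m) := by
  choose F hF using fun v : Fin (homRank M) → ZMod m => exists_coordF (M := M) v
  choose E hE hcoeff using fun v => RedTorsion.mem_finCoeff.mp
    (mem_finCoeff_F1 (M := M) ((F v : (E₁)ˣ) : E₁).2)
  refine ⟨⨆ v, E v, IntermediateField.finiteDimensional_iSup_of_finite, fun σ hσ => ?_⟩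
  refine matrix_ext fun f => ?_
  rw [Matrix.one_mulVec, ← hF (coordF f), galRep_mulVec]
  refine congrArg coordF (Subtype.ext (Units.ext (Subtype.ext ?_)))
  rw [coe_galDiv, coe_arithmeticGalois_smul]
  ext k
  rw [coeffMap_coeff]
  exact hσ _ (le_iSup E (coordF f) (hcoeff (coordF f) k))

end Fermat.Agent.DeligneSerre.Curve
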