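import Fermat.Agent.DeligneSerre.Curve.Congruence

/-!
# The Galois action on homomorphisms on `±Γ₁(M)` modulo `ℓ`
-/

set_option autoImplicit false
set_option linter.unusedSectionVars false

noncomputable section

open Fermat.Agent.Arith (GQ QBar)

namespace Fermat.Agent.DeligneSerre.Curve

/-- Homomorphisms on `±Γ₁(M)` modulo `ℓ ∣ M` carry a Galois action with the congruence relation. -/
theorem hasGalMatrix (M : ℕ) [NeZero M] [GoodLevel M] (ℓ : ℕ) [Fact ℓ.Prime] (hℓ : ℓ ∣ M) :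
    HasGalMatrix M ℓ :=
  ⟨galRep M ℓ, galRep_finite_level, galRep_commute, fun p _ hA =>
    ⟨fun _ hτ => galRep_inertia hℓ p hA hτ, fun _ hσ => galRep_frobenius hℓ p hA hσ⟩⟩

/-- A multiple of a prime `≥ 7` is a good level. -/
theorem goodLevel_of_prime_dvd {M ℓ : ℕ} [NeZero M] (hℓ : ℓ.Prime) (h7 : 7 ≤ ℓ) (h : ℓ ∣ M) :
    GoodLevel M := by
  have hcop : Nat.Coprime 2 ℓ := (Nat.coprime_primes Nat.prime_two hℓ).mpr (by omega)
  obtain ⟨c, hc⟩ := ZMod.unitsMap_surjective h (ZMod.unitOfCoprime 2 hcop)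
  refine ⟨c, fun h4 => ?_⟩
  have h1 := congrArg (ZMod.unitsMap h) h4
  rw [map_pow, hc, map_one, Units.ext_iff, Units.val_pow_eq_pow_val, ZMod.coe_unitOfCoprime,
    Units.val_one] at h1
  have h2 : ((15 : ℕ) : ZMod ℓ) = 0 := by push_cast at h1 ⊢; linear_combination h1
  rw [ZMod.natCast_eq_zero_iff] at h2
  have h3 : ℓ ∣ 3 * 5 := h2
  rcases (Nat.Prime.dvd_mul hℓ).1 h3 with h4' | h4'
  · have := Nat.le_of_dvd (by norm_num) h4'; omega
  · have := Nat.le_of_dvd (by norm_num) h4'; omega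

end Fermat.Agent.DeligneSerre.Curve
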