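import Fermat.Agent.DeligneSerre.Curve.Hol
import Fermat.Agent.ModFun.Affine
import Fermat.Agent.RT.GammaH.Hecke
import Mathlib.RingTheory.RootsOfUnity.Complex

/-!
# The multiplicative Hecke operator on functions of `±Γ₁(M)`
-/

set_option autoImplicit false
set_option linter.unusedSectionVars false

noncomputable section

open UpperHalfPlane hiding I
open Function Filter Complex CongruenceSubgroup
open Fermat.Agent.ModFun
open Fermat.Agent.RT.GammaH (GLR IsIntMat HIdx hRep heckeSet img gamma0Elt isIntMat_mapGL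
  admissible_hRep hRep_mem_heckeSet gamma0Elt_mem gamma0Elt_upperLeft mapGL_mem_img)
open Matrix.SpecialLinearGroup (mapGL)
open scoped Manifold MatrixGroups Real Topology

namespace Fermat.Agent.DeligneSerre.Curve

/-! ### Triangular decomposition -/

/-- An integral matrix of positive determinant is an element of `SL(2, ℤ)` times an upper
triangular one. -/
theorem exists_tri {g : GLR} {A : Matrix (Fin 2) (Fin 2) ℤ} (hA : IsIntMat g A) (hd : 0 < A.det) :
    ∃ (γ : SL(2, ℤ)) (a : ℕ) (b : ℤ) (d : ℕ) (_ : NeZero a) (_ : NeZero d),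
      ∀ τ : ℍ, g • τ = γ • affine a b d τ := by
  rw [Matrix.det_fin_two] at hd
  set G := Int.gcd (A 0 0) (A 1 0) with hG
  have hG0 : G ≠ 0 := fun h => by
    rw [hG, Int.gcd_eq_zero_iff] at h
    rw [h.1, h.2] at hd
    simp at hd
  obtain ⟨a', ha'⟩ : (G : ℤ) ∣ A 0 0 := Int.gcd_dvd_left _ _
  obtain ⟨c', hc'⟩ : (G : ℤ) ∣ A 1 0 := Int.gcd_dvd_right _ _
  have hB := Int.gcd_eq_gcd_ab (A 0 0) (A 1 0)
  rw [← hG] at hB
  set x := Int.gcdA (A 0 0) (A 1 0)
  set y := Int.gcdB (A 0 0) (A 1 0)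
  have hbez : a' * x + c' * y = 1 := by
    refine mul_left_cancel₀ (Int.natCast_ne_zero.mpr hG0) ?_
    calc (G : ℤ) * (a' * x + c' * y) = A 0 0 * x + A 1 0 * y := by rw [ha', hc']; ring
      _ = (G : ℤ) * 1 := by rw [mul_one]; exact hB.symm
  have hd0 : 0 < a' * A 1 1 - c' * A 0 1 := by
    refine pos_of_mul_pos_right (a := (G : ℤ)) ?_ (Int.natCast_nonneg G)
    calc (0 : ℤ) < A 0 0 * A 1 1 - A 0 1 * A 1 0 := hd
      _ = _ := by rw [ha', hc']; ring
  obtain ⟨d, hdd⟩ := Int.eq_ofNat_of_zero_le hd0.le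
  have hdne : d ≠ 0 := fun h => by rw [hdd, h] at hd0; simp at hd0
  let γ : SL(2, ℤ) := ⟨!![a', -y; c', x], by rw [Matrix.det_fin_two_of]; linarith⟩
  set b := x * A 0 1 + y * A 1 1
  have : NeZero G := ⟨hG0⟩
  have : NeZero d := ⟨hdne⟩
  refine ⟨γ, G, b, d, inferInstance, inferInstance, fun τ => ?_⟩
  have hne : (G : ℝ) * (d : ℝ) ≠ 0 :=
    mul_ne_zero (Nat.cast_ne_zero.mpr hG0) (Nat.cast_ne_zero.mpr hdne)
  let t : GLR := ModularForm.upperTriangularGL (G : ℝ) (b : ℝ) (d : ℝ) hne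
  have ht : IsIntMat t !![(G : ℤ), b; 0, (d : ℤ)] := by
    unfold IsIntMat
    rw [ModularForm.val_upperTriangularGL]
    ext i j
    fin_cases i <;> fin_cases j <;> simp
  have hg : g = mapGL ℝ γ * t := by
    refine hA.ext ?_
    have h := (isIntMat_mapGL γ).mul ht
    have e : A = ((γ : SL(2, ℤ)) : Matrix (Fin 2) (Fin 2) ℤ) * !![(G : ℤ), b; 0, (d : ℤ)] := by
      ext i j
      fin_cases i <;> fin_cases j <;> simp [γ, Matrix.mul_apply, Fin.sum_univ_two, b, ← hdd]
      · rw [ha']; ring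
      · linear_combination (A 0 1) * hbez.symm
      · rw [hc']; ring
      · linear_combination (A 1 1) * hbez.symm
    rw [← e] at h
    exact h
  have htτ : t • τ = affine G b d τ := by
    refine UpperHalfPlane.ext ?_
    rw [UpperHalfPlane.coe_smul_of_det_pos (by
      rw [Matrix.GeneralLinearGroup.val_det_apply, ModularForm.val_upperTriangularGL,
        Matrix.det_fin_two_of, mul_zero, sub_zero]
      exact mul_pos (Nat.cast_pos.mpr (Nat.pos_of_ne_zero hG0))
        (Nat.cast_pos.mpr (Nat.pos_of_ne_zero hdne))), coe_affine]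
    simp [UpperHalfPlane.num, UpperHalfPlane.denom, t]
  rw [hg, mul_smul, htτ]
  rfl

/-- Affine substitutions preserve meromorphy at infinity of periodic functions. -/
theorem meroAtInfty_comp_affine {h : ℕ} [NeZero h] {F : ℍ → ℂ} (hF : F ∈ CuspAlg h) (a : ℕ) (b : ℤ)
    (d : ℕ) [NeZero a] [NeZero d] : MeroAtInfty fun τ => F (affine a b d τ) := by
  obtain ⟨n, c, hc, -⟩ := exists_hasSum (⟨F, hF⟩ : CuspAlg h)
  let F₁ : ℍ → ℂ := fun τ => F (affine h 0 1 τ)
  have hq : ∀ τ : ℍ, qFun h (affine h 0 1 τ) = qFun 1 τ := fun τ => by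
    have hh : (h : ℂ) ≠ 0 := Nat.cast_ne_zero.mpr (NeZero.ne h)
    simp only [qFun, Periodic.qParam, coe_affine]
    congr 1
    push_cast
    field_simp
    ring
  have hF₁ : F₁ ∈ CuspAlg 1 :=
    mem_CuspAlg_of_hasSum (mdifferentiable_comp_affine h 0 1 hF.1) fun τ => by
      simpa only [hq] using hc (affine h 0 1 τ)
  have : NeZero (d * h) := ⟨mul_ne_zero (NeZero.ne d) (NeZero.ne h)⟩
  have e : (fun τ => F (affine a b d τ)) = fun τ => F₁ (affine a b (d * h) τ) := funext fun τ => by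
    refine congrArg F (UpperHalfPlane.ext ?_)
    rw [coe_affine, coe_affine, coe_affine]
    have hh : (h : ℂ) ≠ 0 := Nat.cast_ne_zero.mpr (NeZero.ne h)
    have hd : (d : ℂ) ≠ 0 := Nat.cast_ne_zero.mpr (NeZero.ne d)
    push_cast
    field_simp
    ring
  rw [e]
  exact (comp_affine_mem a b (d * h) hF₁).2.2

/-! ### The operator -/

variable {M : ℕ} [NeZero M] (p : ℕ) [hp : Fact p.Prime]

theorem exists_tri_hRep (i : HIdx M p) (g : SL(2, ℤ)) :
    ∃ (γ : SL(2, ℤ)) (a : ℕ) (b : ℤ) (d : ℕ) (_ : NeZero a) (_ : NeZero d),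
      ∀ τ : ℍ, hRep M p i • g • τ = γ • affine a b d τ := by
  obtain ⟨A, hA, hd, -, -⟩ := hRep_mem_heckeSet (K := (⊤ : Subgroup (ZMod M)ˣ)) i
  obtain ⟨γ, a, b, d, ha, hd', h⟩ := exists_tri (hA.mul (isIntMat_mapGL g)) (by
    rw [Matrix.det_mul, hd, Matrix.SpecialLinearGroup.det_coe, mul_one]
    exact_mod_cast hp.out.pos)
  exact ⟨γ, a, b, d, ha, hd', fun τ => by rw [← h τ, mul_smul]; rfl⟩

theorem mdifferentiable_comp_hRep {f : ℍ → ℂ} (hf : MDiff f) (i : HIdx M p) :
    MDiff fun τ => f (hRep M p i • τ) := by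
  obtain ⟨γ, a, b, d, _, _, h⟩ := exists_tri_hRep p i (1 : SL(2, ℤ))
  have e : (fun τ => f (hRep M p i • τ)) = fun τ => (fun z => f (γ • z)) (affine a b d τ) :=
    funext fun τ => by
      show f _ = f (γ • affine a b d τ)
      rw [← h τ, one_smul]
  rw [e]
  exact mdifferentiable_comp_affine a b d (mdifferentiable_comp_SL hf γ)

/-- The multiplicative Hecke operator `f ↦ ∏ f ∘ rep`. -/
def heckeMul (f : Hol1 M) : Hol1 M :=
  ⟨∏ i : HIdx M p, fun τ => (f : ℍ → ℂ) (hRep M p i • τ), by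
    refine ⟨?_, fun g hg τ => ?_, fun g => ?_⟩
    · induction (Finset.univ : Finset (HIdx M p)) using Finset.cons_induction with
      | empty => exact mdifferentiable_const
      | cons i s hi ih =>
        rw [Finset.prod_cons]
        exact (mdifferentiable_comp_hRep p f.2.1 i).mul ih
    · obtain ⟨σ, hσb, hσ⟩ := admissible_hRep (M := M) (n := p) (⟨g, hg⟩ : G1 M)
      simp only [Finset.prod_apply]
      refine Eq.trans ?_ (hσb.prod_comp fun i => (f : ℍ → ℂ) (hRep M p i • τ))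
      refine Finset.prod_congr rfl fun i _ => ?_
      obtain ⟨η, hη, he⟩ := hσ i
      have : hRep M p i • g • τ = η • hRep M p (σ i) • τ := by
        show hRep M p i • (mapGL ℝ g • τ) = mapGL ℝ η • _
        rw [← mul_smul, ← mul_smul]
        congr 1
        rw [he, inv_mul_cancel_right]
      rw [this]
      exact f.2.2.1 η hη _
    · induction (Finset.univ : Finset (HIdx M p)) using Finset.cons_induction with
      | empty => exact MeroAtInfty.of_isBounded isBounded_one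
      | cons i s hi ih =>
        simp only [Finset.prod_cons, Pi.mul_apply]
        refine MeroAtInfty.mul ?_ ih
        obtain ⟨γ, a, b, d, _, _, h⟩ := exists_tri_hRep p i g
        simp only [h]
        exact meroAtInfty_comp_affine (comp_SL_mem_CuspAlg1 f.2 γ) a b d⟩

theorem heckeMul_apply (f : Hol1 M) (τ : ℍ) :
    (heckeMul p f : ℍ → ℂ) τ = ∏ i : HIdx M p, (f : ℍ → ℂ) (hRep M p i • τ) :=
  by
  show (∏ i : HIdx M p, fun τ => (f : ℍ → ℂ) (hRep M p i • τ)) τ = _
  rw [Finset.prod_apply]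

theorem heckeMul_mul (f g : Hol1 M) : heckeMul p (f * g) = heckeMul p f * heckeMul p g :=
  hol1_ext fun τ => by
    rw [heckeMul_apply]
    show _ = (heckeMul p f : ℍ → ℂ) τ * (heckeMul p g : ℍ → ℂ) τ
    rw [heckeMul_apply, heckeMul_apply, ← Finset.prod_mul_distrib]
    rfl

/-- The root of unity `exp (2πi/p)`. -/
def zetaC : ℂˣ := affineRoot 1 p

theorem zetaC_isPrimitiveRoot : IsPrimitiveRoot (zetaC p) p := by
  refine IsPrimitiveRoot.coe_units_iff.mp ?_
  convert Complex.isPrimitiveRoot_exp p hp.out.ne_zero using 1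
  simp [zetaC, affineRoot]

theorem affineRoot_natCast (j : ℕ) : affineRoot (j : ℤ) p = zetaC p ^ j := by
  refine Units.ext ?_
  rw [Units.val_pow_eq_pow_val]
  simp only [zetaC, affineRoot, Units.val_mk0, ← Complex.exp_nat_mul]
  congr 1
  push_cast
  ring

variable {p}

theorem heckeMul_apply_good (hpM : ¬ p ∣ M) (f : Hol1 M) (τ : ℍ) :
    (heckeMul p f : ℍ → ℂ) τ =
      (dia M (ZMod.unitOfCoprime p ((Nat.Prime.coprime_iff_not_dvd hp.out).2 hpM)) f : ℍ → ℂ)
          (affine p 0 1 τ) *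
        ∏ j : Fin p, (f : ℍ → ℂ) (affine 1 ((j : ℕ) : ℤ) p τ) := by
  have h := heckeMul_apply p f τ
  let e : Option (Fin p) ≃ HIdx M p :=
    ⟨fun o => ⟨o, fun _ => hpM⟩, Subtype.val, fun _ => rfl, fun _ => rfl⟩
  rw [h, ← e.prod_comp, Fintype.prod_option]
  congr 1
  · set u := ZMod.unitOfCoprime p ((Nat.Prime.coprime_iff_not_dvd hp.out).2 hpM)
    show (f : ℍ → ℂ) ((mapGL ℝ (gamma0Elt u⁻¹) * ModularForm.heckeDiagMatrix p) • τ) = _
    rw [mul_smul]
    have hz : ModularForm.heckeDiagMatrix p • τ = affine p 0 1 τ := UpperHalfPlane.ext (by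
      rw [ModularForm.coe_heckeDiagMatrix_smul hp.out.ne_zero, coe_affine]; simp)
    rw [hz]
    refine comp_gamma0_eq_dia f (gamma0Elt_mem _) u (Or.inl ?_) _
    have hd : ((gamma0Elt u⁻¹) 0 0 : ZMod M) * (gamma0Elt u⁻¹) 1 1
        - (gamma0Elt u⁻¹) 0 1 * (gamma0Elt u⁻¹) 1 0 = 1 := by
      exact_mod_cast congrArg (Int.cast : ℤ → ZMod M) (Gamma0.det_eq (gamma0Elt u⁻¹))
    rw [Gamma0_mem.1 (gamma0Elt_mem _), mul_zero, sub_zero, gamma0Elt_upperLeft] at hd
    have h2 := congrArg (fun x => (u : ZMod M) * x) hd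
    simpa [← mul_assoc] using h2
  · refine Finset.prod_congr rfl fun j _ => congrArg (f : ℍ → ℂ) (UpperHalfPlane.ext ?_)
    show ((ModularForm.heckeMatrix p j • τ : ℍ) : ℂ) = _
    rw [ModularForm.coe_heckeMatrix_smul hp.out.ne_zero, coe_affine]
    simp

/-- The expansion of the Hecke operator. -/
theorem qExpand_qExp1_heckeMul (hpM : ¬ p ∣ M) (f : Hol1 M) :
    ModularCurve.qExpand ℂ p (qExp1 M (heckeMul p f)) =
      ModularCurve.qExpand ℂ p (ModularCurve.qExpand ℂ p (qExp1 M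
        (dia M (ZMod.unitOfCoprime p ((Nat.Prime.coprime_iff_not_dvd hp.out).2 hpM)) f))) *
      ∏ j : Fin p, twist (zetaC p ^ (j : ℕ)) (qExp1 M f) := by
  have key : ∀ (k : ℕ) [NeZero k] (F : CuspAlg 1) (G : CuspAlg k),
      k = p → (G : ℍ → ℂ) = (F : ℍ → ℂ) →
        laurentExp k G = ModularCurve.qExpand ℂ p (laurentExp 1 F) := by
    rintro k _ F G rfl hG
    have h1 := laurentExp_mul (h := 1) k F
    have key2 : ∀ (n : ℕ) [NeZero n] (H : CuspAlg n), n = k → (H : ℍ → ℂ) = (F : ℍ → ℂ) →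
        laurentExp n H = laurentExp k G := by
      rintro n _ H rfl hH
      exact congrArg _ (Subtype.ext (hH.trans hG.symm))
    rw [← h1]
    exact (key2 (k * 1) _ (mul_one k) rfl).symm
  let ι : Hol1 M →ₐ[ℂ] CuspAlg 1 := Subalgebra.inclusion (Hol1_le_CuspAlg_one (M := M))
  set u := ZMod.unitOfCoprime p ((Nat.Prime.coprime_iff_not_dvd hp.out).2 hpM)
  let D : CuspAlg 1 := compAffine p 0 1 (ι (dia M u f))
  let incl : CuspAlg 1 → CuspAlg p := fun F =>
    ⟨(F : ℍ → ℂ), F.2.1, PerH.of_one F.2.2.1 p, F.2.2.2⟩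
  have heq : incl (ι (heckeMul p f))
      = incl D * ∏ j : Fin p, compAffine 1 ((j : ℕ) : ℤ) p (ι f) := by
    refine Subtype.ext (funext fun τ => ?_)
    show (heckeMul p f : ℍ → ℂ) τ = (D : ℍ → ℂ) τ * _
    rw [heckeMul_apply_good hpM]
    simp only [SubmonoidClass.coe_finsetProd, Finset.prod_apply]
    rfl
  show ModularCurve.qExpand ℂ p (laurentExp 1 (ι (heckeMul p f))) = _
  rw [← key p (ι (heckeMul p f)) (incl (ι (heckeMul p f))) rfl rfl, heq, map_mul, map_prod,
    key p D (incl D) rfl rfl]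
  congr 1
  · show ModularCurve.qExpand ℂ p (laurentExp 1 (compAffine p 0 1 (ι (dia M u f)))) = _
    rw [laurentExp_compAffine, affineRoot_zero, ModFun.twist_one]
    rfl
  · refine Finset.prod_congr rfl fun j _ => ?_
    rw [laurentExp_compAffine, affineRoot_natCast]
    ext k
    have := ModularCurve.qExpand_coeff_mul 1 (twist (zetaC p ^ (j : ℕ)) (laurentExp 1 (ι f))) k
    simpa [ι, qExp1] using this

end Fermat.Agent.DeligneSerre.Curve
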