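import Fermat.Agent.DeligneSerre.Curve.Diamond
import Fermat.Agent.DeligneSerre.Curve.HeckeFun

/-!
# The multiplicative Hecke operator on the field of `±Γ₁(M)` and its rationality
-/

set_option autoImplicit false
set_option linter.unusedSectionVars false
set_option maxHeartbeats 1000000
set_option synthInstance.maxHeartbeats 400000

noncomputable section

open ModularCurve AlgebraicCurve
open Fermat.Agent.ModFun (twist coeff_twist)
open Fermat.Agent.JacTorsion (FQ FCx extQ gal coe_extQ coe_gal_smul ιQ)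

namespace Fermat.Agent.DeligneSerre.Curve

section Series

variable {K : Type*} [Field K] (p : ℕ) [NeZero p]

/-- The Hecke norm of `x`, with `d` in place of its diamond transform. -/
def heckeSer (z : Kˣ) (d x : LaurentSeries K) : LaurentSeries K :=
  qExpand K p (qExpand K p d) * ∏ i : Fin p, twist (z ^ (i : ℕ)) x

theorem heckeSer_mul (z : Kˣ) (d d' x x' : LaurentSeries K) :
    heckeSer p z (d * d') (x * x') = heckeSer p z d x * heckeSer p z d' x' := by
  simp only [heckeSer, map_mul, Finset.prod_mul_distrib]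
  ring

theorem heckeSer_div (z : Kˣ) (d d' x x' : LaurentSeries K) :
    heckeSer p z (d / d') (x / x') = heckeSer p z d x / heckeSer p z d' x' := by
  simp only [heckeSer, map_div₀, Finset.prod_div_distrib]
  rw [div_mul_div_comm]

theorem coeffMap_twist {L : Type*} [Field L] (σ : K →+* L) (u : Kˣ) (x : LaurentSeries K) :
    coeffMap σ (twist u x) = twist (Units.map σ.toMonoidHom u) (coeffMap σ x) := by
  ext k
  rw [coeffMap_coeff, coeff_twist, coeff_twist, coeffMap_coeff, map_mul, ← map_zpow]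
  rfl

theorem coeffMap_heckeSer {L : Type*} [Field L] (σ : K →+* L) (z : Kˣ) (d x : LaurentSeries K) :
    coeffMap σ (heckeSer p z d x)
      = heckeSer p (Units.map σ.toMonoidHom z) (coeffMap σ d) (coeffMap σ x) := by
  simp only [heckeSer, map_mul, map_prod, coeffMap_qExpand, coeffMap_twist, map_pow]

theorem heckeSer_eq_of_isPrimitiveRoot {z z' : Kˣ} (hz : IsPrimitiveRoot z p)
    (hz' : IsPrimitiveRoot z' p) (d x : LaurentSeries K) : heckeSer p z' d x = heckeSer p z d x := by
  have hex : ∀ i : Fin p, ∃ j : Fin p, z ^ (j : ℕ) = z' ^ (i : ℕ) := fun i => by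
    obtain ⟨j, hj, he⟩ := hz.eq_pow_of_mem_rootsOfUnity (ξ := z' ^ (i : ℕ)) (by
      rw [mem_rootsOfUnity, ← pow_mul, mul_comm, pow_mul, hz'.pow_eq_one, one_pow])
    exact ⟨⟨j, hj⟩, he⟩
  choose e he using hex
  have hinj : Function.Injective e := fun i i' h =>
    Fin.ext (hz'.pow_inj i.2 i'.2 (by rw [← he, ← he, h]))
  unfold heckeSer
  congr 1
  exact Fintype.prod_bijective e ⟨hinj, Finite.injective_iff_surjective.mp hinj⟩ _ _
    fun i => by rw [he]

end Series

variable {M : ℕ} [NeZero M] [GoodLevel M] (p : {p : ℕ // p.Prime ∧ ¬ p ∣ M})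

instance factPrime : Fact p.1.Prime := ⟨p.2.1⟩

instance neZeroPrime : NeZero p.1 := ⟨p.2.1.ne_zero⟩

/-- The unit of `ℤ/M` attached to the prime. -/
abbrev pU : (ZMod M)ˣ := ZMod.unitOfCoprime p.1 ((Nat.Prime.coprime_iff_not_dvd p.2.1).2 p.2.2)

theorem exists_heckeC (x : F1C M) : ∃ y : F1C M, qExpand ℂ p.1 (y : LaurentSeries ℂ) =
    heckeSer p.1 (zetaC p.1) (diaC (pU p) x : F1C M) x := by
  obtain ⟨a, b, -, rfl⟩ := exists_div_eq1 x
  refine ⟨toF1C M (heckeMul p.1 a) / toF1C M (heckeMul p.1 b), ?_⟩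
  rw [map_div₀, diaC_toF1C, diaC_toF1C]
  push_cast
  rw [heckeSer_div, map_div₀]
  simp only [coe_toF1C, heckeSer, qExpand_qExp1_heckeMul p.2.2]

/-- The multiplicative Hecke operator on the complex field. -/
def heckeC (x : F1C M) : F1C M := (exists_heckeC p x).choose

theorem qExpand_heckeC (x : F1C M) : qExpand ℂ p.1 (heckeC p x : LaurentSeries ℂ) =
    heckeSer p.1 (zetaC p.1) (diaC (pU p) x : F1C M) x := (exists_heckeC p x).choose_spec

theorem eq_heckeC {x y : F1C M} (h : qExpand ℂ p.1 (y : LaurentSeries ℂ) =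
    heckeSer p.1 (zetaC p.1) (diaC (pU p) x : F1C M) x) : y = heckeC p x :=
  Subtype.ext (qExpand_injective p.1 (h.trans (qExpand_heckeC p x).symm))

theorem heckeC_mul (x x' : F1C M) : heckeC p (x * x') = heckeC p x * heckeC p x' := by
  refine (eq_heckeC p ?_).symm
  rw [IntermediateField.coe_mul, map_mul, qExpand_heckeC, qExpand_heckeC, ← heckeSer_mul,
    map_mul, IntermediateField.coe_mul, IntermediateField.coe_mul]

theorem heckeC_toF1C (a : Hol1 M) : heckeC p (toF1C M a) = toF1C M (heckeMul p.1 a) := by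
  refine (eq_heckeC p ?_).symm
  rw [diaC_toF1C, coe_toF1C, coe_toF1C, coe_toF1C]
  exact qExpand_qExp1_heckeMul p.2.2 a

theorem heckeC_gal (σ : ℂ ≃ₐ[ℚ] ℂ) (x : F1C M) :
    gal (F1 M) σ • heckeC p x = heckeC p (gal (F1 M) σ • x) := by
  refine eq_heckeC p ?_
  rw [coe_gal_smul, ← coeffMap_qExpand, qExpand_heckeC, coeffMap_heckeSer, ← coe_gal_smul,
    ← coe_gal_smul, ← diaC_gal]
  exact heckeSer_eq_of_isPrimitiveRoot p.1 (zetaC_isPrimitiveRoot p.1)
    ((zetaC_isPrimitiveRoot p.1).map_of_injective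
      (f := Units.map ((σ : ℂ →+* ℂ).toMonoidHom))
      (Units.map_injective (σ : ℂ →+* ℂ).injective)) _ _

theorem exists_heckeQ (x : FQ (F1 M)) :
    ∃ y : FQ (F1 M), (extQ (F1 M)).emb y = heckeC p ((extQ (F1 M)).emb x) := by
  refine JacTorsion.mem_range_of_finiteOrbit
    (((JacTorsion.finiteOrbit_emb x).image (heckeC p)).subset ?_)
  rintro _ ⟨σ, rfl⟩
  exact ⟨_, ⟨σ, rfl⟩, (heckeC_gal p σ _).symm⟩

/-- The multiplicative Hecke operator on the field over `ℚ̄`. -/
def heckeQ (x : FQ (F1 M)) : FQ (F1 M) := (exists_heckeQ p x).choose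

theorem emb_heckeQ (x : FQ (F1 M)) :
    (extQ (F1 M)).emb (heckeQ p x) = heckeC p ((extQ (F1 M)).emb x) :=
  (exists_heckeQ p x).choose_spec

/-- The expansion of the Hecke operator over `ℚ̄`. -/
theorem qExpand_heckeQ {z : (AlgebraicClosure ℚ)ˣ} (hz : IsPrimitiveRoot z p.1) (x : FQ (F1 M)) :
    qExpand (AlgebraicClosure ℚ) p.1 (heckeQ p x : LaurentSeries (AlgebraicClosure ℚ)) =
      heckeSer p.1 z (diaQ (pU p) x : FQ (F1 M)) x := by
  refine (coeffMap ιQ).injective ?_
  rw [coeffMap_qExpand, coeffMap_heckeSer, ← coe_extQ, ← coe_extQ, ← coe_extQ, emb_heckeQ,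
    emb_diaQ, qExpand_heckeC]
  exact (heckeSer_eq_of_isPrimitiveRoot p.1 (zetaC_isPrimitiveRoot p.1)
    (hz.map_of_injective (f := Units.map ιQ.toMonoidHom) (Units.map_injective ιQ.injective))
      _ _).symm

end Fermat.Agent.DeligneSerre.Curve
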