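import Fermat.Agent.DeligneSerre.Curve.Reduced
import Fermat.Agent.DeligneSerre.KummerRed

/-!
# Reduction is injective on `l`-torsion classes of the curve of `±Γ₁(M)`
-/

set_option autoImplicit false
set_option maxHeartbeats 1000000
set_option synthInstance.maxHeartbeats 400000

noncomputable section

open Polynomial IsLocalRing AlgebraicCurve
open Fermat.Agent.RedTorsion (serInt serRed)
open Fermat.Agent.EichlerShimura (Kappa Model)
open scoped Classical

namespace Fermat.Agent.DeligneSerre.Curve

variable {M : ℕ} [NeZero M] [GoodLevel M] {A : ValuationSubring (AlgebraicClosure ℚ)}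
  [IsAlgClosed (ResidueField A)]

local notation "Qa" => AlgebraicClosure ℚ
local notation "E₁" => JacTorsion.FQ (F1 M)

/-- A function of the lattice with `l`-divisible divisor whose reduction is an `l`-th power of a
non-zero reduction is an `l`-th power. -/
theorem exists_root_of_red_model1 (hM : (M : ResidueField A) ≠ 0) {l : ℕ} (hl : l.Prime)
    (hlA : (l : ResidueField A) ≠ 0) (h u : (model1 hM).S)
    (hred : (model1 hM).red h = (model1 hM).red u ^ l) (hu0 : (model1 hM).red u ≠ 0)
    (hd : ∀ P : Place Qa E₁, (l : ℤ) ∣ P.ord (h : E₁)) : ∃ g : E₁, g ^ l = (h : E₁) := by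
  have : Nontrivial (Eb1 hM) := (toSer hM).domain_nontrivial
  have : Module.Finite (RatFunc (Kappa A)) (Eb1 hM) := Module.Finite.of_basis (model1 hM).bb
  have : IsReduced (Eb1 hM) :=
    isReduced_of_discr_ne_zero (model1 hM).bb (model1 hM).disc_ne
  have : IsArtinianRing (Eb1 hM) := IsArtinianRing.of_finite (RatFunc (Kappa A)) (Eb1 hM)
  let _ : Field (Eb1 hM) := (isField_of_idem fun _ he => idem_model1 hM he).toField
  have : FiniteDimensional (RatFunc Qa) E₁ := Module.Finite.of_basis (model1 hM).b
  have := isFunctionField_F1Bar M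
  refine exists_root_of_red_eq_pow (L := Qa) (model1 hM) (isArchVal_algebraicClosure A)
    algebraMap_X_E1 (NeZero.ne M) (fun P hP => ?_) (fun P hP => ?_) (fun a ha ha' P hP => ?_)
    (fun P hP => ord_jBase1_dvd P hP) hl hlA h _ hred hu0 hd
  · have h := ord_jBase1_sub_dvd P 0 (by rwa [map_zero, sub_zero])
    rw [map_zero, sub_zero, if_pos rfl] at h
    exact_mod_cast h
  · have h := ord_jBase1_sub_dvd P 1728 hP
    rw [if_neg (by norm_num), if_pos rfl] at h
    exact_mod_cast h
  · have h := ord_jBase1_sub_dvd P a hP
    rw [if_neg ha, if_neg ha'] at h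
    exact_mod_cast h

end Fermat.Agent.DeligneSerre.Curve
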