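import Fermat.Agent.DeligneSerre.Curve.RootDiv
import Fermat.Agent.DeligneSerre.Curve.Kummer
import Fermat.Agent.DeligneSerre.Curve.HeckeField
import Fermat.Agent.DeligneSerre.PeriodsOps

/-!
# Hecke operators and diamonds on Kummer classes

The character of the roots of the Hecke norm of a function is the Hecke transform of the character
of its roots.
-/

set_option autoImplicit false
set_option linter.unusedSectionVars false
set_option maxHeartbeats 1000000
set_option synthInstance.maxHeartbeats 400000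

noncomputable section

open UpperHalfPlane hiding I
open Function CongruenceSubgroup AlgebraicCurve
open Fermat.Agent.ModFun (MerH HolH actMer actHol coe_actHol mdifferentiable_comp_SL)
open Fermat.Agent.JacTorsion (zetaPow zetaPow_zero zetaPow_add divGrp divGrpExt coe_divGrpExt
  KummerGrp FQ extQ)
open Fermat.Agent.RT.GammaH (GLR HIdx hRep hecke diamond diaRep img admissible_hRep
  admissible_diaRep opOf opOf_apply_of_isPerm onImg_mapGL Admissible gamma0Elt gamma0Elt_mem)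
open Matrix.SpecialLinearGroup (mapGL)
open scoped Manifold MatrixGroups

namespace Fermat.Agent.DeligneSerre.Curve

variable {M : ℕ} [NeZero M] [GoodLevel M] {m : ℕ} [NeZero m]

/-- `H` has the character `φ`. -/
def HasChar (H : HolH) (φ : Additive (G1 M) →+ ZMod m) : Prop :=
  ∀ γ : G1 M, actHol (γ : SL(2, ℤ)) H
    = algebraMap ℂ HolH (zetaPow m (φ (Additive.ofMul γ))) * H

theorem hasChar_iff {H : HolH} {φ : Additive (G1 M) →+ ZMod m} :
    HasChar H φ ↔ ∀ (γ : G1 M) (τ : ℍ), (H : ℍ → ℂ) ((γ : SL(2, ℤ)) • τ)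
      = zetaPow m (φ (Additive.ofMul γ)) * (H : ℍ → ℂ) τ := by
  refine ⟨fun h γ τ => ?_, fun h γ => Subtype.ext (funext fun τ => ?_)⟩
  · have := congrFun (congrArg Subtype.val (h γ)) τ
    simpa using this
  · simpa using h γ τ

theorem zetaPow_sum {ι : Type*} (s : Finset ι) (a : ι → ZMod m) :
    zetaPow m (∑ i ∈ s, a i) = ∏ i ∈ s, zetaPow m (a i) := by
  induction s using Finset.cons_induction with
  | empty => simpa using zetaPow_zero (m := m)
  | cons i s hi ih => rw [Finset.sum_cons, Finset.prod_cons, zetaPow_add, ih]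

/-- The character of a product of translates. -/
theorem hasChar_of_family {ι : Type} [Fintype ι] {rep : ι → GLR}
    (hadm : Admissible (G1 M) (G1 M) rep) {H H' : HolH} {φ : Additive (G1 M) →+ ZMod m}
    (hH : HasChar H φ)
    (hH' : ∀ τ, (H' : ℍ → ℂ) τ = ∏ i, (H : ℍ → ℂ) (rep i • τ)) :
    HasChar H' (opOf hadm (ZMod m) φ) := by
  rw [hasChar_iff] at hH ⊢
  intro γ τ
  obtain ⟨σ, hσ⟩ := hadm γ
  rw [opOf_apply_of_isPerm hadm φ γ hσ, zetaPow_sum, hH', hH',
    ← hσ.1.prod_comp fun i => (H : ℍ → ℂ) (rep i • τ), ← Finset.prod_mul_distrib]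
  refine Finset.prod_congr rfl fun i _ => ?_
  obtain ⟨η, hη, he⟩ := hσ.2 i
  have h1 : rep i • (γ : SL(2, ℤ)) • τ = η • rep (σ i) • τ := by
    show rep i • (mapGL ℝ (γ : SL(2, ℤ)) • τ) = mapGL ℝ η • _
    rw [← mul_smul, ← mul_smul]
    congr 1
    rw [he, inv_mul_cancel_right]
  rw [← he, onImg_mapGL φ (⟨η, hη⟩ : G1 M), h1]
  exact hH ⟨η, hη⟩ _

/-- A multiplicative operator on functions, with its effect on characters. -/
structure RootOp (M : ℕ) [NeZero M] [GoodLevel M] (m : ℕ) [NeZero m] where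
  op : Hol1 M → Hol1 M
  opF : F1C M → F1C M
  Ψ : (Additive (G1 M) →+ ZMod m) → (Additive (G1 M) →+ ZMod m)
  op_mul : ∀ a b, op (a * b) = op a * op b
  op_ne_zero : ∀ a, a ≠ 0 → op a ≠ 0
  opF_toF1C : ∀ a, opF (toF1C M a) = toF1C M (op a)
  opF_mul : ∀ x y, opF (x * y) = opF x * opF y
  Ψ_mem : ∀ φ ∈ Gamma0.ellParHoms (G1 M) (ZMod m), Ψ φ ∈ Gamma0.ellParHoms (G1 M) (ZMod m)
  exists_root : ∀ (H : HolH) (C : Hol1 M) (φ : Additive (G1 M) →+ ZMod m),
    H ^ m = hol1ToHolH M C → HasChar H φ →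
      ∃ H' : HolH, H' ^ m = hol1ToHolH M (op C) ∧ HasChar H' (Ψ φ)

/-- The effect of an operator on the monodromy of roots. -/
theorem RootOp.apply_divGrp (T : RootOp M m) (f : divGrp ℂ (F1C M) m) :
    ∃ g : divGrp ℂ (F1C M) m, ((g : (F1C M)ˣ) : F1C M) = T.opF ((f : (F1C M)ˣ) : F1C M) ∧
      (rootChar1 M m g).1 = T.Ψ (rootChar1 M m f).1 := by
  set x : F1C M := ((f : (F1C M)ˣ) : F1C M)
  obtain ⟨H, b, C, hH0, hb, hHC, hC, hh⟩ := exists_root1 (Units.ne_zero (f : (F1C M)ˣ)) f.2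
  have hchar : HasChar H (rootChar1 M m f).1 := fun γ =>
    e11_algebraMap_inv γ.2 hb (rootChar1_spec f _ hh γ)
  obtain ⟨H', hH'C, hchar'⟩ := T.exists_root H C _ hHC hchar
  have hC0 : C ≠ 0 := fun h => pow_ne_zero m hH0 (by rw [hHC, h, map_zero])
  have hC'0 : T.op C ≠ 0 := T.op_ne_zero C hC0
  have hH'0 : H' ≠ 0 := fun h => hol1ToHolH_ne_zero hC'0 (by
    rw [← hH'C, h, zero_pow (NeZero.ne m)])
  have hb' : T.op b ≠ 0 := T.op_ne_zero b hb
  have hbF : toF1C M (T.op b) ≠ 0 := fun h =>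
    hb' (toF1C_injective (h.trans (map_zero (toF1C M)).symm))
  have hCF : toF1C M (T.op C) ≠ 0 := fun h =>
    hC'0 (toF1C_injective (h.trans (map_zero (toF1C M)).symm))
  have hpow : ∀ n : ℕ, n ≠ 0 → T.opF (toF1C M b ^ n) = T.opF (toF1C M b) ^ n := by
    intro n hn
    induction n with
    | zero => exact absurd rfl hn
    | succ n ih =>
      rcases eq_or_ne n 0 with rfl | h
      · simp
      · rw [pow_succ, pow_succ, T.opF_mul, ih h]
  have hx' : toF1C M (T.op C) = T.opF x * toF1C M (T.op b) ^ m := by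
    rw [← T.opF_toF1C, hC, T.opF_mul, hpow m (NeZero.ne m), T.opF_toF1C]
  have hx0 : T.opF x ≠ 0 := fun h => hCF (by rw [hx', h, zero_mul])
  have hdvd := dvd_ord_of_semiinvariant (M := M) hH'0 hH'C.symm
    ⟨_, T.Ψ_mem _ (rootChar1 M m f).2⟩ hchar'
  have hmem : Units.mk0 _ hx0 ∈ divGrp ℂ (F1C M) m := fun P => by
    rw [Units.val_mk0]
    have h1 := hdvd P
    rw [hx', P.ord_mul hx0 (pow_ne_zero _ hbF), JacTorsion.ord_pow] at h1
    exact (dvd_add_left (dvd_mul_right _ _)).mp h1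
  refine ⟨⟨_, hmem⟩, rfl, rootChar1_eq_of_isRootChar1 _ ?_⟩
  have hbe : e11 M (toF1C M (T.op b)) ≠ 0 := (map_ne_zero _).mpr hbF
  refine isRootChar1_of_root (Units.ne_zero _)
    (h := algebraMap HolH MerH H' / e11 M (toF1C M (T.op b))) ?_ fun γ => ?_
  · show _ = e11 M (T.opF x)
    rw [div_pow, ← map_pow (algebraMap HolH MerH), hH'C, ← e11_toF1C, hx', map_mul, map_pow,
      mul_div_cancel_right₀ _ (pow_ne_zero _ hbe)]
  · rw [map_div₀, Fermat.Agent.ModFun.actMer_algebraMap, hchar' γ, actMer_e11 γ.2, map_mul,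
      ← IsScalarTower.algebraMap_apply ℂ HolH MerH, mul_div_assoc]

/-- The same over `ℚ̄`. -/
theorem RootOp.apply_divGrpQ (T : RootOp M m) (f : divGrp (AlgebraicClosure ℚ) (FQ (F1 M)) m)
    (y : FQ (F1 M)) (hy : (extQ (F1 M)).emb y
      = T.opF ((extQ (F1 M)).emb ((f : (FQ (F1 M))ˣ) : FQ (F1 M)))) :
    ∃ g : divGrp (AlgebraicClosure ℚ) (FQ (F1 M)) m, ((g : (FQ (F1 M))ˣ) : FQ (F1 M)) = y ∧
      (kummerChar1 M m (QuotientGroup.mk g)).toAdd.1
        = T.Ψ (kummerChar1 M m (QuotientGroup.mk f)).toAdd.1 := by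
  obtain ⟨g₁, hg₁, hchar⟩ := T.apply_divGrp (divGrpExt m f)
  rw [coe_divGrpExt, ← hy] at hg₁
  have hy0 : y ≠ 0 := fun h => Units.ne_zero (g₁ : (F1C M)ˣ) (by rw [hg₁, h, map_zero])
  have hmem : Units.mk0 y hy0 ∈ divGrp (AlgebraicClosure ℚ) (FQ (F1 M)) m := fun P => by
    have := isFunctionField_F1Bar M
    obtain ⟨w, hw⟩ := JacTorsion.exists_place_over (extQ (F1 M)) P
      (JacTorsion.residueConst_of_isFunctionField P)
    rw [Units.val_mk0, ← hw, ← hg₁]
    exact g₁.2 w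
  refine ⟨⟨_, hmem⟩, rfl, ?_⟩
  have he : divGrpExt m ⟨_, hmem⟩ = g₁ := Subtype.ext (Units.ext (by rw [coe_divGrpExt, hg₁]; rfl))
  show (rootChar1 M m (divGrpExt m ⟨_, hmem⟩)).1 = T.Ψ (rootChar1 M m (divGrpExt m f)).1
  rw [he, hchar]

/-- The Hecke operator at a good prime. -/
def heckeOp (p : {p : ℕ // p.Prime ∧ ¬ p ∣ M}) : RootOp M m where
  op := heckeMul p.1
  opF := heckeC p
  Ψ := hecke M _ p.1 (ZMod m)
  op_mul := heckeMul_mul p.1
  op_ne_zero a ha h := by
    obtain ⟨τ, hτ⟩ := Function.ne_iff.1 (fun h0 => ha (Subtype.ext h0) : (a : ℍ → ℂ) ≠ 0)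
    have hne : ∀ i, (fun z => (a : ℍ → ℂ) (hRep M p.1 i • z)) ≠ 0 := fun i h0 =>
      hτ (by simpa using congrFun h0 ((hRep M p.1 i)⁻¹ • τ))
    let g : HIdx M p.1 → HolH := fun i =>
      ⟨_, mdifferentiable_comp_hRep p.1 a.2.1 i⟩
    have hg : ∏ i, g i ≠ 0 := Finset.prod_ne_zero_iff.mpr fun i _ h0 =>
      hne i (congrArg Subtype.val h0)
    refine hg (Subtype.ext ?_)
    rw [SubmonoidClass.coe_finsetProd]
    exact congrArg Subtype.val h
  opF_toF1C := heckeC_toF1C p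
  opF_mul := heckeC_mul p
  Ψ_mem _ h := hecke_mem_ellParHoms h
  exists_root H C φ hHC hchar := by
    let g : HIdx M p.1 → HolH := fun i => ⟨_, mdifferentiable_comp_hRep p.1 H.2 i⟩
    refine ⟨∏ i, g i, Subtype.ext (funext fun τ => ?_),
      hasChar_of_family admissible_hRep hchar fun τ => ?_⟩
    · show _ = (heckeMul p.1 C : ℍ → ℂ) τ
      rw [heckeMul_apply, SubmonoidClass.coe_pow, SubmonoidClass.coe_finsetProd, Pi.pow_apply,
        Finset.prod_apply, ← Finset.prod_pow]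
      exact Finset.prod_congr rfl fun i _ =>
        congrFun (congrArg Subtype.val hHC) (hRep M p.1 i • τ)
    · rw [SubmonoidClass.coe_finsetProd, Finset.prod_apply]

/-- The diamond operators. -/
def diamondOp (u : (ZMod M)ˣ) : RootOp M m where
  op := dia M u
  opF := diaC u
  Ψ := diamond M _ (ZMod m) u
  op_mul := map_mul _
  op_ne_zero a ha h := ha (dia_injective u (h.trans (map_zero _).symm))
  opF_toF1C := diaC_toF1C u
  opF_mul := map_mul _
  Ψ_mem _ h := diamond_mem_ellParHoms u h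
  exists_root H C φ hHC hchar := by
    refine ⟨⟨fun τ => (H : ℍ → ℂ) (gamma0Elt u⁻¹ • τ), mdifferentiable_comp_SL H.2 _⟩,
      Subtype.ext (funext fun τ => ?_), hasChar_of_family (admissible_diaRep u) hchar fun τ => ?_⟩
    · show ((H : ℍ → ℂ) (gamma0Elt u⁻¹ • τ)) ^ m = (dia M u C : ℍ → ℂ) τ
      rw [← comp_gamma0_eq_dia C (gamma0Elt_mem _) u (Or.inl ?_)]
      · exact congrFun (congrArg Subtype.val hHC) (gamma0Elt u⁻¹ • τ)
      · have hd : ((gamma0Elt u⁻¹) 0 0 : ZMod M) * (gamma0Elt u⁻¹) 1 1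
            - (gamma0Elt u⁻¹) 0 1 * (gamma0Elt u⁻¹) 1 0 = 1 := by
          exact_mod_cast congrArg (Int.cast : ℤ → ZMod M) (Gamma0.det_eq (gamma0Elt u⁻¹))
        rw [Gamma0_mem.1 (gamma0Elt_mem _), mul_zero, sub_zero,
          RT.GammaH.gamma0Elt_upperLeft] at hd
        have h2 := congrArg (fun x => (u : ZMod M) * x) hd
        simpa [← mul_assoc] using h2
    · simp only [Finset.univ_unique, Finset.prod_singleton]
      rfl

end Fermat.Agent.DeligneSerre.Curve
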