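import Fermat.Agent.DeligneSerre.Curve.Places
import Fermat.Agent.JacTorsion.CharInjective
import Fermat.Agent.JacTorsion.CharSurjective

/-!
# Roots on the upper half plane of functions of `±Γ₁(M)` with divisible divisor
-/

set_option autoImplicit false
set_option linter.unusedSectionVars false

noncomputable section

open UpperHalfPlane hiding I
open Function Filter Complex CongruenceSubgroup AlgebraicCurve
open scoped Manifold MatrixGroups WithZero Real IntermediateField Topology ModularForm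
open Fermat.Agent.JacTorsion (
  zetaPow zetaPow_pow zetaPow_zero zetaPow_add zetaPow_injective exists_zetaPow zetaPow_ne_zero
  actMer_mul eq_of_zetaPow_mul algebraMap_ne_zero' exists_const_mul
  const_eq_denom_zpow exists_differentiableOn_pow_eq divGrp powGrp KummerGrp exists_ord_eq_one
  ord_pow tendsto_valueAtInfty qZpow qZpow_apply laurentExp_qZpow tendsto_renormalised
  smul_eq_of_eq_or_neg meroAtInfty_of_pow quot_smul order_qExpand trace_sq_le_of_fixed)
open Fermat.Agent.ModFun (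
  MerH HolH CuspAlg BddAlg laurentExp toMerH jd evalC actMer actHol valAt valHol ordMer ordHol
  valAt_constant valAt_algebraMap valHol_apply valAt_actMer ordMer_algebraMap ordMer_mul
  ordMer_div actMer_algebraMap placeOfEmb mem_placeOfEmb exists_pos_mul_of_mem_iff
  places_iff_orbits exists_sub_mem_ordGe_one jH jC jSubHol jSubHol_ne_zero toMerH_jC_sub
  exists_stab denom_mul_apply genusJ_eq ordHol_pos_iff ordHol_jSubHol_jH jH_smul valInf
  valInf_constant valInf_apply valInf_twist ordL_valInf rootInv rootInv_zpow_eq_one twist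
  coeff_twist laurentExp_shift order_laurentExp_jC qFun PerH MeroAtInfty toMerH_apply
  cast_ordHol coe_actHol qFun_ne_zero mdifferentiable_comp_SL CuspAlg_le_mul laurentExp_mul
  laurentExp_injective isBounded_one mdifferentiable_discriminant)

namespace Fermat.Agent.DeligneSerre.Curve

variable {M : ℕ} [NeZero M] [GoodLevel M]

/-- The function field as meromorphic functions on `ℍ`. -/
abbrev e11 (M : ℕ) [NeZero M] [GoodLevel M] : F1C M →ₐ[ℂ] MerH := emb1 M ((1 : SL(2, ℤ)) : Coset1 M)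

theorem tr1_injective (c : Coset1 M) : Function.Injective (tr1 M c) := compSL1_injective _

/-- `Hol1 M` inside `HolH`. -/
def hol1ToHolH (M : ℕ) [NeZero M] [GoodLevel M] : Hol1 M →ₐ[ℂ] HolH := Subalgebra.inclusion fun _
    hf => hf.1

theorem hol1ToHolH_ne_zero {a : Hol1 M} (ha : a ≠ 0) : hol1ToHolH M a ≠ 0 := fun h =>
  ha (Subalgebra.inclusion_injective (fun _ (hf : _ ∈ Hol1 M) => hf.1) (h.trans (map_zero
      (hol1ToHolH M)).symm))

theorem e11_toF1C (a : Hol1 M) : e11 M (toF1C M a) = algebraMap HolH MerH (hol1ToHolH M a) := by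
  rw [emb1_toF1C, toMerH_apply]
  exact congrArg _ (Subtype.ext (funext (tr1_one a)))

theorem actMer_e11 {g : SL(2, ℤ)} (hg : g ∈ G1 M) (x : F1C M) : actMer g (e11 M x) = e11 M x := by
  rw [emb1_smul, MulAction.Quotient.smul_coe, smul_eq_mul, mul_one]
  have : ((g⁻¹ : SL(2, ℤ)) : Coset1 M) = ((1 : SL(2, ℤ)) : Coset1 M) := by
    rw [QuotientGroup.eq]; simpa using hg
  rw [this]

/-- A function whose divisor is divisible by `m` has an `m`-th root on `ℍ`. -/
theorem exists_root1 {m : ℕ} [NeZero m] {x : F1C M} (hx0 : x ≠ 0)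
    (hx : ∀ P : Place ℂ (F1C M), (m : ℤ) ∣ P.ord x) :
    ∃ (H : HolH) (b C : Hol1 M), H ≠ 0 ∧ b ≠ 0 ∧ H ^ m = hol1ToHolH M C ∧
      toF1C M C = x * toF1C M b ^ m ∧
      (algebraMap HolH MerH H / e11 M (toF1C M b)) ^ m = e11 M x := by
  obtain ⟨k, hk⟩ : ∃ k, m = k + 1 := ⟨m - 1, by have := NeZero.ne m; omega⟩
  obtain ⟨a, b, hb, rfl⟩ := exists_div_eq1 x
  have ha : a ≠ 0 := fun h => hx0 (by rw [h, map_zero, zero_div])
  set C : HolH := hol1ToHolH M a * hol1ToHolH M b ^ k with hCdef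
  have hC0 : C ≠ 0 := mul_ne_zero (hol1ToHolH_ne_zero ha) (pow_ne_zero _ (hol1ToHolH_ne_zero hb))
  have hbF : toF1C M b ≠ 0 := fun h => hb (toF1C_injective (h.trans (map_zero (toF1C M)).symm))
  have heC : algebraMap HolH MerH C = e11 M (toF1C M a / toF1C M b) * e11 M (toF1C M b) ^ m := by
    rw [map_div₀, hk, pow_succ', ← mul_assoc, div_mul_cancel₀ _ ((map_ne_zero _).mpr hbF),
      hCdef, map_mul, map_pow, e11_toF1C, e11_toF1C]
  have hord : ∀ τ : ℍ, ∃ n : ℕ, ordHol τ C = m * n := by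
    intro τ
    obtain ⟨μ, -, hM⟩ := exists_ordMer_eq_mul1 (M := M) τ
    have h1 : (ordHol τ C : ℤ) = μ * (placeAt1 M τ).ord (toF1C M a / toF1C M b) +
        (m : ℤ) * ordMer τ (e11 M (toF1C M b)) := by
      have hp : ∀ n : ℕ, ordMer τ (e11 M (toF1C M b) ^ n) = n * ordMer τ (e11 M (toF1C M b)) := by
        intro n
        induction n with
        | zero => simp [ordMer]
        | succ n ih =>
          rw [pow_succ, ordMer_mul (pow_ne_zero _ ((map_ne_zero _).mpr hbF))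
            ((map_ne_zero _).mpr hbF), ih]
          push_cast; ring
      rw [← ordMer_algebraMap hC0 τ, heC, ordMer_mul ((map_ne_zero _).mpr hx0)
        (pow_ne_zero _ ((map_ne_zero _).mpr hbF)), hp, hM _ hx0]
    have h2 : (m : ℤ) ∣ (ordHol τ C : ℤ) := by
      rw [h1]; exact dvd_add (dvd_mul_of_dvd_right (hx _) μ) (dvd_mul_right _ _)
    exact Int.natCast_dvd_natCast.mp h2
  obtain ⟨H, hHd, hH⟩ := exists_differentiableOn_pow_eq (NeZero.ne m)
    (C := (C : ℍ → ℂ) ∘ ofComplex) (UpperHalfPlane.mdifferentiable_iff.mp C.2) fun z hz => by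
      obtain ⟨n, hn⟩ := hord ⟨z, hz⟩
      exact ⟨n, by rw [← hn, cast_ordHol hC0]⟩
  have hHm : MDiff fun τ : ℍ => H τ := by
    rw [UpperHalfPlane.mdifferentiable_iff]
    exact hHd.congr fun z hz => by simp [ofComplex_apply_of_im_pos hz]
  set G : HolH := ⟨fun τ : ℍ => H τ, hHm⟩ with hG
  have hGm : G ^ m = C := Subtype.ext (funext fun τ => by
    show (H τ) ^ m = _
    rw [hH τ τ.im_pos]
    simp)
  refine ⟨G, b, a * b ^ k, fun h => hC0 (by rw [← hGm, h, zero_pow (NeZero.ne m)]), hb,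
    by rw [hGm, hCdef, map_mul, map_pow],
    by rw [map_mul, map_pow, hk, pow_succ', ← mul_assoc, div_mul_cancel₀ _ hbF], ?_⟩
  rw [div_pow, ← map_pow (algebraMap HolH MerH), hGm, heC,
    mul_div_cancel_right₀ _ (pow_ne_zero _ ((map_ne_zero _).mpr hbF))]

/-- An element fixing a point acts trivially on roots of functions in the field. -/
theorem const_eq_one_of_fixed1 {m : ℕ} [NeZero m] {τ : ℍ} {γ : SL(2, ℤ)} (hγ : γ ∈ G1 M)
    (hτ : γ • τ = τ) {x : F1C M} (hx0 : x ≠ 0) (hx : ∀ P : Place ℂ (F1C M), (m : ℤ) ∣ P.ord x)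
    {h : MerH} (hh : h ^ m = e11 M x) {c : ℂ} (hc : actMer γ h = algebraMap ℂ MerH c * h) :
    c = 1 := by
  obtain ⟨μ, hMpos, hM⟩ := exists_ordMer_eq_mul1 (M := M) τ
  obtain ⟨t, ht0, ht⟩ := exists_ord_eq_one (placeAt1 M τ)
  have h1 := const_eq_denom_zpow hτ ((map_ne_zero (e11 M)).mpr ht0) (c := 1)
    (by rw [actMer_e11 hγ, map_one, one_mul])
  rw [hM _ ht0, ht, mul_one] at h1
  have hh0 : h ≠ 0 := by
    rintro rfl
    rw [zero_pow (NeZero.ne m)] at hh
    exact (map_ne_zero (e11 M)).mpr hx0 hh.symm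
  obtain ⟨D, hD⟩ := hx (placeAt1 M τ)
  have hord : ordMer τ h = μ * D := by
    have hp : ∀ n : ℕ, ordMer τ (h ^ n) = n * ordMer τ h := by
      intro n
      induction n with
      | zero => simp [ordMer]
      | succ n ih =>
        rw [pow_succ, ordMer_mul (pow_ne_zero _ hh0) hh0, ih]
        push_cast; ring
    have h2 := hp m
    rw [hh, hM _ hx0, hD] at h2
    refine mul_left_cancel₀ (Int.natCast_ne_zero.mpr (NeZero.ne m)) ?_
    linear_combination -h2
  rw [const_eq_denom_zpow hτ hh0 hc, hord, ← neg_mul, zpow_mul, ← h1, one_zpow]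

theorem e11_algebraMap_inv {γ : SL(2, ℤ)} (hγ : γ ∈ G1 M) {H : HolH} {b : Hol1 M} {c : ℂ}
    (hb : b ≠ 0)
    (hc : actMer γ (algebraMap HolH MerH H / e11 M (toF1C M b))
      = algebraMap ℂ MerH c * (algebraMap HolH MerH H / e11 M (toF1C M b))) :
    actHol γ H = algebraMap ℂ HolH c * H := by
  have hb' : e11 M (toF1C M b) ≠ 0 :=
    (map_ne_zero _).mpr fun h => hb (toF1C_injective (h.trans (map_zero (toF1C M)).symm))
  rw [map_div₀, actMer_e11 hγ, ← mul_div_assoc, div_left_inj' hb', actMer_algebraMap,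
    IsScalarTower.algebraMap_apply ℂ HolH MerH, ← map_mul] at hc
  exact IsFractionRing.injective HolH MerH hc

theorem qFun_zpow_T1 (μ : ℤ) (p : ℕ) (d k : ℤ) (hMp : μ * p = M) (hpk : (p : ℤ) ∣ k) (τ : ℍ) :
    qFun M (((k : ℝ) +ᵥ τ)) ^ (μ * d) = qFun M τ ^ (μ * d) := by
  obtain ⟨i, rfl⟩ := hpk
  simp only [qFun, Periodic.qParam, ← Complex.exp_int_mul, coe_vadd]
  rw [Complex.exp_eq_exp_iff_exists_int]
  refine ⟨i * d, ?_⟩
  have hN : ((M : ℝ) : ℂ) ≠ 0 := by exact_mod_cast NeZero.ne M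
  have hMp' : (μ : ℂ) * p = ((M : ℝ) : ℂ) := by exact_mod_cast hMp
  push_cast at hN hMp' ⊢
  field_simp
  linear_combination ((i : ℂ) * (d : ℂ)) * hMp'

/-- Parabolic elements act trivially on roots of functions in the field. -/
theorem const_eq_one_of_parabolic1 {m : ℕ} [NeZero m] {γ α : SL(2, ℤ)} {k : ℤ} (hk : k ≠ 0)
    (hγ : γ ∈ G1 M)
    (hγα : γ = α * ModularGroup.T ^ k * α⁻¹ ∨ γ = -(α * ModularGroup.T ^ k * α⁻¹))
    {x : F1C M} (hx0 : x ≠ 0) (hx : ∀ P : Place ℂ (F1C M), (m : ℤ) ∣ P.ord x)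
    {H : HolH} {b C : Hol1 M} (hb : b ≠ 0) (hHC : H ^ m = hol1ToHolH M C)
    (hC : toF1C M C = x * toF1C M b ^ m) {c : ℂ} (hcm : c ^ m = 1)
    (hc : actHol γ H = algebraMap ℂ HolH c * H) : c = 1 := by
  set c₀ : Coset1 M := ((α⁻¹ : SL(2, ℤ)) : Coset1 M) with hc₀
  have hTk : ModularGroup.T ^ k • c₀ = c₀ := by
    rw [hc₀, MulAction.Quotient.smul_coe, smul_eq_mul, QuotientGroup.eq]
    have : (ModularGroup.T ^ k * α⁻¹)⁻¹ * α⁻¹ = (α * ModularGroup.T ^ k * α⁻¹)⁻¹ := by
      simp [mul_assoc]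
    rw [this, inv_mem_iff]
    rcases hγα with h | h
    · rwa [← h]
    · have h' : α * ModularGroup.T ^ k * α⁻¹ = -γ := by rw [h, neg_neg]
      rw [h', ← neg_one_mul]
      exact mul_mem (neg_one_mem_G1) hγ
  have hpk : (MulAction.period ModularGroup.T c₀ : ℤ) ∣ k :=
    MulAction.zpow_smul_eq_iff_period_dvd.mp hTk
  obtain ⟨μ, -, hMp, hM⟩ := exists_order_eq_mul1 (M := M) c₀
  have hbF : toF1C M b ≠ 0 := fun h => hb (toF1C_injective (h.trans (map_zero (toF1C M)).symm))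
  have hC0 : toF1C M C ≠ 0 := by rw [hC]; exact mul_ne_zero hx0 (pow_ne_zero _ hbF)
  have hC0' : tr1 M c₀ C ≠ 0 := fun h => hC0 (by
    rw [tr1_injective c₀ (h.trans (map_zero (tr1 M c₀)).symm), map_zero])
  obtain ⟨D, hD⟩ := hx (placeCusp1 M c₀)
  set d := D + (placeCusp1 M c₀).ord (toF1C M b) with hd
  have hord : (laurentExp M (tr1 M c₀ C)).order = (m : ℤ) * (μ * d) := by
    rw [← cuspEmb1_toF1C, hM _ hC0, hC, (placeCusp1 M c₀).ord_mul hx0 (pow_ne_zero _ hbF), hD,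
      ord_pow]
    ring
  obtain ⟨L, hL, hlim⟩ := tendsto_renormalised hC0'
  rw [hord] at hlim
  -- the renormalised root
  set G : HolH := actHol α H with hG
  set u : ℍ → ℂ := fun τ => qFun M τ ^ (-(μ * d)) * (G : ℍ → ℂ) τ with hu
  have hu_pow : ∀ τ, u τ ^ m = (qZpow M (-((m : ℤ) * (μ * d))) : ℍ → ℂ) τ
      * (tr1 M c₀ C : ℍ → ℂ) τ := fun τ => by
    rw [qZpow_apply, hu]
    simp only
    rw [mul_pow, ← zpow_natCast (qFun M τ ^ _), ← zpow_mul, hc₀, tr1_mk, inv_inv, hG, coe_actHol,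
      show ((H : ℍ → ℂ) (α • τ)) ^ m = ((H ^ m : HolH) : ℍ → ℂ) (α • τ) from rfl, hHC]
    congr 2
    ring
  have hGk : ∀ τ : ℍ, (G : ℍ → ℂ) ((k : ℝ) +ᵥ τ) = c * (G : ℍ → ℂ) τ := fun τ => by
    have h1 := congrFun (congrArg Subtype.val hc) (α • τ)
    rw [coe_actHol, smul_eq_of_eq_or_neg hγα, mul_smul, mul_smul, inv_smul_smul,
      modular_T_zpow_smul] at h1
    rw [hG, coe_actHol, coe_actHol, h1]
    rfl
  have huk : ∀ τ, u ((k : ℝ) +ᵥ τ) = c * u τ := fun τ => by
    rw [hu]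
    simp only
    rw [hGk, ← mul_neg, qFun_zpow_T1 μ _ (-d) k hMp hpk]
    ring
  have hc0 : c ≠ 0 := fun h => by
    rw [h, zero_pow (NeZero.ne m)] at hcm; exact zero_ne_one hcm
  -- `u` is periodic and bounded
  have hukn : ∀ (n : ℕ) (τ : ℍ), u ((((n : ℤ) * k : ℤ) : ℝ) +ᵥ τ) = c ^ n * u τ := by
    intro n
    induction n with
    | zero => intro τ; simp
    | succ n ih =>
      intro τ
      have : ((((n + 1 : ℕ) : ℤ) * k : ℤ) : ℝ) +ᵥ τ
          = ((((n : ℤ) * k : ℤ) : ℝ) +ᵥ ((k : ℝ) +ᵥ τ)) := by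
        rw [vadd_vadd]; push_cast; congr 1; ring
      rw [this, ih, huk, pow_succ]; ring
  let K : ℕ := m * k.natAbs
  have : NeZero K := ⟨mul_ne_zero (NeZero.ne m) (Int.natAbs_ne_zero.mpr hk)⟩
  have huper : PerH K u := by
    intro τ
    rcases Int.natAbs_eq k with hk' | hk'
    · have h1 := hukn m τ
      rw [hcm, one_mul] at h1
      have hK : (m : ℤ) * k = ((K : ℕ) : ℤ) :=
        (congrArg ((m : ℤ) * ·) hk').trans (Nat.cast_mul m k.natAbs).symm
      rwa [hK, Int.cast_natCast] at h1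
    · have h1 := hukn m ((K : ℝ) +ᵥ τ)
      rw [hcm, one_mul, vadd_vadd] at h1
      have hK : (m : ℤ) * k = -((K : ℕ) : ℤ) := by
        refine (congrArg ((m : ℤ) * ·) hk').trans ?_
        show (m : ℤ) * -(k.natAbs : ℤ) = -(((m * k.natAbs : ℕ)) : ℤ)
        rw [mul_neg, Nat.cast_mul]
      rw [hK, Int.cast_neg, Int.cast_natCast, neg_add_cancel, zero_vadd] at h1
      exact h1.symm
  have hud : MDiff u := by
    rw [hu]
    have h1 : MDiff fun τ : ℍ => qFun M τ ^ (-(μ * d)) := by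
      have := (qZpow M (-(μ * d))).2.1
      convert! this using 1
      funext τ; rw [qZpow_apply]
    exact h1.mul G.2
  have hbdd : IsBoundedAtImInfty u := by
    rw [UpperHalfPlane.isBoundedAtImInfty_iff]
    have hev : ∀ᶠ τ in atImInfty, ‖u τ ^ m‖ ≤ ‖L‖ + 1 := by
      have h1 : Tendsto (fun τ => u τ ^ m) atImInfty (𝓝 L) :=
        hlim.congr fun τ => (hu_pow τ).symm
      exact (h1.norm.eventually_le_const (by linarith [norm_nonneg L]))
    rw [Filter.Eventually, atImInfty_mem] at hev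
    obtain ⟨A, hA⟩ := hev
    refine ⟨max (‖L‖ + 1) 1, A, fun τ hτ => ?_⟩
    have h1 : ‖u τ‖ ^ m ≤ ‖L‖ + 1 := by rw [← norm_pow]; exact hA τ hτ
    rcases le_or_gt ‖u τ‖ 1 with h2 | h2
    · exact h2.trans (le_max_right _ _)
    · exact ((le_self_pow₀ h2.le (NeZero.ne m)).trans h1).trans (le_max_left _ _)
  have hlimu := tendsto_valueAtInfty (h := K) ⟨hud, huper, hbdd⟩
  have hne : valueAtInfty u ^ m = L :=
    tendsto_nhds_unique (hlimu.pow m) (hlim.congr fun τ => (hu_pow τ).symm)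
  have hshift : Tendsto (fun τ : ℍ => (k : ℝ) +ᵥ τ) atImInfty atImInfty := by
    refine tendsto_comap_iff.mpr ?_
    have h1 : Tendsto (fun τ : ℍ => τ.im) atImInfty atTop := tendsto_comap
    exact h1.congr fun τ => by simp
  have h2 : Tendsto (fun τ => c * u τ) atImInfty (𝓝 (valueAtInfty u)) :=
    (hlimu.comp hshift).congr fun τ => huk τ
  have h3 := tendsto_nhds_unique h2 (hlimu.const_mul c)
  have hv : valueAtInfty u ≠ 0 := fun h => hL (by rw [← hne, h, zero_pow (NeZero.ne m)])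
  exact mul_right_cancel₀ hv (by rw [one_mul]; exact h3.symm)

end Fermat.Agent.DeligneSerre.Curve
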