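import Fermat.Agent.DeligneSerre.Curve.KummerChar

/-!
# Every character of `±Γ₁(M)` killing elliptic and parabolic elements occurs
-/

set_option autoImplicit false
set_option linter.unusedSectionVars false

noncomputable section

open UpperHalfPlane hiding I
open Function Filter Complex CongruenceSubgroup AlgebraicCurve
open scoped Manifold MatrixGroups WithZero Real IntermediateField Topology ModularForm
open Fermat.Agent.JacTorsion (
  zetaPow zetaPow_pow zetaPow_zero zetaPow_add zetaPow_injective exists_zetaPow zetaPow_ne_zero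
  actMer_mul eq_of_zetaPow_mul algebraMap_ne_zero' exists_const_mul
  const_eq_denom_zpow exists_differentiableOn_pow_eq divGrp powGrp KummerGrp exists_ord_eq_one
  ord_pow tendsto_valueAtInfty qZpow qZpow_apply laurentExp_qZpow tendsto_renormalised
  smul_eq_of_eq_or_neg meroAtInfty_of_pow quot_smul order_qExpand trace_sq_le_of_fixed)
open Fermat.Agent.ModFun (
  MerH HolH CuspAlg BddAlg laurentExp toMerH jd evalC actMer actHol valAt valHol ordMer ordHol
  valAt_constant valAt_algebraMap valHol_apply valAt_actMer ordMer_algebraMap ordMer_mul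
  ordMer_div actMer_algebraMap placeOfEmb mem_placeOfEmb exists_pos_mul_of_mem_iff
  places_iff_orbits exists_sub_mem_ordGe_one jH jC jSubHol jSubHol_ne_zero toMerH_jC_sub
  exists_stab denom_mul_apply genusJ_eq ordHol_pos_iff ordHol_jSubHol_jH jH_smul valInf
  valInf_constant valInf_apply valInf_twist ordL_valInf rootInv rootInv_zpow_eq_one twist
  coeff_twist laurentExp_shift order_laurentExp_jC qFun PerH MeroAtInfty toMerH_apply
  cast_ordHol coe_actHol qFun_ne_zero mdifferentiable_comp_SL CuspAlg_le_mul laurentExp_mul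
  laurentExp_injective isBounded_one mdifferentiable_discriminant)

namespace Fermat.Agent.DeligneSerre.Curve

variable {M : ℕ} [NeZero M] [GoodLevel M]

variable {m : ℕ} [NeZero m]

/-- A meromorphic-at-cusps holomorphic function with a given multiplier. -/
theorem exists_semiinvariant1 (φ : Gamma0.ellParHoms (G1 M) (ZMod m)) :
    ∃ H : HolH, H ≠ 0 ∧ (∀ g : SL(2, ℤ), MeroAtInfty fun τ => (H : ℍ → ℂ) (g • τ)) ∧
      ∀ γ : G1 M, actHol (γ : SL(2, ℤ)) H
        = algebraMap ℂ HolH (zetaPow m (φ.1 (Additive.ofMul γ))) * H := by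
  let χ : G1 M →* ℂˣ :=
    { toFun := fun γ => Units.mk0 _ (zetaPow_ne_zero (φ.1 (Additive.ofMul γ)))
      map_one' := Units.ext (by simp [zetaPow_zero])
      map_mul' := fun γ δ => Units.ext (by simp [zetaPow_add]) }
  have hfin : (Set.range χ).Finite := by
    refine (Set.finite_range fun a : ZMod m => Units.mk0 _ (zetaPow_ne_zero a)).subset ?_
    rintro _ ⟨γ, rfl⟩
    exact ⟨φ.1 (Additive.ofMul γ), rfl⟩
  have hneg : χ ⟨-1, neg_one_mem_G1⟩ = 1 := Units.ext (by
    show zetaPow m (φ.1 _) = 1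
    rw [φ.2 _ (by simp), zetaPow_zero])
  obtain ⟨r, -, P, hP0, hPd, hPχ, hPz⟩ :=
    Poincare.exists_form_twelve (neg_one_mem_G1) hfin hneg 0
  let h : ℍ → ℂ := fun τ => P τ / ModularForm.discriminant τ ^ r
  have hd : MDiff h := by
    rw [UpperHalfPlane.mdifferentiable_iff] at hPd ⊢
    have hΔ := UpperHalfPlane.mdifferentiable_iff.mp
        (mdifferentiable_pow mdifferentiable_discriminant r)
    exact hPd.div hΔ fun z _ => pow_ne_zero _ (ModularForm.discriminant_ne_zero _)
  refine ⟨⟨h, hd⟩, fun h0 => hP0 ?_, fun g => ⟨r, ?_⟩, fun γ => Subtype.ext (funext fun τ => ?_)⟩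
  · have h1 : h Poincare.basePoint = 0 := congrFun (congrArg Subtype.val h0) Poincare.basePoint
    exact (div_eq_zero_iff.mp h1).resolve_right
      (pow_ne_zero _ (ModularForm.discriminant_ne_zero _))
  · have : (ModularForm.discriminant ^ r * fun τ => h (g • τ)) = P ∣[(12 * r : ℤ)] g := by
      funext τ
      simp only [Pi.mul_apply, Pi.pow_apply, h, quot_smul]
      rw [mul_div_cancel₀ _ (pow_ne_zero _ (ModularForm.discriminant_ne_zero τ))]
    rw [this]
    exact (hPz g).isBoundedAtImInfty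
  · show h ((γ : SL(2, ℤ)) • τ) = zetaPow m (φ.1 (Additive.ofMul γ)) * h τ
    simp only [h, quot_smul, hPχ γ, Pi.smul_apply, smul_eq_mul, mul_div_assoc]
    rfl

/-- Orders of invariant functions: the value group at `placeAt1 τ`. -/
theorem exists_stab_period1 (τ : ℍ) : ∃ (s : SL(2, ℤ)) (e ℓ : ℕ) (μ : ℤ), s • τ = τ ∧
    s ^ ℓ ∈ G1 M ∧ (∀ k : ℤ, (denom s τ ^ 2) ^ k = 1 → (e : ℤ) ∣ k) ∧
    (∀ x : F1C M, x ≠ 0 → ordMer τ (e11 M x) = μ * (placeAt1 M τ).ord x) ∧
    μ * ℓ = e ∧ ℓ ≠ 0 := by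
  classical
  obtain ⟨s, e, hs, he, hord, hprim⟩ := exists_stab τ
  let _ : Fintype (Coset1 M) := Fintype.ofFinite _
  have hs' : s⁻¹ • τ = τ := by rw [inv_smul_eq_iff, hs]
  have hprim' : ∀ k : ℤ, (denom (s⁻¹ : SL(2, ℤ)) τ ^ 2) ^ k = 1 → (e : ℤ) ∣ k := by
    intro k hk
    apply hprim
    have h1 := denom_mul_apply s⁻¹ s τ
    rw [inv_mul_cancel, hs] at h1
    have h2 : denom s τ = (denom (s⁻¹ : SL(2, ℤ)) τ)⁻¹ := by
      refine eq_inv_of_mul_eq_one_left ?_
      rw [mul_comm, ← h1]
      simp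
    rw [h2, inv_pow, inv_zpow, hk, inv_one]
  have h := places_iff_orbits (jF1 M) (jH τ) transcendental_jF1 (valAt τ)
    (fun _ hc => valAt_constant hc τ) (emb1 M) emb1_injective
    (by rw [← Nat.card_eq_fintype_card]; exact finrank_jF1.symm)
    (toMerH M (jC M)) emb1_jF1 e he
    (by
      rw [toMerH_jC_sub]
      show ordMer τ _ = _
      rw [ordMer_algebraMap (jSubHol_ne_zero _), hord])
    (cosetPerm1 s) (actMer s⁻¹).toAlgHom.toRingHom
    (fun c x => by
      show emb1 M (s • c) x = actMer s⁻¹ (emb1 M c x)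
      rw [emb1_smul, inv_inv])
    (fun g => by
      show valAt τ (actMer s⁻¹ g) = _
      rw [valAt_actMer, hs'])
    (fun n g hg hfix => Genus.ordMer_dvd hs' e hprim' n g hg hfix)
    (fun c : Coset1 M => placeAt1 M (c.out⁻¹ • τ))
    (fun c x => by rw [mem_placeAt1_inv_smul_iff, QuotientGroup.out_eq'])
  set c₁ : Coset1 M := ((1 : SL(2, ℤ)) : Coset1 M)
  set ℓ := Function.minimalPeriod (fun d : Coset1 M => s • d) c₁ with hℓ
  have hP : placeAt1 M (c₁.out⁻¹ • τ) = placeAt1 M τ := by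
    rw [placeAt1_inv_out_smul, inv_one, one_smul]
  have h2 : (placeAt1 M τ).ord (jF1 M - algebraMap ℂ (F1C M) (jH τ)) = ℓ := by
    rw [← hP]; exact h.2.2 c₁
  have hℓ0 : ℓ ≠ 0 := by
    have hp : 0 < (placeAt1 M τ).ord (jF1 M - algebraMap ℂ (F1C M) (jH τ)) :=
      ord_jF1_sub_placeAt1_pos τ
    omega
  obtain ⟨μ, -, hM⟩ := exists_ordMer_eq_mul1 (M := M) τ
  have hne : jF1 M - algebraMap ℂ (F1C M) (jH τ) ≠ 0 := fun h0 => by
    rw [h0, Place.ord_zero] at h2; omega
  refine ⟨s, e, ℓ, μ, hs, ?_, hprim, hM, ?_, hℓ0⟩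
  · have hfix := Function.isPeriodicPt_minimalPeriod (fun d : Coset1 M => s • d) c₁
    rw [← hℓ] at hfix
    have h3 : s ^ ℓ • c₁ = c₁ := by
      rw [← smul_iterate_apply]; exact hfix
    rw [MulAction.Quotient.smul_coe, smul_eq_mul, mul_one, QuotientGroup.eq] at h3
    simpa using h3
  · have h4 := hM _ hne
    rw [map_sub, AlgHom.commutes, h2] at h4
    have e11 : e11 M (jF1 M) - algebraMap ℂ MerH (jH τ) = algebraMap HolH MerH (jSubHol (jH τ))
        := by
      rw [← toMerH_jC_sub (N := M)]; exact congrArg (· - _) (emb1_jF1 _)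
    rw [e11, ordMer_algebraMap (jSubHol_ne_zero _), hord] at h4
    exact h4.symm

theorem exists_rootChar1_eq (φ : Gamma0.ellParHoms (G1 M) (ZMod m)) :
    ∃ f : divGrp ℂ (F1C M) m, rootChar1 M m f = φ := by
  obtain ⟨H, hH0, hmero, hact⟩ := exists_semiinvariant1 φ
  have hpow : ∀ γ : G1 M, actHol (γ : SL(2, ℤ)) (H ^ m) = H ^ m := fun γ => by
    rw [map_pow, hact, mul_pow, ← map_pow, zetaPow_pow, map_one, one_mul]
  have hmem : ((H ^ m : HolH) : ℍ → ℂ) ∈ Hol1 M := by
    refine ⟨(H ^ m).2, fun g hg τ => congrFun (congrArg Subtype.val (hpow ⟨g, hg⟩)) τ, fun g => ?_⟩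
    have : (fun τ => ((H ^ m : HolH) : ℍ → ℂ) (g • τ)) = (fun τ => (H : ℍ → ℂ) (g • τ)) ^ m := rfl
    rw [this]
    have hpw : ∀ n : ℕ, MeroAtInfty ((fun τ => (H : ℍ → ℂ) (g • τ)) ^ n) := by
      intro n
      induction n with
      | zero => rw [pow_zero]; exact MeroAtInfty.of_isBounded isBounded_one
      | succ n ih => rw [pow_succ]; exact ih.mul (hmero g)
    exact hpw m
  set C : Hol1 M := ⟨_, hmem⟩ with hC
  have hCH : hol1ToHolH M C = H ^ m := rfl
  have hC0 : toF1C M C ≠ 0 := fun h0 => pow_ne_zero m hH0 (by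
    rw [← hCH, toF1C_injective (h0.trans (map_zero (toF1C M)).symm), map_zero])
  have hh : (algebraMap HolH MerH H) ^ m = e11 M (toF1C M C) := by
    rw [e11_toF1C, hCH, map_pow]
  have h0 : algebraMap HolH MerH H ≠ 0 := algebraMap_ne_zero' hH0
  have hact' : ∀ γ : G1 M, actMer (γ : SL(2, ℤ)) (algebraMap HolH MerH H)
      = algebraMap ℂ MerH (zetaPow m (φ.1 (Additive.ofMul γ))) * algebraMap HolH MerH H := fun γ
          => by
    rw [actMer_algebraMap, hact, map_mul, ← IsScalarTower.algebraMap_apply ℂ HolH MerH]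
  have hdiv : Units.mk0 _ hC0 ∈ divGrp ℂ (F1C M) m := by
    intro P
    rw [Units.val_mk0]
    rcases exists_eq_placeAt1_or_placeCusp1 P with ⟨τ, rfl⟩ | ⟨c, rfl⟩
    · obtain ⟨s, e, ℓ, μ, hs, hsℓ, hprim, hM, hMℓ, hℓ0⟩ := exists_stab_period1 (M := M) τ
      have hfix : actMer (s ^ ℓ) (algebraMap HolH MerH H) = algebraMap HolH MerH H := by
        rw [hact' ⟨_, hsℓ⟩, φ.2 ⟨_, hsℓ⟩, zetaPow_zero, map_one, one_mul]
        have hτ : s ^ ℓ • τ = τ := by
          have : s ∈ MulAction.stabilizer (SL(2, ℤ)) τ := hs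
          exact pow_mem this ℓ
        exact trace_sq_le_of_fixed hτ
      have hiter : (actMer s)^[ℓ] (algebraMap HolH MerH H) = algebraMap HolH MerH H := by
        rw [Genus.actMer_iterate, ← actMer_algebraMap, hfix]
      have hd := Genus.ordMer_dvd hs e hprim ℓ _ h0 hiter
      rw [← hMℓ, mul_comm μ (ℓ : ℤ)] at hd
      have hd' : μ ∣ ordMer τ (algebraMap HolH MerH H) :=
        (mul_dvd_mul_iff_left (by exact_mod_cast hℓ0)).mp hd
      obtain ⟨q, hq⟩ := hd'
      have h1 := hM _ hC0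
      rw [← hh] at h1
      have hp : ∀ n : ℕ, ordMer τ (algebraMap HolH MerH H ^ n)
          = n * ordMer τ (algebraMap HolH MerH H) := by
        intro n
        induction n with
        | zero => simp [ordMer]
        | succ n ih =>
          rw [pow_succ, ordMer_mul (pow_ne_zero _ h0) h0, ih]
          push_cast; ring
      rw [hp, hq] at h1
      have hM0 : μ ≠ 0 := by
        rintro rfl
        obtain ⟨t, ht0, ht⟩ := exists_ord_eq_one (placeAt1 M τ)
        obtain ⟨μ', hM'0, hM'⟩ := exists_ordMer_eq_mul1 (M := M) τ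
        have := hM' _ ht0
        rw [hM _ ht0, ht] at this
        omega
      exact ⟨q, mul_left_cancel₀ hM0 (by linear_combination -h1)⟩
    · obtain ⟨μ, hMpos, hMp, hM⟩ := exists_order_eq_mul1 (M := M) c
      set p := MulAction.period ModularGroup.T c with hp
      set g : SL(2, ℤ) := c.out with hg
      have hp0 : NeZero p := ⟨fun h0 => by
        rw [h0] at hMp; simp [eq_comm, NeZero.ne M] at hMp⟩
      have hper : PerH p fun τ => (H : ℍ → ℂ) (g⁻¹ • τ) := by
        intro τ
        show (H : ℍ → ℂ) (g⁻¹ • ((p : ℝ) +ᵥ τ)) = (H : ℍ → ℂ) (g⁻¹ • τ)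
        have hTp : ModularGroup.T ^ (p : ℤ) • c = c := by
          rw [zpow_natCast]; exact MulAction.pow_period_smul ModularGroup.T c
        have hmemγ : g⁻¹ * ModularGroup.T ^ (p : ℤ) * g ∈ G1 M := by
          rw [← QuotientGroup.out_eq' c, MulAction.Quotient.smul_coe, smul_eq_mul,
            QuotientGroup.eq] at hTp
          have := inv_mem hTp
          simpa [mul_assoc, hg] using this
        have h1 := congrFun (congrArg Subtype.val (hact ⟨_, hmemγ⟩)) (g⁻¹ • τ)
        rw [φ.2 ⟨_, hmemγ⟩ (by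
          show (((g⁻¹ * ModularGroup.T ^ (p : ℤ) * g : SL(2, ℤ))) : Matrix (Fin 2) (Fin 2)
              ℤ).trace ^ 2 ≤ 4
          rw [Matrix.SpecialLinearGroup.coe_mul, Matrix.trace_mul_comm,
            ← Matrix.SpecialLinearGroup.coe_mul, mul_inv_cancel_left, ModularGroup.coe_T_zpow]
          simp [Matrix.trace_fin_two]), zetaPow_zero, map_one, one_mul, coe_actHol] at h1
        simp only [mul_smul, smul_inv_smul, modular_T_zpow_smul, Int.cast_natCast] at h1
        exact h1
      let G : CuspAlg p := ⟨fun τ => (H : ℍ → ℂ) (g⁻¹ • τ),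
        mdifferentiable_comp_SL H.2 _, hper, hmero g⁻¹⟩
      obtain ⟨Mn, rfl⟩ := Int.eq_ofNat_of_zero_le hMpos.le
      have hMn : NeZero Mn := ⟨by omega⟩
      have hMpn : Mn * p = M := by exact_mod_cast hMp
      have hord : (laurentExp M (tr1 M c C)).order
          = (Mn : ℤ) * ((m : ℤ) * (laurentExp p G).order) := by
        have hG0 : laurentExp p (G ^ m) ≠ 0 := by
          rw [map_pow]
          refine pow_ne_zero _ ((map_ne_zero_iff _ (laurentExp_injective p)).mpr fun h0 => hH0 ?_)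
          refine Subtype.ext (funext fun τ => ?_)
          have := congrFun (congrArg Subtype.val h0) (g • τ)
          simpa [G] using this
        have key : ∀ (k : ℕ) [NeZero k] (hk : k = M) (y : CuspAlg k),
            (y : ℍ → ℂ) = (fun τ => ((H : ℍ → ℂ) (g⁻¹ • τ)) ^ m) →
            laurentExp k y = laurentExp M (tr1 M c C) := by
          rintro k _ rfl y hy
          refine congrArg _ (Subtype.ext (hy.trans (funext fun τ => ?_)))
          rfl
        have h1 := laurentExp_mul (h := p) Mn (G ^ m)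
        rw [key (Mn * p) hMpn (Subalgebra.inclusion (CuspAlg_le_mul Mn (NeZero.ne Mn)) (G ^ m))
            rfl] at h1
        rw [h1, order_qExpand _ hG0, map_pow, HahnSeries.order_pow, nsmul_eq_mul]
      have h2 := hM _ hC0
      rw [cuspEmb1_toF1C, hord] at h2
      exact ⟨(laurentExp p G).order,
        mul_left_cancel₀ (Int.natCast_ne_zero.mpr (NeZero.ne Mn)) h2.symm⟩
  refine ⟨⟨_, hdiv⟩, Subtype.ext (rootChar1_eq_of_isRootChar1 _ ?_)⟩
  exact isRootChar1_of_root hC0 hh hact'

end Fermat.Agent.DeligneSerre.Curve
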