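import Fermat.Agent.DeligneSerre.Curve.SeriesModel
import Fermat.Agent.DeligneSerre.Curve.Kummer
import Fermat.Agent.DeligneSerre.ArchVal

/-!
# The reduced algebra of `±Γ₁(M)` has no idempotents and embeds into `q`-series
-/

set_option autoImplicit false
set_option maxHeartbeats 1000000
set_option synthInstance.maxHeartbeats 400000

noncomputable section

open Polynomial IsLocalRing AlgebraicCurve
open Fermat.Agent.EichlerShimura (Kappa Model)
open scoped Classical

namespace Fermat.Agent.DeligneSerre.Curve

variable {M : ℕ} [NeZero M] [GoodLevel M] {A : ValuationSubring (AlgebraicClosure ℚ)}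
  [IsAlgClosed (ResidueField A)] (hM : (M : ResidueField A) ≠ 0)

local notation "Qa" => AlgebraicClosure ℚ
local notation "E₁" => JacTorsion.FQ (F1 M)

/-- The reduced algebra has no nontrivial idempotent. -/
theorem idem_model1 {e : Eb1 hM} (he : IsIdempotentElem e) : e = 0 ∨ e = 1 := by
  have : Nontrivial (Eb1 hM) := (toSer hM).domain_nontrivial
  have : FiniteDimensional (RatFunc Qa) E₁ := Module.Finite.of_basis (model1 hM).b
  have := isFunctionField_F1Bar M
  refine idem_eq_zero_or_one_of_ord (L := Qa) (model1 hM) (isArchVal_algebraicClosure A)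
    algebraMap_X_E1 (NeZero.ne M) (fun P hP => ?_) (fun P hP => ?_) (fun a ha ha' P hP => ?_)
    (fun P hP => ord_jBase1_dvd P hP) he
  · have h := ord_jBase1_sub_dvd P 0 (by rwa [map_zero, sub_zero])
    rw [map_zero, sub_zero, if_pos rfl] at h
    exact_mod_cast h
  · have h := ord_jBase1_sub_dvd P 1728 hP
    rw [if_neg (by norm_num), if_pos rfl] at h
    exact_mod_cast h
  · have h := ord_jBase1_sub_dvd P a hP
    rw [if_neg ha, if_neg ha'] at h
    exact_mod_cast h

/-- The reduced algebra embeds into `q`-series. -/
theorem toSer_injective : Function.Injective (toSer hM) := by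
  have : Nontrivial (Eb1 hM) := (toSer hM).domain_nontrivial
  have : Module.Finite (RatFunc (Kappa A)) (Eb1 hM) := Module.Finite.of_basis (model1 hM).bb
  have : IsReduced (Eb1 hM) :=
    isReduced_of_discr_ne_zero (model1 hM).bb (model1 hM).disc_ne
  have : IsArtinianRing (Eb1 hM) := IsArtinianRing.of_finite (RatFunc (Kappa A)) (Eb1 hM)
  let : Field (Eb1 hM) := (isField_of_idem fun _ he => idem_model1 hM he).toField
  exact (toSer hM).injective

end Fermat.Agent.DeligneSerre.Curve
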