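import Fermat.Agent.DeligneSerre.Curve.Embed

/-!
# The field of `±Γ₁(M)` is generated by one unit of degree the number of diamond classes
-/

set_option autoImplicit false

noncomputable section

open Polynomial ModularCurve
open Fermat.Agent.ModFun (laurentBaseChange_eq_fullC)
open scoped IntermediateField MatrixGroups Classical

namespace Fermat.Agent.DeligneSerre.Curve

variable {M : ℕ} [NeZero M] [GoodLevel M]

variable (M) in
/-- The field generated by one unit. -/
abbrev F1one : IntermediateField ℚ (LaurentSeries ℚ) :=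
  IntermediateField.adjoin ℚ
    ((modularFunctionFieldFull M : Set (LaurentSeries ℚ)) ∪ {uK (M := M) ℚ 1})

theorem F1_eq_F1one : F1 M = F1one M := by
  have hone : ∀ x, x ∈ IntermediateField.adjoin ℂ
      ((ModFun.FC M : Set (LaurentSeries ℂ)) ∪ {qExp1 M (uC 1)}) →
      x ∈ laurentBaseChange ℂ (F1one M) := by
    intro x hx
    refine (IntermediateField.adjoin_le_iff.mpr ?_) hx
    rintro y (hy | hy)
    · rw [SetLike.mem_coe, ModFun.FC, ← laurentBaseChange_eq_fullC] at hy
      exact IntermediateField.adjoin.mono ℂ _ _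
        (Set.image_mono fun z hz => IntermediateField.subset_adjoin ℚ _ (Or.inl hz)) hy
    · rw [Set.mem_singleton_iff.mp hy, qExp1_uC, ← coeffEmb_uK]
      exact coeffEmb_mem_laurentBaseChange ℂ (IntermediateField.subset_adjoin ℚ _ (Or.inr rfl))
  refine le_antisymm (IntermediateField.adjoin_le_iff.mpr ?_) (IntermediateField.adjoin_le_iff.mpr ?_)
  · rintro y (hy | ⟨a, rfl⟩)
    · exact IntermediateField.subset_adjoin ℚ _ (Or.inl hy)
    · refine JacTorsion.mem_of_coeffMap_mem_cExt (ι := algebraMap ℚ ℂ) ?_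
      show coeffEmb ℂ (uK ℚ a) ∈ laurentBaseChange ℂ (F1one M)
      rw [coeffEmb_uK, ← qExp1_uC]
      exact hone _ (qExp1_mem_adjoin _)
  · rintro y (hy | hy)
    · exact full_le_F1 hy
    · rw [Set.mem_singleton_iff.mp hy]; exact uK_mem_F1 1

/-- Over any field of constants, one unit generates. -/
theorem baseChange_F1_eq_adjoin (L : Type*) [Field L] [Algebra ℚ L] :
    laurentBaseChange L (F1 M) = IntermediateField.adjoin L
      ((laurentBaseChange L (modularFunctionFieldFull M) : Set (LaurentSeries L))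
        ∪ {uK (M := M) L 1}) := by
  refine le_antisymm ?_ ?_
  · rw [F1_eq_F1one, laurentBaseChange, IntermediateField.adjoin_le_iff]
    rintro _ ⟨y, hy, rfl⟩
    induction hy using IntermediateField.adjoin_induction with
    | mem z hz =>
      rcases hz with hz | hz
      · exact IntermediateField.subset_adjoin L _ (Or.inl (coeffEmb_mem_laurentBaseChange L hz))
      · rw [Set.mem_singleton_iff.mp hz, coeffEmb_uK]
        exact IntermediateField.subset_adjoin L _ (Or.inr rfl)
    | algebraMap c =>
      rw [coeffEmb, algebraMap_laurentSeries_eq_single, coeffMap_single,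
        ← algebraMap_laurentSeries_eq_single]
      exact IntermediateField.algebraMap_mem _ _
    | add a c _ _ ha hc => rw [SetLike.mem_coe, map_add]; exact add_mem ha hc
    | inv a _ ha => rw [SetLike.mem_coe, map_inv₀]; exact inv_mem ha
    | mul a c _ _ ha hc => rw [SetLike.mem_coe, map_mul]; exact mul_mem ha hc
  · rw [IntermediateField.adjoin_le_iff]
    rintro x (hx | hx)
    · exact baseChange_full_le L hx
    · rw [Set.mem_singleton_iff.mp hx]; exact uK_mem_baseChange L 1

/-- The images of `1 ∈ Γ₀(M)/±Γ₁(M)` translated by the diamonds. -/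
def diaCoset (q : Idx M) : Coset1 M := QuotientGroup.mk (diaRep q.out)⁻¹

theorem emb1_diaCoset_toF1C (q : Idx M) (f : Hol1 M) :
    emb1 M (diaCoset q) (toF1C M f)
      = algebraMap ModFun.HolH ModFun.MerH ⟨(dia M q.out f : Hol1 M), (dia M q.out f).2.1⟩ := by
  rw [emb1_toF1C, ModFun.toMerH_apply]
  refine congrArg _ (Subtype.ext (funext fun τ => ?_))
  show (tr1 M (diaCoset q) f : UpperHalfPlane → ℂ) τ = _
  rw [diaCoset, tr1_mk, inv_inv]
  rfl

theorem emb1_diaCoset_eq_one {q : Idx M} {x : F1C M} (hx : (x : LaurentSeries ℂ) ∈ ModFun.FC M) :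
    emb1 M (diaCoset q) x = emb1 M (diaCoset (QuotientGroup.mk 1)) x := by
  obtain ⟨a, b, -, h⟩ := ModFun.exists_div_eq ⟨_, hx⟩
  have hx' : x = toF1C M (Subalgebra.inclusion Hol_le_Hol1 a)
      / toF1C M (Subalgebra.inclusion Hol_le_Hol1 b) := by
    refine Subtype.ext ?_
    simpa [qExp1_inclusion] using congrArg Subtype.val h
  simp only [hx', map_div₀, emb1_diaCoset_toF1C, dia_inclusion]

/-- The powers of the unit below the number of classes are independent over the field of
`Γ₀(M)` inside any characteristic-zero algebraic field of constants. -/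
theorem eq_zero_of_sum_uK {L : Type*} [Field L] [Algebra ℚ L] [Algebra.IsAlgebraic ℚ L]
    {c : Fin (Fintype.card (Idx M)) → LaurentSeries L}
    (hc : ∀ i, c i ∈ modularFunctionFieldFullC L M)
    (h : ∑ i, c i * uK (M := M) L 1 ^ (i : ℕ) = 0) : c = 0 := by
  set ι : L →+* ℂ := (IsAlgClosed.lift : L →ₐ[ℚ] ℂ).toRingHom
  have hcC : ∀ i, coeffMap ι (c i) ∈ ModFun.FC M := by
    intro i
    rw [ModFun.FC, ← laurentBaseChange_eq_fullC, ← JacTorsion.cExt_laurentBaseChange (ι := ι)]
    exact JacTorsion.coeffMap_mem_cExt ι _ (by rw [laurentBaseChange_eq_fullC]; exact hc i)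
  have hmem : ∀ i, coeffMap ι (c i) ∈ F1C M := fun i => by
    have := hcC i
    rw [ModFun.FC, ← laurentBaseChange_eq_fullC] at this
    exact baseChange_full_le ℂ this
  set P : Polynomial ModFun.MerH := ∑ i : Fin (Fintype.card (Idx M)),
    C (emb1 M (diaCoset (QuotientGroup.mk 1)) ⟨_, hmem i⟩) * X ^ (i : ℕ) with hP
  have h0 : ∑ i, (⟨_, hmem i⟩ : F1C M) * toF1C M (uC 1) ^ (i : ℕ) = 0 := by
    refine Subtype.ext ?_
    have := congrArg (coeffMap ι) h
    simp only [map_sum, map_mul, map_pow, map_zero, coeffMap_uK] at this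
    rw [AddSubmonoidClass.coe_finsetSum, ZeroMemClass.coe_zero, ← this]
    refine Finset.sum_congr rfl fun i _ => ?_
    rw [IntermediateField.coe_mul, IntermediateField.coe_pow, coe_toF1C, qExp1_uC]
  have hroot : ∀ q : Idx M, P.eval (emb1 M (diaCoset q) (toF1C M (uC 1))) = 0 := by
    intro q
    rw [← map_zero (emb1 M (diaCoset q)), ← h0, map_sum, hP, eval_finsetSum]
    refine Finset.sum_congr rfl fun i _ => ?_
    rw [eval_mul, eval_C, eval_pow, eval_X, map_mul, map_pow, emb1_diaCoset_eq_one (q := q) (x := ⟨_, hmem i⟩) (hcC i)]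
  have hinj : Function.Injective fun q : Idx M => emb1 M (diaCoset q) (toF1C M (uC 1)) := by
    intro q q' he
    simp only [emb1_diaCoset_toF1C, dia_uC_one] at he
    have h1 : uC (M := M) q.out = uC q'.out :=
      Subtype.ext (congrArg Subtype.val (IsFractionRing.injective ModFun.HolH ModFun.MerH he) :)
    have h2 := congrArg (qExp1 M) h1
    rw [qExp1_uC, qExp1_uC] at h2
    exact idx_eq_of_eq_or_neg (uK_eq_iff (Nat.cast_ne_zero.2 (NeZero.ne M)) h2.symm)
  have hP0 : P = 0 := by
    by_contra hne
    have hdeg : P.natDegree < Fintype.card (Idx M) := by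
      rw [natDegree_lt_iff_degree_lt hne, hP]
      refine (degree_sum_le _ _).trans_lt ((Finset.sup_lt_iff (WithBot.bot_lt_coe _)).mpr fun i _ => ?_)
      exact (degree_C_mul_X_pow_le _ _).trans_lt (by exact_mod_cast i.2)
    exact absurd (eq_zero_of_natDegree_lt_card_of_eval_eq_zero P hinj hroot hdeg) hne
  funext i
  have h1 : P.coeff (i : ℕ) = 0 := by rw [hP0, coeff_zero]
  rw [hP, finsetSum_coeff, Finset.sum_eq_single i] at h1
  · rw [coeff_C_mul_X_pow, if_pos rfl] at h1
    have h2 := congrArg Subtype.val ((map_eq_zero _).mp h1)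
    exact (coeffMap ι).injective (h2.trans (map_zero (coeffMap ι)).symm)
  · intro j _ hj
    rw [coeff_C_mul_X_pow, if_neg fun h' => hj (Fin.ext h'.symm)]
  · simp

end Fermat.Agent.DeligneSerre.Curve
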