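import Fermat.Agent.DeligneSerre.Curve.KummerSurj

/-!
# Functions with a root having a character have divisible divisor
-/

set_option autoImplicit false
set_option linter.unusedSectionVars false

noncomputable section

open UpperHalfPlane hiding I
open Function Filter Complex CongruenceSubgroup AlgebraicCurve
open scoped Manifold MatrixGroups WithZero Real IntermediateField Topology ModularForm
open Fermat.Agent.JacTorsion (
  zetaPow zetaPow_pow zetaPow_zero zetaPow_add zetaPow_injective exists_zetaPow zetaPow_ne_zero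
  actMer_mul eq_of_zetaPow_mul algebraMap_ne_zero' exists_const_mul
  const_eq_denom_zpow exists_differentiableOn_pow_eq divGrp powGrp KummerGrp exists_ord_eq_one
  ord_pow tendsto_valueAtInfty qZpow qZpow_apply laurentExp_qZpow tendsto_renormalised
  smul_eq_of_eq_or_neg meroAtInfty_of_pow quot_smul order_qExpand trace_sq_le_of_fixed)
open Fermat.Agent.ModFun (
  MerH HolH CuspAlg BddAlg laurentExp toMerH jd evalC actMer actHol valAt valHol ordMer ordHol
  valAt_constant valAt_algebraMap valHol_apply valAt_actMer ordMer_algebraMap ordMer_mul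
  ordMer_div actMer_algebraMap placeOfEmb mem_placeOfEmb exists_pos_mul_of_mem_iff
  places_iff_orbits exists_sub_mem_ordGe_one jH jC jSubHol jSubHol_ne_zero toMerH_jC_sub
  exists_stab denom_mul_apply genusJ_eq ordHol_pos_iff ordHol_jSubHol_jH jH_smul valInf
  valInf_constant valInf_apply valInf_twist ordL_valInf rootInv rootInv_zpow_eq_one twist
  coeff_twist laurentExp_shift order_laurentExp_jC qFun PerH MeroAtInfty toMerH_apply
  cast_ordHol coe_actHol qFun_ne_zero mdifferentiable_comp_SL CuspAlg_le_mul laurentExp_mul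
  laurentExp_injective isBounded_one mdifferentiable_discriminant)

namespace Fermat.Agent.DeligneSerre.Curve

variable {M : ℕ} [NeZero M] [GoodLevel M]

variable {m : ℕ} [NeZero m]

/-- If a root of `C` has a character killing elliptic and parabolic elements, the divisor of `C` is
divisible by `m`. -/
theorem dvd_ord_of_semiinvariant {H : HolH} (hH0 : H ≠ 0) {C : Hol1 M}
    (hCH : hol1ToHolH M C = H ^ m) (φ : Gamma0.ellParHoms (G1 M) (ZMod m))
    (hact : ∀ γ : G1 M, actHol (γ : SL(2, ℤ)) H
      = algebraMap ℂ HolH (zetaPow m (φ.1 (Additive.ofMul γ))) * H) :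
    ∀ P : Place ℂ (F1C M), (m : ℤ) ∣ P.ord (toF1C M C) := by
  have hmero : ∀ g : SL(2, ℤ), MeroAtInfty fun τ => (H : ℍ → ℂ) (g • τ) := fun g => by
    refine meroAtInfty_of_pow (m := m) ?_
    have : (fun τ => (H : ℍ → ℂ) (g • τ)) ^ m = fun τ => (C : ℍ → ℂ) (g • τ) := by
      funext τ
      exact (congrFun (congrArg Subtype.val hCH) (g • τ)).symm
    rw [this]
    exact C.2.2.2 g
  have hC0 : toF1C M C ≠ 0 := fun h0 => pow_ne_zero m hH0 (by
    rw [← hCH, toF1C_injective (h0.trans (map_zero (toF1C M)).symm), map_zero])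
  have hh : (algebraMap HolH MerH H) ^ m = e11 M (toF1C M C) := by
    rw [e11_toF1C, hCH, map_pow]
  have h0 : algebraMap HolH MerH H ≠ 0 := algebraMap_ne_zero' hH0
  have hact' : ∀ γ : G1 M, actMer (γ : SL(2, ℤ)) (algebraMap HolH MerH H)
      = algebraMap ℂ MerH (zetaPow m (φ.1 (Additive.ofMul γ))) * algebraMap HolH MerH H := fun γ
          => by
    rw [actMer_algebraMap, hact, map_mul, ← IsScalarTower.algebraMap_apply ℂ HolH MerH]
  intro P
  rcases exists_eq_placeAt1_or_placeCusp1 P with ⟨τ, rfl⟩ | ⟨c, rfl⟩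
  · obtain ⟨s, e, ℓ, μ, hs, hsℓ, hprim, hM, hMℓ, hℓ0⟩ := exists_stab_period1 (M := M) τ
    have hfix : actMer (s ^ ℓ) (algebraMap HolH MerH H) = algebraMap HolH MerH H := by
      rw [hact' ⟨_, hsℓ⟩, φ.2 ⟨_, hsℓ⟩, zetaPow_zero, map_one, one_mul]
      have hτ : s ^ ℓ • τ = τ := by
        have : s ∈ MulAction.stabilizer (SL(2, ℤ)) τ := hs
        exact pow_mem this ℓ
      exact trace_sq_le_of_fixed hτ
    have hiter : (actMer s)^[ℓ] (algebraMap HolH MerH H) = algebraMap HolH MerH H := by
      rw [Genus.actMer_iterate, ← actMer_algebraMap, hfix]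
    have hd := Genus.ordMer_dvd hs e hprim ℓ _ h0 hiter
    rw [← hMℓ, mul_comm μ (ℓ : ℤ)] at hd
    have hd' : μ ∣ ordMer τ (algebraMap HolH MerH H) :=
      (mul_dvd_mul_iff_left (by exact_mod_cast hℓ0)).mp hd
    obtain ⟨q, hq⟩ := hd'
    have h1 := hM _ hC0
    rw [← hh] at h1
    have hp : ∀ n : ℕ, ordMer τ (algebraMap HolH MerH H ^ n)
        = n * ordMer τ (algebraMap HolH MerH H) := by
      intro n
      induction n with
      | zero => simp [ordMer]
      | succ n ih =>
        rw [pow_succ, ordMer_mul (pow_ne_zero _ h0) h0, ih]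
        push_cast; ring
    rw [hp, hq] at h1
    have hM0 : μ ≠ 0 := by
      rintro rfl
      obtain ⟨t, ht0, ht⟩ := exists_ord_eq_one (placeAt1 M τ)
      obtain ⟨μ', hM'0, hM'⟩ := exists_ordMer_eq_mul1 (M := M) τ
      have := hM' _ ht0
      rw [hM _ ht0, ht] at this
      omega
    exact ⟨q, mul_left_cancel₀ hM0 (by linear_combination -h1)⟩
  · obtain ⟨μ, hMpos, hMp, hM⟩ := exists_order_eq_mul1 (M := M) c
    set p := MulAction.period ModularGroup.T c with hp
    set g : SL(2, ℤ) := c.out with hg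
    have hp0 : NeZero p := ⟨fun h0 => by
      rw [h0] at hMp; simp [eq_comm, NeZero.ne M] at hMp⟩
    have hper : PerH p fun τ => (H : ℍ → ℂ) (g⁻¹ • τ) := by
      intro τ
      show (H : ℍ → ℂ) (g⁻¹ • ((p : ℝ) +ᵥ τ)) = (H : ℍ → ℂ) (g⁻¹ • τ)
      have hTp : ModularGroup.T ^ (p : ℤ) • c = c := by
        rw [zpow_natCast]; exact MulAction.pow_period_smul ModularGroup.T c
      have hmemγ : g⁻¹ * ModularGroup.T ^ (p : ℤ) * g ∈ G1 M := by
        rw [← QuotientGroup.out_eq' c, MulAction.Quotient.smul_coe, smul_eq_mul,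
          QuotientGroup.eq] at hTp
        have := inv_mem hTp
        simpa [mul_assoc, hg] using this
      have h1 := congrFun (congrArg Subtype.val (hact ⟨_, hmemγ⟩)) (g⁻¹ • τ)
      rw [φ.2 ⟨_, hmemγ⟩ (by
        show (((g⁻¹ * ModularGroup.T ^ (p : ℤ) * g : SL(2, ℤ))) : Matrix (Fin 2) (Fin 2)
            ℤ).trace ^ 2 ≤ 4
        rw [Matrix.SpecialLinearGroup.coe_mul, Matrix.trace_mul_comm,
          ← Matrix.SpecialLinearGroup.coe_mul, mul_inv_cancel_left, ModularGroup.coe_T_zpow]
        simp [Matrix.trace_fin_two]), zetaPow_zero, map_one, one_mul, coe_actHol] at h1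
      simp only [mul_smul, smul_inv_smul, modular_T_zpow_smul, Int.cast_natCast] at h1
      exact h1
    let G : CuspAlg p := ⟨fun τ => (H : ℍ → ℂ) (g⁻¹ • τ),
      mdifferentiable_comp_SL H.2 _, hper, hmero g⁻¹⟩
    obtain ⟨Mn, rfl⟩ := Int.eq_ofNat_of_zero_le hMpos.le
    have hMn : NeZero Mn := ⟨by omega⟩
    have hMpn : Mn * p = M := by exact_mod_cast hMp
    have hord : (laurentExp M (tr1 M c C)).order
        = (Mn : ℤ) * ((m : ℤ) * (laurentExp p G).order) := by
      have hG0 : laurentExp p (G ^ m) ≠ 0 := by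
        rw [map_pow]
        refine pow_ne_zero _ ((map_ne_zero_iff _ (laurentExp_injective p)).mpr fun h0 => hH0 ?_)
        refine Subtype.ext (funext fun τ => ?_)
        have := congrFun (congrArg Subtype.val h0) (g • τ)
        simpa [G] using this
      have key : ∀ (k : ℕ) [NeZero k] (hk : k = M) (y : CuspAlg k),
          (y : ℍ → ℂ) = (fun τ => ((H : ℍ → ℂ) (g⁻¹ • τ)) ^ m) →
          laurentExp k y = laurentExp M (tr1 M c C) := by
        rintro k _ rfl y hy
        refine congrArg _ (Subtype.ext (hy.trans (funext fun τ => ?_)))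
        exact (congrFun (congrArg Subtype.val hCH) (g⁻¹ • τ)).symm
      have h1 := laurentExp_mul (h := p) Mn (G ^ m)
      rw [key (Mn * p) hMpn (Subalgebra.inclusion (CuspAlg_le_mul Mn (NeZero.ne Mn)) (G ^ m))
          rfl] at h1
      rw [h1, order_qExpand _ hG0, map_pow, HahnSeries.order_pow, nsmul_eq_mul]
    have h2 := hM _ hC0
    rw [cuspEmb1_toF1C, hord] at h2
    exact ⟨(laurentExp p G).order,
      mul_left_cancel₀ (Int.natCast_ne_zero.mpr (NeZero.ne Mn)) h2.symm⟩

end Fermat.Agent.DeligneSerre.Curve
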