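import Fermat.Agent.DeligneSerre.Curve.Relative
import Fermat.Agent.DeligneSerre.ModelAdjoin
import Fermat.Agent.RedTorsion.SeriesModel

/-!
# The model of the field of `±Γ₁(M)` on its `q`-expansions
-/

set_option autoImplicit false
set_option linter.unusedSectionVars false

noncomputable section

open Polynomial IsLocalRing ModularCurve
open Fermat.Agent.RedTorsion (serInt sint serRed sred toSerInt redF ratAlgebra ratLine evalA)
open Fermat.Agent.EichlerShimura (Model Og redG Kappa polyIncl polyBar ratIncl ratBar)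
open scoped Classical IntermediateField

namespace Fermat.Agent.DeligneSerre.Curve

attribute [local instance 2000] SubalgebraClass.toAlgebra

variable {M : ℕ} [NeZero M] [GoodLevel M]

variable {Qb : Type*} [Field Qb] [Algebra ℚ Qb] [CharZero Qb]

local notation "E₀" => modularFunctionFieldFullC Qb M
local notation "E₁" => laurentBaseChange Qb (F1 M)

theorem E0_le_E1 : E₀ ≤ E₁ := fun x hx => by
  rw [← ModFun.laurentBaseChange_eq_fullC] at hx
  exact baseChange_full_le Qb hx

variable (M Qb) in
/-- The inclusion of the fields. -/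
def inclE : E₀ →+* E₁ where
  toFun x := ⟨(x : LaurentSeries Qb), E0_le_E1 x.2⟩
  map_one' := rfl
  map_mul' _ _ := rfl
  map_zero' := rfl
  map_add' _ _ := rfl

theorem coe_inclE (x : E₀) : (inclE M Qb x : LaurentSeries Qb) = x :=
  Subtype.coe_mk (x : LaurentSeries Qb) (E0_le_E1 x.2)

scoped instance algE0E1 : Algebra (E₀) (E₁) := (inclE M Qb).toAlgebra

attribute [local instance 2100] algE0E1 Algebra.toModule

theorem coe_algebraMap_E0E1 (x : E₀) : ((algebraMap E₀ E₁ x : E₁) : LaurentSeries Qb) = x :=
  coe_inclE x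

scoped instance algRatE0 : Algebra (RatFunc Qb) (E₀) :=
  ratAlgebra (RedTorsion.transcendental_jF (K := Qb) (N := M) (F := E₀) rfl)

scoped instance algRatE1 : Algebra (RatFunc Qb) (E₁) :=
  ((inclE M Qb).comp (algebraMap (RatFunc Qb) (E₀))).toAlgebra

scoped instance towerE01 : IsScalarTower (RatFunc Qb) (E₀) (E₁) :=
  IsScalarTower.of_algebraMap_eq fun _ => rfl

attribute [local instance 2100] algRatE0 algRatE1

theorem algebraMap_X_E1 : algebraMap (RatFunc Qb) (E₁) RatFunc.X = jBase1 M Qb := by
  refine Subtype.ext ?_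
  rw [RingHom.algebraMap_toAlgebra, RingHom.comp_apply, coe_inclE, RingHom.algebraMap_toAlgebra,
    RedTorsion.ratLine_X, coe_jBase1]
  rfl

scoped instance towerLRatE1 : IsScalarTower Qb (RatFunc Qb) (E₁) :=
  IsScalarTower.of_algebraMap_eq fun c => by
    refine Subtype.ext ?_
    rw [RatFunc.algebraMap_eq_C, RingHom.algebraMap_toAlgebra ((inclE M Qb).comp _),
      RingHom.comp_apply, coe_inclE]
    show _ = ((ratLine (RedTorsion.transcendental_jF (K := Qb) (N := M) (F := E₀) rfl)
      (RatFunc.C c) : E₀) : LaurentSeries Qb)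
    rw [RedTorsion.ratLine_C, IntermediateField.coe_algebraMap_apply,
      IntermediateField.coe_algebraMap_apply]

/-- The unit as an element of the field. -/
def uE (a : (ZMod M)ˣ) : E₁ := ⟨uK Qb a, uK_mem_baseChange Qb a⟩

/-! ### Integrality of the relation -/

variable {A : ValuationSubring Qb} (hM : (M : ResidueField A) ≠ 0)

attribute [local instance 2000] HahnSeries.powerSeriesAlgebra IntermediateField.toAlgebra

include hM in
theorem isUnit_level : IsUnit (M : A) :=
  (IsLocalRing.residue_ne_zero_iff_isUnit _).mp (by rwa [map_natCast])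

include hM in
theorem exists_uA (a : (ZMod M)ˣ) : ∃ y : LaurentSeries A,
    coeffMap A.subtype y = uK Qb a ∧ coeffMap (residue A) y = uK (ResidueField A) a := by
  obtain ⟨v, hv⟩ := isUnit_level hM
  refine ⟨uSer A ((v⁻¹ : Aˣ) : A) a, ?_, ?_⟩
  · rw [coeffMap_uSer, uK]
    congr 1
    refine eq_inv_of_mul_eq_one_left ?_
    rw [← map_natCast A.subtype, ← map_mul, ← hv, Units.inv_mul, map_one]
  · rw [coeffMap_uSer, uK]
    congr 1
    refine eq_inv_of_mul_eq_one_left ?_
    rw [← map_natCast (residue A), ← map_mul, ← hv, Units.inv_mul, map_one]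

include hM in
theorem uK_mem_serInt (a : (ZMod M)ˣ) : uK Qb a ∈ serInt A := by
  obtain ⟨y, hy, -⟩ := exists_uA hM a
  exact ⟨y, hy⟩

/-- The unit as an integral series. -/
def uInt (a : (ZMod M)ˣ) : serInt A := ⟨_, uK_mem_serInt hM a⟩

theorem serRed_uInt (a : (ZMod M)ˣ) : serRed A (uInt hM a) = uK (ResidueField A) a := by
  obtain ⟨y, hy, hy'⟩ := exists_uA hM a
  rw [show uInt hM a = ⟨coeffMap A.subtype y, y, rfl⟩ from Subtype.ext hy.symm]
  exact (RedTorsion.serRed_coeffMap y _).trans hy'

/-- The relation as a polynomial with integral series coefficients. -/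
def diaPolyI : Polynomial (serInt A) := ∏ q : Idx M, (X - C (uInt hM q.out))

theorem monic_diaPolyI : (diaPolyI hM).Monic := monic_prod_of_monic _ _ fun _ _ => monic_X_sub_C _

theorem natDegree_diaPolyI : (diaPolyI hM).natDegree = Fintype.card (Idx M) := by
  rw [diaPolyI, natDegree_finsetProd_X_sub_C_eq_card, Finset.card_univ]

theorem diaPolyI_mem_lifts :
    diaPolyI hM ∈ Polynomial.lifts (toSerInt (A := A) (F := E₀)) := by
  rw [Polynomial.lifts_iff_coeff_lifts]
  intro n
  have h : (diaPolyI hM).map (serInt A).subtype = (diaPolyQ M).map (coeffEmb Qb) := by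
    simp only [diaPolyI, diaPolyQ, Polynomial.map_prod, Polynomial.map_sub, map_X, map_C,
      coeffEmb_uK]
    rfl
  have h2 : (((diaPolyI hM).coeff n : serInt A) : LaurentSeries Qb) ∈ E₀ := by
    have := congrArg (fun P => Polynomial.coeff P n) h
    simp only [coeff_map, Subring.coe_subtype] at this
    rw [this, ← ModFun.laurentBaseChange_eq_fullC]
    exact coeffEmb_mem_laurentBaseChange Qb (coeff_diaPolyQ_mem n)
  exact ⟨⟨⟨_, h2⟩, ((diaPolyI hM).coeff n).2⟩, rfl⟩

/-- The relation with coefficients in the integral elements of the smaller field. -/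
def diaPolyS : Polynomial (sint A (E₀)) :=
  (Polynomial.lifts_and_natDegree_eq_and_monic (diaPolyI_mem_lifts hM) (monic_diaPolyI hM)).choose

theorem map_diaPolyS : (diaPolyS hM).map toSerInt = diaPolyI hM :=
  (Polynomial.lifts_and_natDegree_eq_and_monic (diaPolyI_mem_lifts hM)
    (monic_diaPolyI hM)).choose_spec.1

theorem monic_diaPolyS : (diaPolyS hM).Monic :=
  (Polynomial.lifts_and_natDegree_eq_and_monic (diaPolyI_mem_lifts hM)
    (monic_diaPolyI hM)).choose_spec.2.2

theorem natDegree_diaPolyS : (diaPolyS hM).natDegree = Fintype.card (Idx M) :=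
  (Polynomial.lifts_and_natDegree_eq_and_monic (diaPolyI_mem_lifts hM)
    (monic_diaPolyI hM)).choose_spec.2.1.trans (natDegree_diaPolyI hM)

/-! ### The base model -/

variable [IsAlgClosed Qb] [Algebra.IsAlgebraic ℚ Qb] [IsAlgClosed (ResidueField A)]

local notation "Fk" => modularFunctionFieldFullC (ResidueField A) M

scoped instance algRatFk : Algebra (RatFunc (Kappa A)) (modularFunctionFieldFullC (ResidueField A) M) :=
  ratAlgebra (RedTorsion.transcendental_jF (K := ResidueField A) (N := M) (F := Fk) rfl)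

attribute [local instance 2100] algRatFk

/-- The model of `Γ₀(M)`. -/
def model0 : Model A (Fin (Nat.card (ModFun.Coset M))) (E₀) Fk :=
  RedTorsion.model (F := E₀) rfl hM

include hM in
theorem isSeparable_Fk : Algebra.IsSeparable (RatFunc (Kappa A)) Fk :=
  haveI := RedTorsion.isSeparable_jF (K := ResidueField A) (N := M) (F := Fk) rfl hM
  RedTorsion.isSeparable_ratAlgebra
    (RedTorsion.transcendental_jF (K := ResidueField A) (N := M) (F := Fk) rfl)

/-- Integral elements in the lattice. -/
def sintToS : sint A (E₀) →+* (model0 hM).S where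
  toFun y := ⟨y, RedTorsion.mem_model_S (F := E₀) rfl hM y⟩
  map_one' := rfl
  map_mul' _ _ := rfl
  map_zero' := rfl
  map_add' _ _ := rfl

theorem red_sintToS (y : sint A (E₀)) :
    ((model0 hM).red (sintToS hM y) : LaurentSeries (ResidueField A)) = sred (A := A) (F := E₀) y :=
  (congrArg Subtype.val (RedTorsion.model_red (F := E₀) rfl hM y)).trans
    (RedTorsion.coe_redF rfl hM y)

/-- The relation with coefficients in the lattice. -/
def diaPolyM : Polynomial (model0 hM).S := (diaPolyS hM).map (sintToS hM)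

theorem monic_diaPolyM : (diaPolyM hM).Monic := (monic_diaPolyS hM).map _

theorem natDegree_diaPolyM : (diaPolyM hM).natDegree = Fintype.card (Idx M) := by
  rw [diaPolyM, (monic_diaPolyS hM).natDegree_map, natDegree_diaPolyS]

theorem map_series_diaPolyM :
    ((diaPolyM hM).map (model0 hM).red).map
        (algebraMap Fk (LaurentSeries (ResidueField A)))
      = ∏ q : Idx M, (X - C (uK (ResidueField A) q.out)) := by
  have h : (algebraMap Fk (LaurentSeries (ResidueField A))).comp
      ((model0 hM).red.comp (sintToS hM)) = (serRed A).comp (toSerInt (A := A) (F := E₀)) :=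
    RingHom.ext fun y => red_sintToS hM y
  simp only [diaPolyM, Polynomial.map_map, h]
  rw [← Polynomial.map_map,
    map_diaPolyS, diaPolyI, Polynomial.map_prod]
  exact Finset.prod_congr rfl fun q _ => by
    rw [Polynomial.map_sub, map_X, map_C, serRed_uInt]

theorem separable_diaPolyM : ((diaPolyM hM).map (model0 hM).red).Separable := by
  rw [← separable_map (algebraMap Fk (LaurentSeries (ResidueField A))), map_series_diaPolyM]
  exact separable_prod_X_sub_C_iff.mpr fun q q' h => idx_eq_of_eq_or_neg (uK_eq_iff hM h.symm)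

theorem evU_diaPolyM : evU (model0 hM) ((uE (1 : (ZMod M)ˣ) : E₁)) (diaPolyM hM) = 0 := by
  refine Subtype.ext ?_
  rw [evU, diaPolyM, coe_eval₂RingHom, eval₂_map]
  refine ((Polynomial.hom_eval₂ _ _ (E₁).val.toRingHom _)).trans ?_
  have h : (E₁).val.toRingHom.comp
      (((algebraMap (E₀) (E₁)).comp (model0 hM).S.subtype).comp (sintToS hM))
      = (serInt A).subtype.comp (toSerInt (A := A) (F := E₀)) := RingHom.ext fun _ => rfl
  rw [h, ← eval₂_map, map_diaPolyS, diaPolyI, eval₂_finsetProd]
  refine Finset.prod_eq_zero (Finset.mem_univ (QuotientGroup.mk 1 : Idx M)) ?_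
  rw [eval₂_sub, eval₂_X, eval₂_C]
  show uK Qb (1 : (ZMod M)ˣ) - uK Qb (QuotientGroup.mk 1 : Idx M).out = 0
  rcases out_mk_eq (M := M) 1 with h | h <;> rw [h]
  · exact sub_self _
  · rw [uK_neg, sub_self]

theorem linearIndependent_uE :
    LinearIndependent (E₀) fun i : Fin (Fintype.card (Idx M)) => (uE (1 : (ZMod M)ˣ) : E₁) ^ (i : ℕ) := by
  rw [Fintype.linearIndependent_iff]
  intro g hg i
  have h : ∑ i, (g i : LaurentSeries Qb) * uK (M := M) Qb 1 ^ (i : ℕ) = 0 := by
    have h1 := congrArg (fun x : E₁ => (x : LaurentSeries Qb)) hg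
    simp only [ZeroMemClass.coe_zero, AddSubmonoidClass.coe_finsetSum] at h1
    rw [← h1]
    refine Finset.sum_congr rfl fun i _ => ?_
    rw [Algebra.smul_def, IntermediateField.coe_mul, IntermediateField.coe_pow]
    rfl
  exact Subtype.ext (congrFun (eq_zero_of_sum_uK (fun i => (g i).2) h) i)

attribute [local instance 1000] HahnSeries.powerSeriesAlgebra IntermediateField.toAlgebra

theorem mem_adjoin_uK {y : LaurentSeries Qb} (hy : y ∈ E₁) :
    y ∈ IntermediateField.adjoin E₀ ({uK (M := M) Qb 1} : Set (LaurentSeries Qb)) := by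
  have hy' : y ∈ IntermediateField.adjoin Qb
      ((laurentBaseChange Qb (modularFunctionFieldFull M) : Set (LaurentSeries Qb))
        ∪ {uK (M := M) Qb 1}) := by
    rw [← baseChange_F1_eq_adjoin]; exact hy
  have hle : IntermediateField.adjoin Qb
      ((laurentBaseChange Qb (modularFunctionFieldFull M) : Set (LaurentSeries Qb))
        ∪ {uK (M := M) Qb 1})
      ≤ (IntermediateField.adjoin E₀ ({uK (M := M) Qb 1} : Set (LaurentSeries Qb))).restrictScalars
          Qb := by
    refine IntermediateField.adjoin_le_iff.mpr ?_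
    intro z hz
    rw [SetLike.mem_coe, IntermediateField.mem_restrictScalars]
    rcases hz with hz | hz
    · have hz' : z ∈ E₀ := le_of_eq (ModFun.laurentBaseChange_eq_fullC (N := M) (K := Qb)) hz
      exact (IntermediateField.adjoin E₀ ({uK (M := M) Qb 1} : Set (LaurentSeries Qb))).algebraMap_mem
        (⟨z, hz'⟩ : E₀)
    · exact IntermediateField.subset_adjoin E₀ _ hz
  exact (IntermediateField.mem_restrictScalars Qb).mp (hle hy')

attribute [local instance 2000] HahnSeries.powerSeriesAlgebra IntermediateField.toAlgebra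

theorem val_comp_inclE :
    (E₁).val.toRingHom.comp (algebraMap E₀ E₁) = algebraMap E₀ (LaurentSeries Qb) :=
  RingHom.ext fun x => by
    rw [RingHom.comp_apply, AlgHom.toRingHom_eq_coe, RingHom.coe_coe, IntermediateField.coe_val,
      IntermediateField.algebraMap_apply]
    exact coe_algebraMap_E0E1 x

theorem coe_eval₂_uE (P : Polynomial E₀) :
    ((P.eval₂ (algebraMap E₀ E₁) (uE (1 : (ZMod M)ˣ) : E₁) : E₁) : LaurentSeries Qb)
      = P.eval₂ (algebraMap E₀ (LaurentSeries Qb)) (uK (M := M) Qb 1) := by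
  rw [← val_comp_inclE]
  exact Polynomial.hom_eval₂ P (algebraMap E₀ E₁) (E₁).val.toRingHom _

include hM in
theorem span_uE : ⊤ ≤ Submodule.span (E₀)
    (Set.range fun i : Fin (Fintype.card (Idx M)) => (uE (1 : (ZMod M)ˣ) : E₁) ^ (i : ℕ)) := by
  intro x _
  set Q := (diaPolyM hM).map (model0 hM).S.subtype with hQ
  have hQm : Q.Monic := (monic_diaPolyM hM).map _
  have hQd : Q.natDegree = Fintype.card (Idx M) := by
    rw [hQ, (monic_diaPolyM hM).natDegree_map, natDegree_diaPolyM]
  have hQ0 : Q.eval₂ (algebraMap E₀ E₁) (uE (1 : (ZMod M)ˣ) : E₁) = 0 := by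
    rw [hQ, eval₂_map]; exact evU_diaPolyM hM
  have hint : IsIntegral E₀ (uK (M := M) Qb 1) := by
    refine ⟨Q, hQm, ?_⟩
    rw [← coe_eval₂_uE, hQ0, ZeroMemClass.coe_zero]
  have hx := mem_adjoin_uK x.2
  rw [← IntermediateField.mem_toSubalgebra,
    IntermediateField.adjoin_simple_toSubalgebra_of_isAlgebraic hint.isAlgebraic,
    Algebra.adjoin_singleton_eq_range_aeval] at hx
  obtain ⟨P, hP⟩ := hx
  have hx' : x = (P %ₘ Q).eval₂ (algebraMap E₀ E₁) (uE (1 : (ZMod M)ˣ) : E₁) := by
    have h1 : x = P.eval₂ (algebraMap E₀ E₁) (uE (1 : (ZMod M)ˣ) : E₁) := by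
      refine Subtype.ext ?_
      rw [coe_eval₂_uE, ← hP]
      rfl
    conv_lhs => rw [h1, ← modByMonic_add_div P Q, eval₂_add, eval₂_mul, hQ0, zero_mul, add_zero]
  have h0 : 0 < Fintype.card (Idx M) := Fintype.card_pos
  have hdeg : (P %ₘ Q).natDegree < Fintype.card (Idx M) :=
    hQd ▸ natDegree_modByMonic_lt P hQm (fun h1 => by rw [h1, natDegree_one] at hQd; omega)
  rw [hx', eval₂_eq_sum_range' _ hdeg]
  refine Submodule.sum_mem _ fun i hi => ?_
  rw [← Algebra.smul_def]
  exact Submodule.smul_mem _ _ (Submodule.subset_span ⟨⟨i, Finset.mem_range.mp hi⟩, rfl⟩)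

/-- The power basis over the field of `Γ₀(M)`. -/
def basisU : Module.Basis (Fin (Fintype.card (Idx M))) (E₀) (E₁) :=
  Module.Basis.mk linearIndependent_uE (span_uE hM)

theorem basisU_apply (i : Fin (Fintype.card (Idx M))) :
    basisU hM i = (uE (1 : (ZMod M)ˣ) : E₁) ^ (i : ℕ) := by simp [basisU]

/-- The reduced algebra. -/
abbrev Eb1 := AdjoinRoot ((diaPolyM hM).map (model0 hM).red)

/-- The model of `±Γ₁(M)`. -/
def model1 : Model A (Fin (Nat.card (ModFun.Coset M)) × Fin (Fintype.card (Idx M))) (E₁)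
    (Eb1 hM) :=
  haveI := isSeparable_Fk hM
  adjoinModel (basisU_apply hM) (monic_diaPolyM hM) (natDegree_diaPolyM hM) (evU_diaPolyM hM)
    (separable_diaPolyM hM)

/-- The series attached to elements of the reduced algebra. -/
def toSer : Eb1 hM →+* LaurentSeries (ResidueField A) :=
  AdjoinRoot.lift (algebraMap Fk (LaurentSeries (ResidueField A)))
    (uK (ResidueField A) (1 : (ZMod M)ˣ)) (by
      rw [eval₂_eq_eval_map, map_series_diaPolyM, eval_prod]
      refine Finset.prod_eq_zero (Finset.mem_univ (QuotientGroup.mk 1 : Idx M)) ?_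
      rw [eval_sub, eval_X, eval_C, sub_eq_zero]
      rcases out_mk_eq (M := M) 1 with h | h <;> rw [h]
      rw [← serRed_uInt hM, ← serRed_uInt hM (-1)]
      exact congrArg (serRed A) (Subtype.ext (uK_neg Qb (1 : (ZMod M)ˣ)).symm))

/-- `y` is a fraction of integral series with reduction `z`. -/
def IntFrac (y : LaurentSeries Qb) (z : LaurentSeries (ResidueField A)) : Prop :=
  ∃ d p : serInt A, serRed A d ≠ 0 ∧ y * d = p ∧ z * serRed A d = serRed A p

omit [IsAlgClosed (ResidueField A)] [GoodLevel M] [NeZero M] in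
theorem IntFrac.add {y y' : LaurentSeries Qb} {z z' : LaurentSeries (ResidueField A)}
    (h : IntFrac y z) (h' : IntFrac y' z') : IntFrac (y + y') (z + z') := by
  obtain ⟨d, p, hd, h1, h2⟩ := h
  obtain ⟨d', p', hd', h1', h2'⟩ := h'
  refine ⟨d * d', p * d' + p' * d, by rw [RingHom.map_mul]; exact mul_ne_zero hd hd', ?_, ?_⟩
  · push_cast; rw [← h1, ← h1']; ring
  · rw [RingHom.map_mul, RingHom.map_add, RingHom.map_mul, RingHom.map_mul, ← h2, ← h2']; ring

omit [IsAlgClosed (ResidueField A)] [GoodLevel M] [NeZero M] in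
theorem IntFrac.mul {y y' : LaurentSeries Qb} {z z' : LaurentSeries (ResidueField A)}
    (h : IntFrac y z) (h' : IntFrac y' z') : IntFrac (y * y') (z * z') := by
  obtain ⟨d, p, hd, h1, h2⟩ := h
  obtain ⟨d', p', hd', h1', h2'⟩ := h'
  refine ⟨d * d', p * p', by rw [RingHom.map_mul]; exact mul_ne_zero hd hd', ?_, ?_⟩
  · push_cast; rw [← h1, ← h1']; ring
  · rw [RingHom.map_mul, RingHom.map_mul, ← h2, ← h2']; ring

omit [IsAlgClosed (ResidueField A)] [GoodLevel M] [NeZero M] in
theorem IntFrac.of_serInt (y : serInt A) : IntFrac (y : LaurentSeries Qb) (serRed A y) :=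
  ⟨1, y, by rw [map_one]; exact one_ne_zero, by simp, by rw [map_one, mul_one]⟩

theorem intFrac_algebraMap {f : RatFunc Qb} (hf : f ∈ Og A) :
    IntFrac (((algebraMap (RatFunc Qb) (E₀) f : E₀)) : LaurentSeries Qb)
      (((algebraMap (RatFunc (Kappa A)) Fk (redG A ⟨f, hf⟩) : Fk)) :
        LaurentSeries (ResidueField A)) := by
  obtain ⟨p, q, hq, hfq⟩ := hf
  refine ⟨evalA A q, evalA A p, ?_, ?_, ?_⟩
  · rw [RedTorsion.serRed_evalA]
    exact FF.aeval_ne_zero (RedTorsion.transcendental_jqModC _) hq
  · show ((ratLine _ f : E₀) : LaurentSeries Qb) * _ = _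
    have h2 : ratLine (RedTorsion.transcendental_jF (K := Qb) (N := M) (F := E₀) rfl) f *
        ratLine (RedTorsion.transcendental_jF (K := Qb) (N := M) (F := E₀) rfl) (ratIncl A q)
        = ratLine (RedTorsion.transcendental_jF (K := Qb) (N := M) (F := E₀) rfl) (ratIncl A p) := by
      rw [← RingHom.map_mul, hfq]
    have h3 := congrArg (fun x : E₀ => (x : LaurentSeries Qb)) h2
    simp only [IntermediateField.coe_mul, ratIncl, RingHom.comp_apply,
      RedTorsion.ratLine_algebraMap, RedTorsion.coe_aeval_jF] at h3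
    rw [RedTorsion.coe_evalA, RedTorsion.coe_evalA]
    exact h3
  · show ((ratLine _ (redG A ⟨f, _⟩) : Fk) : LaurentSeries (ResidueField A)) * _ = _
    have h2 : ratLine (RedTorsion.transcendental_jF (K := ResidueField A) (N := M) (F := Fk) rfl)
          (redG A ⟨f, p, q, hq, hfq⟩) *
        ratLine (RedTorsion.transcendental_jF (K := ResidueField A) (N := M) (F := Fk) rfl)
          (ratBar A q) = ratLine (RedTorsion.transcendental_jF (K := ResidueField A) (N := M) (F := Fk) rfl)
          (ratBar A p) := by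
      rw [← RingHom.map_mul, EichlerShimura.redG_mul_bar ⟨p, q, hq, hfq⟩ hq hfq]
    have h3 := congrArg (fun x : Fk => (x : LaurentSeries (ResidueField A))) h2
    simp only [IntermediateField.coe_mul, ratBar, RingHom.comp_apply,
      RedTorsion.ratLine_algebraMap, RedTorsion.coe_aeval_jF] at h3
    rw [RedTorsion.serRed_evalA, RedTorsion.serRed_evalA]
    exact h3

theorem intFrac_model0 (y : (model0 hM).S) :
    IntFrac (((y : E₀)) : LaurentSeries Qb)
      (((model0 hM).red y : Fk) : LaurentSeries (ResidueField A)) := by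
  have hcoe : (y : E₀) = ∑ i, ((model0 hM).co y i : RatFunc Qb) • (model0 hM).b i :=
    ((model0 hM).b.sum_repr (y : E₀)).symm
  have hred : (model0 hM).red y = ∑ i, redG A ((model0 hM).co y i) • (model0 hM).bb i :=
    Model.red_apply _ y
  rw [hcoe, hred, AddSubmonoidClass.coe_finsetSum, AddSubmonoidClass.coe_finsetSum]
  have key : ∀ s : Finset (Fin (Nat.card (ModFun.Coset M))),
      IntFrac (∑ i ∈ s, ((((model0 hM).co y i : RatFunc Qb) • (model0 hM).b i : E₀) :
          LaurentSeries Qb))
        (∑ i ∈ s, (((redG A ((model0 hM).co y i) • (model0 hM).bb i : Fk)) :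
          LaurentSeries (ResidueField A))) := by
    intro s
    induction s using Finset.induction with
    | empty => simpa using IntFrac.of_serInt (A := A) 0
    | @insert i s hi ih =>
      rw [Finset.sum_insert hi, Finset.sum_insert hi]
      refine IntFrac.add ?_ ih
      rw [Algebra.smul_def, Algebra.smul_def, IntermediateField.coe_mul, IntermediateField.coe_mul]
      refine IntFrac.mul (intFrac_algebraMap ((model0 hM).co y i).2) ?_
      have hb := red_sintToS hM ⟨_, RedTorsion.basisInt_mem (F := E₀) rfl hM i⟩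
      rw [show sintToS hM ⟨_, RedTorsion.basisInt_mem (F := E₀) rfl hM i⟩
        = ⟨(model0 hM).b i, (model0 hM).basis_mem i⟩ from Subtype.ext rfl, Model.red_basis] at hb
      rw [hb]
      exact IntFrac.of_serInt (toSerInt (A := A) (F := E₀) ⟨_, RedTorsion.basisInt_mem (F := E₀) rfl hM i⟩)
  exact key Finset.univ

theorem intFrac_evU (P : (model0 hM).S[X]) :
    IntFrac ((evU (model0 hM) ((uE (1 : (ZMod M)ˣ) : E₁)) P : E₁) : LaurentSeries Qb)
      (toSer hM (evB (model0 hM) (diaPolyM hM) P)) := by
  induction P using Polynomial.induction_on' with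
  | add P Q hP hQ =>
    rw [RingHom.map_add, RingHom.map_add, RingHom.map_add, IntermediateField.coe_add]
    exact hP.add hQ
  | monomial n a =>
    simp only [evU, coe_eval₂RingHom, eval₂_monomial, IntermediateField.coe_mul,
      IntermediateField.coe_pow, RingHom.comp_apply, coe_algebraMap_E0E1, evB, coe_mapRingHom, map_monomial, toSer,
      AdjoinRoot.lift_mk]
    refine IntFrac.mul (intFrac_model0 hM a) ?_
    have h : ∀ k : ℕ, IntFrac (uK Qb (1 : (ZMod M)ˣ) ^ k)
        (uK (ResidueField A) (1 : (ZMod M)ˣ) ^ k) := by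
      intro k
      rw [← serRed_uInt hM, ← map_pow]
      exact IntFrac.of_serInt (uInt hM 1 ^ k)
    exact h n

/-- Lattice elements are fractions of integral series reducing as the model predicts. -/
theorem intFrac_model1 (y : (model1 hM).S) :
    IntFrac (((y : E₁)) : LaurentSeries Qb) (toSer hM ((model1 hM).red y)) := by
  have := isSeparable_Fk hM
  set n := Fintype.card (Idx M)
  let P : (model0 hM).S[X] := ∑ j : Fin n, monomial (j : ℕ)
    (∑ i, ⟨algebraMap (RatFunc Qb) (E₀) ((model1 hM).co y (i, j) : RatFunc Qb),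
      (model0 hM).algebraMap_mem ((model1 hM).co y (i, j)).2⟩
      * ⟨(model0 hM).b i, (model0 hM).basis_mem i⟩)
  have hP : evU (model0 hM) ((uE (1 : (ZMod M)ˣ) : E₁)) P = y := by
    conv_rhs => rw [← (model1 hM).b.sum_repr (y : E₁), Fintype.sum_prod_type_right]
    simp only [P, map_sum, evU, coe_eval₂RingHom, eval₂_monomial]
    refine Finset.sum_congr rfl fun j _ => ?_
    refine Finset.sum_congr rfl fun i _ => ?_
    show _ = (model1 hM).b.repr (y : E₁) (i, j) • ((model0 hM).b.smulTower (basisU hM)) (i, j)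
    rw [Module.Basis.smulTower_apply, basisU_apply, ← smul_assoc,
      ← algebraMap_smul (E₁) _ ((uE (1 : (ZMod M)ˣ) : E₁) ^ (j : ℕ)), smul_eq_mul, Algebra.smul_def]
    rfl
  have hred : (model1 hM).red ⟨_, evU_mem (basisU_apply hM) (monic_diaPolyM hM)
      (natDegree_diaPolyM hM) (evU_diaPolyM hM) (separable_diaPolyM hM) P⟩
      = evB (model0 hM) (diaPolyM hM) P :=
    red_evU (basisU_apply hM) (monic_diaPolyM hM) (natDegree_diaPolyM hM) (evU_diaPolyM hM)
      (separable_diaPolyM hM) P
  rw [show y = ⟨_, evU_mem (basisU_apply hM) (monic_diaPolyM hM) (natDegree_diaPolyM hM)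
    (evU_diaPolyM hM) (separable_diaPolyM hM) P⟩ from Subtype.ext hP.symm, hred]
  exact intFrac_evU hM P

end Fermat.Agent.DeligneSerre.Curve
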